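import Fermat.Agent.EC.Odd
import Fermat.Prelude.Def_GaloisRep_Residual
import Fermat.Prelude.Def_GaloisRep_ComplexConjugation

/-!
# EC package, brick ABS (helper46): odd + irreducible ⇒ absolutely irreducible

For a 2-dimensional `ρ : ResidualGaloisRep k` over a field `k` with `2 ≠ 0`:
if `ρ` is irreducible and odd (`det ρ(c) = -1` for every involution `c ≠ 1` of `ℚ̄`), then every base
change of `ρ` to a field extension is irreducible; in particular `ρ.IsAbsolutelyIrreducible`.
(The eigenlines of `ρ(c)` are `k`-rational.)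

* `complexConjugation_ne_one` : the prelude's `complexConjugation` is a nontrivial involution;
* `ResidualGaloisRep.baseChange_isIrreducible_of_isOdd`;
* `ResidualGaloisRep.isAbsolutelyIrreducible_of_isOdd`.
-/

set_option autoImplicit false

open scoped TensorProduct

namespace Fermat.Agent.EC

/-- The prelude's complex conjugation is not the identity. -/
theorem complexConjugation_ne_one : complexConjugation ≠ 1 := by
  intro h
  obtain ⟨i, hi⟩ := IsAlgClosed.exists_pow_nat_eq (-1 : AlgebraicClosure ℚ) (n := 2) (by norm_num)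
  have h1 := complexEmbedding_complexConjugation i
  rw [h] at h1
  simp only [AlgEquiv.one_apply] at h1
  have h2 : complexEmbedding i ^ 2 = -1 := by
    rw [← map_pow, hi, map_neg, map_one]
  -- a complex number fixed by conjugation is real, and a real square is not `-1`
  have hre : ((complexEmbedding i).re : ℂ) = complexEmbedding i :=
    Complex.conj_eq_iff_re.mp h1.symm
  rw [← hre] at h2
  have h3 : ((complexEmbedding i).re ^ 2 : ℝ) = -1 := by exact_mod_cast h2
  nlinarith [sq_nonneg (complexEmbedding i).re]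

section

variable {k : Type} [Field k]

/-- **odd + irreducible ⇒ irreducible after every field extension.** -/
theorem baseChange_isIrreducible_of_isOdd (h2 : (2 : k) ≠ 0) (ρ : ResidualGaloisRep k)
    (hirr : ρ.IsIrreducible) (hodd : ρ.IsOdd) (k' : Type) [Field k'] [Algebra k k'] :
    (ρ.baseChange k').IsIrreducible := by
  classical
  -- the involution `A = ρ(c)`
  set c := complexConjugation with hc
  set A : Module.End k ρ.V := ρ.ρ c with hA
  have hAA : A * A = 1 := by
    rw [hA, ← map_mul, complexConjugation_mul_self, map_one]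
  have hAAv : ∀ v, A (A v) = v := fun v => by
    have := congrArg (fun f : Module.End k ρ.V => f v) hAA
    simpa using this
  have hdet : LinearMap.det A = -1 := hodd c complexConjugation_mul_self complexConjugation_ne_one
  have h11 : (1 : k) ≠ -1 := by
    intro h
    apply h2
    linear_combination h
  have hA1 : A ≠ 1 := by
    intro h
    rw [h, map_one] at hdet
    exact h11 hdet
  have hAm1 : A ≠ -1 := by
    intro h
    have : LinearMap.det (-1 : Module.End k ρ.V) = 1 := by
      have h' : (-1 : Module.End k ρ.V) = (-1 : k) • (1 : Module.End k ρ.V) := by simp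
      rw [h', LinearMap.det_smul, ρ.finrank_eq, map_one]
      norm_num
    rw [h, this] at hdet
    exact h11 hdet
  -- eigenvectors
  obtain ⟨v, hv⟩ : ∃ v, A v ≠ v := by
    by_contra hcon
    push Not at hcon
    exact hA1 (LinearMap.ext hcon)
  obtain ⟨w, hw⟩ : ∃ w, A w ≠ -w := by
    by_contra hcon
    push Not at hcon
    exact hAm1 (LinearMap.ext (by simpa using hcon))
  obtain ⟨em, hem0, hAem⟩ : ∃ em : ρ.V, em ≠ 0 ∧ A em = -em :=
    ⟨v - A v, sub_ne_zero.mpr (Ne.symm hv), by rw [map_sub, hAAv]; abel⟩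
  obtain ⟨ep, hep0, hAep⟩ : ∃ ep : ρ.V, ep ≠ 0 ∧ A ep = ep :=
    ⟨w + A w, fun h => hw (eq_neg_of_add_eq_zero_right h), by rw [map_add, hAAv]; abel⟩
  have h2inv : ∀ u : ρ.V, (2 : k) • u = 0 → u = 0 := fun u hu =>
    (smul_eq_zero.mp hu).resolve_left h2
  -- linear independence and spanning
  have hli : LinearIndependent k ![ep, em] := by
    rw [LinearIndependent.pair_iff]
    intro s t hst
    have h1 : s • ep - t • em = 0 := by
      have := congrArg A hst
      rw [map_add, map_smul, map_smul, hAep, hAem, map_zero] at this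
      rw [← this]; simp [sub_eq_add_neg]
    have hs : (2 : k) • (s • ep) = 0 := by
      have : (2 : k) • (s • ep) = (s • ep + t • em) + (s • ep - t • em) := by
        rw [two_smul]; abel
      rw [this, hst, h1, add_zero]
    have hs' : s • ep = 0 := h2inv _ hs
    have hs0 : s = 0 := (smul_eq_zero.mp hs').resolve_right hep0
    rw [hs0, zero_smul, zero_add] at hst
    exact ⟨hs0, (smul_eq_zero.mp hst).resolve_right hem0⟩
  have hspan : ∀ u : ρ.V, ∃ a b : k, a • ep + b • em = u := by
    have htop := hli.span_eq_top_of_card_eq_finrank' (by simp [ρ.finrank_eq])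
    intro u
    have hu : u ∈ Submodule.span k (Set.range ![ep, em]) := by rw [htop]; trivial
    have hr : Set.range ![ep, em] = {ep, em} := by
      ext z; simp [eq_comm, or_comm]
    rw [hr] at hu
    exact Submodule.mem_span_pair.mp hu
  -- the argument
  intro W hW
  by_contra hcon
  push Not at hcon
  obtain ⟨hbot, htop⟩ := hcon
  -- base-changed vectors
  obtain ⟨Ep, hEp⟩ : ∃ Ep : k' ⊗[k] ρ.V, Ep = (1 : k') ⊗ₜ[k] ep := ⟨_, rfl⟩
  obtain ⟨Em, hEm⟩ : ∃ Em : k' ⊗[k] ρ.V, Em = (1 : k') ⊗ₜ[k] em := ⟨_, rfl⟩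
  have htm : ∀ (a : k') (r : k) (u : ρ.V),
      a ⊗ₜ[k] (r • u) = (a * algebraMap k k' r) • ((1 : k') ⊗ₜ[k] u) := by
    intro a r u
    rw [TensorProduct.smul_tmul', smul_eq_mul, mul_one, ← TensorProduct.smul_tmul,
      Algebra.smul_def, mul_comm]
  have hact : ∀ (σ : AlgebraicClosure ℚ ≃ₐ[ℚ] AlgebraicClosure ℚ) (u : ρ.V),
      (ρ.baseChange k').ρ σ ((1 : k') ⊗ₜ[k] u) = (1 : k') ⊗ₜ[k] (ρ.ρ σ u) := fun σ u =>
    LinearMap.baseChange_tmul _ _ _
  have hspan' : ∀ z : k' ⊗[k] ρ.V, ∃ x y : k', x • Ep + y • Em = z := by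
    intro z
    induction z using TensorProduct.induction_on with
    | zero => exact ⟨0, 0, by simp⟩
    | tmul a u =>
      obtain ⟨s, t, rfl⟩ := hspan u
      refine ⟨a * algebraMap k k' s, a * algebraMap k k' t, ?_⟩
      rw [hEp, hEm, TensorProduct.tmul_add, htm, htm]
    | add z₁ z₂ h₁ h₂ =>
      obtain ⟨x₁, y₁, rfl⟩ := h₁
      obtain ⟨x₂, y₂, rfl⟩ := h₂
      exact ⟨x₁ + x₂, y₁ + y₂, by simp only [add_smul]; abel⟩
  have hWtop : Ep ∈ W → Em ∈ W → False := by
    intro h1 h2
    apply htop
    rw [eq_top_iff]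
    intro z _
    obtain ⟨x, y, rfl⟩ := hspan' z
    exact W.add_mem (W.smul_mem _ h1) (W.smul_mem _ h2)
  -- a stable line in `V` contradicts irreducibility
  have hline : ∀ e e' : ρ.V, e ≠ 0 → e' ≠ 0 → (∀ s : k, e' ≠ s • e) →
      (∀ σ, ∃ a : k, ρ.ρ σ e = a • e) → False := by
    intro e e' he he' hne hst
    have := hirr (Submodule.span k {e}) (by
      intro σ x hx
      obtain ⟨r, rfl⟩ := Submodule.mem_span_singleton.mp hx
      obtain ⟨a, ha⟩ := hst σ
      rw [map_smul, ha]
      exact Submodule.smul_mem _ _ (Submodule.smul_mem _ _ (Submodule.mem_span_singleton_self e)))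
    rcases this with h | h
    · exact he ((Submodule.span_singleton_eq_bot).mp h)
    · have : e' ∈ Submodule.span k {e} := by rw [h]; trivial
      obtain ⟨s, hs⟩ := Submodule.mem_span_singleton.mp this
      exact hne s hs.symm
  have hem_ne : ∀ s : k, em ≠ s • ep := by
    intro s h
    have h1 := congrArg A h
    rw [map_smul, hAep, hAem, ← h] at h1
    apply hem0
    apply h2inv
    rw [two_smul]
    nth_rewrite 1 [← h1]
    abel
  have hep_ne : ∀ s : k, ep ≠ s • em := by
    intro s h
    have h1 := congrArg A h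
    rw [map_smul, hAep, hAem, smul_neg, ← h] at h1
    apply hep0
    apply h2inv
    rw [two_smul]
    nth_rewrite 2 [h1]
    abel
  -- a nonzero vector of `W`
  obtain ⟨z, hzW, hz0⟩ := (Submodule.ne_bot_iff W).mp hbot
  obtain ⟨x, y, hxy⟩ := hspan' z
  have hAz : (ρ.baseChange k').ρ c z = x • Ep - y • Em := by
    rw [← hxy, map_add, map_smul, map_smul, hEp, hEm, hact, hact]
    show x • (1 : k') ⊗ₜ[k] (A ep) + y • (1 : k') ⊗ₜ[k] (A em) = _
    rw [hAep, hAem, TensorProduct.tmul_neg, smul_neg, sub_eq_add_neg]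
  have hAzW : x • Ep - y • Em ∈ W := hAz ▸ hW c z hzW
  have hzW' : x • Ep + y • Em ∈ W := hxy ▸ hzW
  have h2' : (2 : k') ≠ 0 := by
    intro h
    apply h2
    have : algebraMap k k' 2 = 0 := by rw [map_ofNat]; exact h
    exact (map_eq_zero _).mp this
  have hxE : x ≠ 0 → Ep ∈ W := by
    intro hx
    have h : (2 * x) • Ep ∈ W := by
      have : (2 * x) • Ep = (x • Ep + y • Em) + (x • Ep - y • Em) := by
        rw [mul_smul, two_smul]; abel
      rw [this]; exact W.add_mem hzW' hAzW
    have := W.smul_mem (2 * x)⁻¹ h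
    rwa [smul_smul, inv_mul_cancel₀ (mul_ne_zero h2' hx), one_smul] at this
  have hyE : y ≠ 0 → Em ∈ W := by
    intro hy
    have h : (2 * y) • Em ∈ W := by
      have : (2 * y) • Em = (x • Ep + y • Em) - (x • Ep - y • Em) := by
        rw [mul_smul, two_smul]; abel
      rw [this]; exact W.sub_mem hzW' hAzW
    have := W.smul_mem (2 * y)⁻¹ h
    rwa [smul_smul, inv_mul_cancel₀ (mul_ne_zero h2' hy), one_smul] at this
  have hxy0 : x ≠ 0 ∨ y ≠ 0 := by
    by_contra hcon
    push Not at hcon
    apply hz0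
    rw [← hxy, hcon.1, hcon.2]; simp
  rcases hxy0 with hx | hy
  · -- `Ep ∈ W`: the line `k ep` is stable
    have hEpW := hxE hx
    have hEpW' : (1 : k') ⊗ₜ[k] ep ∈ W := hEp ▸ hEpW
    apply hline ep em hep0 hem0 hem_ne
    intro σ
    obtain ⟨a, b, hab⟩ := hspan (ρ.ρ σ ep)
    by_cases hb : b = 0
    · exact ⟨a, by rw [← hab, hb, zero_smul, add_zero]⟩
    · exfalso
      apply hWtop hEpW
      rw [hEm]
      have h1 : (1 : k') ⊗ₜ[k] (ρ.ρ σ ep) ∈ W := by
        rw [← hact]; exact hW σ _ hEpW'
      rw [← hab, TensorProduct.tmul_add] at h1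
      have h3 : (1 : k') ⊗ₜ[k] (b • em) ∈ W := by
        have h4 : (1 : k') ⊗ₜ[k] (a • ep) ∈ W := by
          rw [TensorProduct.tmul_smul]
          exact W.smul_of_tower_mem a hEpW'
        have := W.sub_mem h1 h4
        simpa using this
      rw [TensorProduct.tmul_smul] at h3
      have := W.smul_of_tower_mem b⁻¹ h3
      rwa [smul_smul, inv_mul_cancel₀ hb, one_smul] at this
  · have hEmW := hyE hy
    have hEmW' : (1 : k') ⊗ₜ[k] em ∈ W := hEm ▸ hEmW
    apply hline em ep hem0 hep0 hep_ne
    intro σ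
    obtain ⟨a, b, hab⟩ := hspan (ρ.ρ σ em)
    by_cases ha : a = 0
    · exact ⟨b, by rw [← hab, ha, zero_smul, zero_add]⟩
    · exfalso
      refine hWtop ?_ hEmW
      rw [hEp]
      have h1 : (1 : k') ⊗ₜ[k] (ρ.ρ σ em) ∈ W := by
        rw [← hact]; exact hW σ _ hEmW'
      rw [← hab, TensorProduct.tmul_add] at h1
      have h3 : (1 : k') ⊗ₜ[k] (a • ep) ∈ W := by
        have h4 : (1 : k') ⊗ₜ[k] (b • em) ∈ W := by
          rw [TensorProduct.tmul_smul]
          exact W.smul_of_tower_mem b hEmW'
        have := W.sub_mem h1 h4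
        simpa using this
      rw [TensorProduct.tmul_smul] at h3
      have := W.smul_of_tower_mem a⁻¹ h3
      rwa [smul_smul, inv_mul_cancel₀ ha, one_smul] at this

/-- **odd + irreducible ⇒ absolutely irreducible** (`2 ≠ 0` in `k`). -/
theorem isAbsolutelyIrreducible_of_isOdd (h2 : (2 : k) ≠ 0) (ρ : ResidualGaloisRep k)
    (hirr : ρ.IsIrreducible) (hodd : ρ.IsOdd) : ρ.IsAbsolutelyIrreducible :=
  baseChange_isIrreducible_of_isOdd h2 ρ hirr hodd (AlgebraicClosure k)

end

end Fermat.Agent.EC
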