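import Mathlib

/-!
# The `ℓ`-adic Tate module of an abelian group, abstractly (EC package, brick EC-adic (a), part 1)

Mathlib only.  Let `M` be an abelian group, `ℓ` a prime and `r : ℕ`.

* `TateSys M ℓ r` : a compatible system of bases `P n i` (`i : Fin r`) of the `ℓ ^ n`-torsion of `M`
  (`ℓ • P (n+1) i = P n i`, independence modulo `ℓ ^ n`, spanning).
* `exists_tateSys` : such a system exists as soon as `#M[ℓ^n] = ℓ^(r n)` for all `n` and the
  `ℓ`-power torsion of `M` is `ℓ`-divisible.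
* `TateSys.lev S n : (Fin r → ℤ_[ℓ]) →+ M` : the level maps `v ↦ ∑ (v i mod ℓ^n) • P n i`;
  they are onto `M[ℓ^n]`, with kernel `ℓ^n V`, compatible (`ℓ • lev (n+1) v = lev n v`),
  jointly injective, and every compatible sequence of torsion points comes from a unique `v`.
* `TateSys.tateEnd S : AddMonoid.End M →+* Module.End ℤ_[ℓ] (Fin r → ℤ_[ℓ])` : functoriality, a RING
  homomorphism, characterised by `S.lev n (S.tateEnd g v) = g (S.lev n v)`.
-/

namespace Fermat.Agent.EC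

open scoped BigOperators

universe u

/-- A compatible system of bases of the `ℓ ^ n`-torsion of `M`, `n = 0, 1, 2, …`. -/
structure TateSys (M : Type u) [AddCommGroup M] (ℓ : ℕ) (r : ℕ) where
  /-- the basis of level `n` -/
  P : ℕ → Fin r → M
  zero : ∀ i, P 0 i = 0
  compat : ∀ n i, ℓ • P (n + 1) i = P n i
  indep : ∀ (n : ℕ) (a : Fin r → ℤ), ∑ i, a i • P n i = 0 → ∀ i, ((ℓ : ℤ) ^ n) ∣ a i
  span : ∀ (n : ℕ) (R : M), ℓ ^ n • R = 0 → ∃ a : Fin r → ℤ, R = ∑ i, a i • P n i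

namespace TateSys

variable {M : Type u} [AddCommGroup M] {ℓ : ℕ} {r : ℕ} (S : TateSys M ℓ r)

lemma pow_smul_P (n : ℕ) (i : Fin r) : ℓ ^ n • S.P n i = 0 := by
  induction n with
  | zero => rw [pow_zero, one_smul]; exact S.zero i
  | succ n ih => rw [pow_succ, mul_smul, S.compat, ih]

lemma pow_smul_sum (n : ℕ) (a : Fin r → ℤ) : ℓ ^ n • ∑ i, a i • S.P n i = 0 := by
  rw [Finset.smul_sum]
  refine Finset.sum_eq_zero fun i _ => ?_
  rw [smul_comm, S.pow_smul_P, smul_zero]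

lemma smul_sum_succ (n : ℕ) (a : Fin r → ℤ) :
    ℓ • ∑ i, a i • S.P (n + 1) i = ∑ i, a i • S.P n i := by
  rw [Finset.smul_sum]
  refine Finset.sum_congr rfl fun i _ => ?_
  rw [smul_comm, S.compat]

/-- Two integer combinations of the level-`n` basis agree iff the coefficients agree mod `ℓ^n`. -/
lemma sum_eq_sum_iff (n : ℕ) (a b : Fin r → ℤ) :
    ∑ i, a i • S.P n i = ∑ i, b i • S.P n i ↔ ∀ i, ((ℓ : ℤ) ^ n) ∣ a i - b i := by
  constructor
  · intro h
    refine S.indep n (fun i => a i - b i) ?_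
    simp only [sub_smul, Finset.sum_sub_distrib, h, sub_self]
  · intro h
    rw [← sub_eq_zero, ← Finset.sum_sub_distrib]
    refine Finset.sum_eq_zero fun i _ => ?_
    obtain ⟨c, hc⟩ := h i
    rw [← sub_smul, hc, mul_smul]
    have := S.pow_smul_P n i
    rw [smul_comm, ← Nat.cast_pow, natCast_zsmul, this, smul_zero]

/-! ### The level maps -/

variable [hℓ : Fact ℓ.Prime]

/-- An integer representative of the reduction mod `ℓ ^ n` of a `ℓ`-adic integer. -/
noncomputable def rep (n : ℕ) (c : ℤ_[ℓ]) : ℤ := ((PadicInt.toZModPow n c).cast : ℤ)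

omit [AddCommGroup M] in
lemma cast_rep (n : ℕ) (c : ℤ_[ℓ]) : ((rep n c : ℤ) : ZMod (ℓ ^ n)) = PadicInt.toZModPow n c :=
  ZMod.intCast_zmod_cast _

/-- `a : ℤ` represents `c` at level `n`. -/
def IsRep (n : ℕ) (c : ℤ_[ℓ]) (a : ℤ) : Prop := ((a : ℤ) : ZMod (ℓ ^ n)) = PadicInt.toZModPow n c

lemma isRep_rep (n : ℕ) (c : ℤ_[ℓ]) : IsRep n c (rep n c) := cast_rep n c

lemma IsRep.dvd_sub {n : ℕ} {c : ℤ_[ℓ]} {a b : ℤ} (ha : IsRep n c a) (hb : IsRep n c b) :
    ((ℓ : ℤ) ^ n) ∣ a - b := by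
  have h : ((b : ℤ) : ZMod (ℓ ^ n)) = (a : ℤ) := hb.trans ha.symm
  rw [ZMod.intCast_eq_intCast_iff_dvd_sub] at h
  simpa using h

lemma IsRep.add {n : ℕ} {c d : ℤ_[ℓ]} {a b : ℤ} (ha : IsRep n c a) (hb : IsRep n d b) :
    IsRep n (c + d) (a + b) := by
  unfold IsRep at *
  rw [Int.cast_add, map_add, ha, hb]

lemma IsRep.mul {n : ℕ} {c d : ℤ_[ℓ]} {a b : ℤ} (ha : IsRep n c a) (hb : IsRep n d b) :
    IsRep n (c * d) (a * b) := by
  unfold IsRep at *
  rw [Int.cast_mul, map_mul, ha, hb]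

lemma isRep_intCast (n : ℕ) (a : ℤ) : IsRep (ℓ := ℓ) n (a : ℤ_[ℓ]) a := by
  unfold IsRep
  rw [map_intCast]

lemma IsRep.pred {n : ℕ} {c : ℤ_[ℓ]} {a : ℤ} (ha : IsRep (n + 1) c a) : IsRep n c a := by
  unfold IsRep at *
  rw [← PadicInt.cast_toZModPow n (n + 1) (Nat.le_succ n) c, ← ha]
  exact (ZMod.cast_intCast (pow_dvd_pow ℓ (Nat.le_succ n)) a).symm

lemma isRep_zero_iff {n : ℕ} {c : ℤ_[ℓ]} {a : ℤ} (ha : IsRep n c a) :
    PadicInt.toZModPow n c = 0 ↔ ((ℓ : ℤ) ^ n) ∣ a := by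
  unfold IsRep at ha
  rw [← ha, ZMod.intCast_zmod_eq_zero_iff_dvd]
  simp

/-- The level-`n` map of a Tate system, as a function. -/
noncomputable def levFun (n : ℕ) (v : Fin r → ℤ_[ℓ]) : M := ∑ i, rep n (v i) • S.P n i

lemma levFun_eq (n : ℕ) (v : Fin r → ℤ_[ℓ]) (a : Fin r → ℤ) (ha : ∀ i, IsRep n (v i) (a i)) :
    S.levFun n v = ∑ i, a i • S.P n i := by
  unfold levFun
  rw [S.sum_eq_sum_iff]
  exact fun i => (isRep_rep n (v i)).dvd_sub (ha i)

/-- The level-`n` map `V = (ℤ_ℓ)^r → M[ℓ^n]`, `v ↦ ∑ (v i mod ℓ^n) • P n i`. -/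
noncomputable def lev (n : ℕ) : (Fin r → ℤ_[ℓ]) →+ M where
  toFun := S.levFun n
  map_zero' := by
    rw [S.levFun_eq n 0 (fun _ => 0) (fun i => by simpa using isRep_intCast (ℓ := ℓ) n 0)]
    simp
  map_add' v w := by
    rw [S.levFun_eq n (v + w) (fun i => rep n (v i) + rep n (w i))
      (fun i => (isRep_rep n (v i)).add (isRep_rep n (w i)))]
    simp only [add_smul, Finset.sum_add_distrib]
    rfl

lemma lev_eq (n : ℕ) (v : Fin r → ℤ_[ℓ]) (a : Fin r → ℤ) (ha : ∀ i, IsRep n (v i) (a i)) :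
    S.lev n v = ∑ i, a i • S.P n i := S.levFun_eq n v a ha

lemma lev_intCast (n : ℕ) (a : Fin r → ℤ) :
    S.lev n (fun i => (a i : ℤ_[ℓ])) = ∑ i, a i • S.P n i :=
  S.lev_eq n _ a fun i => isRep_intCast n (a i)

lemma pow_smul_lev (n : ℕ) (v : Fin r → ℤ_[ℓ]) : ℓ ^ n • S.lev n v = 0 := by
  rw [S.lev_eq n v _ fun i => isRep_rep n (v i)]
  exact S.pow_smul_sum n _

lemma lev_zero_level (v : Fin r → ℤ_[ℓ]) : S.lev 0 v = 0 := by
  have := S.pow_smul_lev 0 v
  rwa [pow_zero, one_smul] at this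

/-- Compatibility of the level maps. -/
lemma smul_lev_succ (n : ℕ) (v : Fin r → ℤ_[ℓ]) : ℓ • S.lev (n + 1) v = S.lev n v := by
  rw [S.lev_eq (n + 1) v _ fun i => isRep_rep (n + 1) (v i),
    S.lev_eq n v _ fun i => (isRep_rep (n + 1) (v i)).pred, S.smul_sum_succ]

lemma pow_smul_lev_add (n k : ℕ) (v : Fin r → ℤ_[ℓ]) : ℓ ^ k • S.lev (n + k) v = S.lev n v := by
  induction k with
  | zero => rw [pow_zero, one_smul]; rfl
  | succ k ih => rw [pow_succ, mul_smul, ← add_assoc, S.smul_lev_succ, ih]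

/-- The level maps are onto the `ℓ ^ n`-torsion. -/
lemma lev_surjective (n : ℕ) (R : M) (hR : ℓ ^ n • R = 0) : ∃ v : Fin r → ℤ_[ℓ], S.lev n v = R := by
  obtain ⟨a, ha⟩ := S.span n R hR
  exact ⟨fun i => (a i : ℤ_[ℓ]), by rw [S.lev_intCast, ha]⟩

lemma lev_eq_zero_iff (n : ℕ) (v : Fin r → ℤ_[ℓ]) :
    S.lev n v = 0 ↔ ∀ i, PadicInt.toZModPow n (v i) = 0 := by
  rw [S.lev_eq n v _ fun i => isRep_rep n (v i)]
  constructor
  · intro h i
    rw [isRep_zero_iff (isRep_rep n (v i))]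
    exact S.indep n _ h i
  · intro h
    refine Finset.sum_eq_zero fun i _ => ?_
    obtain ⟨c, hc⟩ := (isRep_zero_iff (isRep_rep n (v i))).1 (h i)
    rw [hc, mul_smul, smul_comm, ← Nat.cast_pow, natCast_zsmul, S.pow_smul_P, smul_zero]

/-- The level maps are jointly injective. -/
lemma lev_ext {v w : Fin r → ℤ_[ℓ]} (h : ∀ n, S.lev n v = S.lev n w) : v = w := by
  funext i
  rw [← sub_eq_zero]
  refine PadicInt.ext_of_toZModPow.1 fun n => ?_
  have h0 : S.lev n (v - w) = 0 := by rw [map_sub, h n, sub_self]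
  rw [map_zero]
  exact (S.lev_eq_zero_iff n (v - w)).1 h0 i

/-- Scalars: `lev n (c • v) = (c mod ℓ^n) • lev n v`. -/
lemma lev_smul (n : ℕ) (c : ℤ_[ℓ]) (v : Fin r → ℤ_[ℓ]) (a : ℤ) (ha : IsRep n c a) :
    S.lev n (c • v) = a • S.lev n v := by
  rw [S.lev_eq n (c • v) (fun i => a * rep n (v i)) fun i => ha.mul (isRep_rep n (v i)),
    S.lev_eq n v _ fun i => isRep_rep n (v i), Finset.smul_sum]
  simp only [mul_smul]

lemma lev_smul_val (n : ℕ) (c : ℤ_[ℓ]) (v : Fin r → ℤ_[ℓ]) :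
    S.lev n (c • v) = (PadicInt.toZModPow n c).val • S.lev n v := by
  rw [S.lev_smul n c v ((PadicInt.toZModPow n c).val : ℤ), natCast_zsmul]
  unfold IsRep
  rw [Int.cast_natCast, ZMod.natCast_zmod_val]

/-! ### The kernel of the level map is `ℓ ^ n • V` -/

omit [AddCommGroup M] in
lemma mem_span_smul_top_iff (n : ℕ) (v : Fin r → ℤ_[ℓ]) :
    v ∈ (Ideal.span {(ℓ : ℤ_[ℓ]) ^ n}) • (⊤ : Submodule ℤ_[ℓ] (Fin r → ℤ_[ℓ])) ↔
      ∀ i, PadicInt.toZModPow n (v i) = 0 := by
  constructor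
  · intro hv
    refine Submodule.smul_induction_on hv ?_ ?_
    · intro c hc w _ i
      rw [← PadicInt.ker_toZModPow] at hc
      rw [Pi.smul_apply, smul_eq_mul, map_mul, (RingHom.mem_ker).1 hc, zero_mul]
    · intro x y hx hy i
      rw [Pi.add_apply, map_add, hx i, hy i, add_zero]
  · intro h
    classical
    rw [pi_eq_sum_univ v]
    refine Submodule.sum_mem _ fun i _ => ?_
    refine Submodule.smul_mem_smul ?_ Submodule.mem_top
    rw [← PadicInt.ker_toZModPow]
    exact (RingHom.mem_ker).2 (h i)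

lemma lev_eq_zero_iff_mem (n : ℕ) (v : Fin r → ℤ_[ℓ]) :
    S.lev n v = 0 ↔
      v ∈ (Ideal.span {(ℓ : ℤ_[ℓ]) ^ n}) • (⊤ : Submodule ℤ_[ℓ] (Fin r → ℤ_[ℓ])) := by
  rw [S.lev_eq_zero_iff, mem_span_smul_top_iff]

lemma lev_eq_zero_iff_mem_maximalIdeal (n : ℕ) (v : Fin r → ℤ_[ℓ]) :
    S.lev n v = 0 ↔
      v ∈ (IsLocalRing.maximalIdeal ℤ_[ℓ] ^ n) • (⊤ : Submodule ℤ_[ℓ] (Fin r → ℤ_[ℓ])) := by
  rw [S.lev_eq_zero_iff_mem, PadicInt.maximalIdeal_eq_span_p, Ideal.span_singleton_pow]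

/-! ### Lifting compatible sequences -/

/-- Every compatible sequence of torsion points comes from an element of `V`. -/
lemma exists_lev_eq (R : ℕ → M) (h0 : R 0 = 0) (hR : ∀ n, ℓ • R (n + 1) = R n) :
    ∃ v : Fin r → ℤ_[ℓ], ∀ n, S.lev n v = R n := by
  have htors : ∀ n, ℓ ^ n • R n = 0 := by
    intro n
    induction n with
    | zero => rw [pow_zero, one_smul]; exact h0
    | succ n ih => rw [pow_succ, mul_smul, hR, ih]
  choose a ha using fun n => S.span n (R n) (htors n)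
  have hcompat : ∀ i n, ((ℓ : ℤ) ^ n) ∣ a (n + 1) i - a n i := by
    intro i n
    have h1 : ∑ i, a (n + 1) i • S.P n i = ∑ i, a n i • S.P n i := by
      rw [← S.smul_sum_succ, ← ha (n + 1), hR, ha n]
    exact (S.sum_eq_sum_iff n _ _).1 h1 i
  refine ⟨fun i => PadicInt.ofIntSeq _
    (PadicInt.isCauSeq_padicNorm_of_pow_dvd_sub (fun n => a n i) ℓ (hcompat i)), fun n => ?_⟩
  rw [S.lev_eq n _ (a n), ← ha n]
  intro i
  exact (PadicInt.toZModPow_ofIntSeq_of_pow_dvd_sub (fun n => a n i) ℓ (hcompat i) n).symm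

/-! ### Functoriality: the ring homomorphism `End M → End V` -/

lemma exists_lev_comp (g : AddMonoid.End M) (v : Fin r → ℤ_[ℓ]) :
    ∃ w : Fin r → ℤ_[ℓ], ∀ n, S.lev n w = g (S.lev n v) := by
  refine S.exists_lev_eq (fun n => g (S.lev n v)) ?_ ?_
  · rw [S.lev_zero_level, map_zero]
  · intro n
    rw [← map_nsmul, S.smul_lev_succ]

/-- The action of an endomorphism of `M` on the Tate module, as a function. -/
noncomputable def tateFun (g : AddMonoid.End M) (v : Fin r → ℤ_[ℓ]) : Fin r → ℤ_[ℓ] :=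
  Classical.choose (S.exists_lev_comp g v)

lemma lev_tateFun (g : AddMonoid.End M) (v : Fin r → ℤ_[ℓ]) (n : ℕ) :
    S.lev n (S.tateFun g v) = g (S.lev n v) :=
  Classical.choose_spec (S.exists_lev_comp g v) n

/-- The action of an endomorphism of `M` on the Tate module, as a `ℤ_ℓ`-linear map. -/
noncomputable def tateLin (g : AddMonoid.End M) : Module.End ℤ_[ℓ] (Fin r → ℤ_[ℓ]) where
  toFun := S.tateFun g
  map_add' v w := S.lev_ext fun n => by
    rw [map_add, S.lev_tateFun, S.lev_tateFun, S.lev_tateFun, map_add, map_add]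
  map_smul' c v := S.lev_ext fun n => by
    rw [RingHom.id_apply, S.lev_tateFun, S.lev_smul n c v _ (isRep_rep n c),
      S.lev_smul n c _ _ (isRep_rep n c), S.lev_tateFun, map_zsmul]

lemma lev_tateLin (g : AddMonoid.End M) (v : Fin r → ℤ_[ℓ]) (n : ℕ) :
    S.lev n (S.tateLin g v) = g (S.lev n v) := S.lev_tateFun g v n

/-- **Functoriality of the Tate module**: the ring homomorphism `End M → End_{ℤ_ℓ} V`,
characterised by `S.lev n (S.tateEnd g v) = g (S.lev n v)`. -/
noncomputable def tateEnd : AddMonoid.End M →+* Module.End ℤ_[ℓ] (Fin r → ℤ_[ℓ]) where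
  toFun g := S.tateLin g
  map_one' := LinearMap.ext fun v => S.lev_ext fun n => by
    rw [S.lev_tateLin]; rfl
  map_mul' g h := LinearMap.ext fun v => S.lev_ext fun n => by
    rw [S.lev_tateLin, Module.End.mul_apply, S.lev_tateLin, S.lev_tateLin]; rfl
  map_zero' := LinearMap.ext fun v => S.lev_ext fun n => by
    rw [S.lev_tateLin, LinearMap.zero_apply, map_zero]; rfl
  map_add' g h := LinearMap.ext fun v => S.lev_ext fun n => by
    rw [S.lev_tateLin, LinearMap.add_apply, map_add, S.lev_tateLin, S.lev_tateLin]; rfl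

@[simp]
lemma lev_tateEnd (g : AddMonoid.End M) (v : Fin r → ℤ_[ℓ]) (n : ℕ) :
    S.lev n (S.tateEnd g v) = g (S.lev n v) := S.lev_tateFun g v n

/-- An endomorphism killing all `ℓ`-power torsion acts as `0` on the Tate module. -/
lemma tateEnd_eq_zero (g : AddMonoid.End M) (hg : ∀ n (R : M), ℓ ^ n • R = 0 → g R = 0) :
    S.tateEnd g = 0 :=
  LinearMap.ext fun v => S.lev_ext fun n => by
    rw [S.lev_tateEnd, LinearMap.zero_apply, map_zero]
    exact hg n _ (S.pow_smul_lev n v)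

/-- Two endomorphisms agreeing on all `ℓ`-power torsion act in the same way on the Tate module. -/
lemma tateEnd_congr (g h : AddMonoid.End M) (hg : ∀ n (R : M), ℓ ^ n • R = 0 → g R = h R) :
    S.tateEnd g = S.tateEnd h :=
  LinearMap.ext fun v => S.lev_ext fun n => by
    rw [S.lev_tateEnd, S.lev_tateEnd]
    exact hg n _ (S.pow_smul_lev n v)

/-- An endomorphism fixing the `ℓ ^ n`-torsion pointwise is `≡ 1 mod 𝔪 ^ n` on the Tate module. -/
lemma tateEnd_sub_mem (g : AddMonoid.End M) (n : ℕ) (hg : ∀ R : M, ℓ ^ n • R = 0 → g R = R)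
    (v : Fin r → ℤ_[ℓ]) :
    S.tateEnd g v - v ∈
      (IsLocalRing.maximalIdeal ℤ_[ℓ] ^ n) • (⊤ : Submodule ℤ_[ℓ] (Fin r → ℤ_[ℓ])) := by
  rw [← S.lev_eq_zero_iff_mem_maximalIdeal, map_sub, S.lev_tateEnd,
    hg _ (S.pow_smul_lev n v), sub_self]

/-- Conversely, the action on the `ℓ ^ n`-torsion is determined by the Tate module mod `ℓ ^ n`. -/
lemma apply_eq_of_tateEnd_sub_mem (g : AddMonoid.End M) (n : ℕ)
    (hg : ∀ v : Fin r → ℤ_[ℓ], S.tateEnd g v - v ∈
      (IsLocalRing.maximalIdeal ℤ_[ℓ] ^ n) • (⊤ : Submodule ℤ_[ℓ] (Fin r → ℤ_[ℓ])))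
    (R : M) (hR : ℓ ^ n • R = 0) : g R = R := by
  obtain ⟨v, rfl⟩ := S.lev_surjective n R hR
  have := (S.lev_eq_zero_iff_mem_maximalIdeal n _).2 (hg v)
  rw [map_sub, S.lev_tateEnd, sub_eq_zero] at this
  exact this

end TateSys

/-! ### Existence of a Tate system -/

section Exists

variable (M : Type u) [AddCommGroup M] (ℓ : ℕ) [hℓ : Fact ℓ.Prime] (r : ℕ)

/-- A basis of the `ℓ`-torsion, from its cardinality. -/
lemma exists_basis_one (hcard : Nat.card {P : M // ℓ • P = 0} = ℓ ^ r) :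
    ∃ b : Fin r → M, (∀ i, ℓ • b i = 0) ∧
      ∀ a : Fin r → ℤ, ∑ i, a i • b i = 0 → ∀ i, (ℓ : ℤ) ∣ a i := by
  classical
  let T : AddSubgroup M := (nsmulAddMonoidHom ℓ : M →+ M).ker
  have hmem : ∀ P : M, P ∈ T ↔ ℓ • P = 0 := fun P => by
    rw [AddMonoidHom.mem_ker, nsmulAddMonoidHom_apply]
  have hcardT : Nat.card T = ℓ ^ r := by
    rw [← hcard]
    exact Nat.card_congr (Equiv.subtypeEquivRight hmem)
  have instMod : Module (ZMod ℓ) T := AddCommGroup.zmodModule fun x => Subtype.ext (by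
    rw [AddSubgroup.coe_nsmul]
    exact (hmem _).1 x.2)
  have instFin : Finite T := Nat.finite_of_card_ne_zero (by
    rw [hcardT]; exact pow_ne_zero _ hℓ.out.ne_zero)
  have : Fintype T := Fintype.ofFinite T
  have instMF : Module.Finite (ZMod ℓ) T := Module.Finite.of_finite
  have hfin : Module.finrank (ZMod ℓ) T = r := by
    have h1 := Module.card_eq_pow_finrank (K := ZMod ℓ) (V := T)
    rw [ZMod.card, ← Nat.card_eq_fintype_card, hcardT] at h1
    exact (Nat.pow_right_injective hℓ.out.two_le h1).symm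
  have bs : Module.Basis (Fin r) (ZMod ℓ) T := Module.finBasisOfFinrankEq (ZMod ℓ) T hfin
  refine ⟨fun i => (bs i : M), fun i => (hmem _).1 (bs i).2, fun a ha i => ?_⟩
  have hli := Fintype.linearIndependent_iff.1 bs.linearIndependent (fun i => (a i : ZMod ℓ)) (by
    apply Subtype.ext
    simp only [Int.cast_smul_eq_zsmul]
    rw [AddSubgroup.coe_zero, ← ha]
    simp) i
  exact (ZMod.intCast_zmod_eq_zero_iff_dvd (a i) ℓ).1 hli

/-- The recursive choice of `ℓ`-division points above a level-one basis. -/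
noncomputable def sysSeq (b : Fin r → M) (next : M → M) : ℕ → Fin r → M
  | 0 => fun _ => 0
  | 1 => b
  | (n + 2) => fun i => next (sysSeq b next (n + 1) i)

/-- **Existence of a Tate system**: if `#M[ℓ^n] = ℓ^(r n)` for all `n` and the `ℓ`-power torsion
of `M` is `ℓ`-divisible, then `M` has a compatible system of bases of its `ℓ^n`-torsion. -/
theorem exists_tateSys (hcard : ∀ n : ℕ, Nat.card {P : M // ℓ ^ n • P = 0} = ℓ ^ (r * n))
    (hdiv : ∀ P : M, (∃ n : ℕ, ℓ ^ n • P = 0) → ∃ Q : M, ℓ • Q = P) :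
    Nonempty (TateSys M ℓ r) := by
  classical
  obtain ⟨b, hb0, hbind⟩ := exists_basis_one M ℓ r (by
    have := hcard 1
    simpa using this)
  let next : M → M := fun P => if h : ∃ Q : M, ℓ • Q = P then Classical.choose h else 0
  have hnext : ∀ P : M, (∃ n : ℕ, ℓ ^ n • P = 0) → ℓ • next P = P := by
    intro P hP
    have h := hdiv P hP
    simp only [next, dif_pos h]
    exact Classical.choose_spec h
  let P : ℕ → Fin r → M := sysSeq M r b next
  have hP0 : ∀ i, P 0 i = 0 := fun i => rfl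
  have hP1 : ∀ i, P 1 i = b i := fun i => rfl
  have hP2 : ∀ n i, P (n + 2) i = next (P (n + 1) i) := fun n i => rfl
  -- torsion and compatibility, simultaneously
  have hboth : ∀ n i, ℓ ^ n • P n i = 0 ∧ ℓ • P (n + 1) i = P n i := by
    intro n
    induction n with
    | zero =>
      intro i
      refine ⟨by rw [hP0, smul_zero], ?_⟩
      rw [hP1, hP0, hb0]
    | succ n ih =>
      intro i
      have ht : ℓ ^ (n + 1) • P (n + 1) i = 0 := by
        rw [pow_succ, mul_smul, (ih i).2, (ih i).1]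
      exact ⟨ht, by rw [hP2]; exact hnext _ ⟨n + 1, ht⟩⟩
  have htors : ∀ n i, ℓ ^ n • P n i = 0 := fun n i => (hboth n i).1
  have hcompat : ∀ n i, ℓ • P (n + 1) i = P n i := fun n i => (hboth n i).2
  have hpow : ∀ k n i, ℓ ^ k • P (n + k) i = P n i := by
    intro k
    induction k with
    | zero => intro n i; rw [pow_zero, one_smul]; rfl
    | succ k ih =>
      intro n i
      rw [pow_succ, mul_smul, ← add_assoc, hcompat, ih]
  -- independence
  have hindep : ∀ (n : ℕ) (a : Fin r → ℤ), ∑ i, a i • P n i = 0 → ∀ i, ((ℓ : ℤ) ^ n) ∣ a i := by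
    intro n
    induction n with
    | zero => intro a _ i; rw [pow_zero]; exact one_dvd _
    | succ n ih =>
      intro a ha
      -- multiply by `ℓ ^ n` to land in level 1
      have h1 : ∑ i, a i • b i = 0 := by
        have h2 := congrArg (fun x => ℓ ^ n • x) ha
        simp only [smul_zero, Finset.smul_sum] at h2
        rw [← h2]
        refine Finset.sum_congr rfl fun i _ => ?_
        rw [smul_comm, ← hP1 i]
        congr 1
        have := hpow n 1 i
        rw [add_comm] at this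
        exact this.symm
      have hdvd := hbind a h1
      choose a' ha' using hdvd
      have h3 : ∑ i, a' i • P n i = 0 := by
        rw [← ha]
        refine Finset.sum_congr rfl fun i _ => ?_
        rw [ha' i, mul_smul, ← hcompat n i, natCast_zsmul, smul_comm]
      intro i
      rw [ha' i, pow_succ, mul_comm]
      exact mul_dvd_mul_left _ (ih a' h3 i)
  -- spanning, by counting
  have hspan : ∀ (n : ℕ) (R : M), ℓ ^ n • R = 0 → ∃ a : Fin r → ℤ, R = ∑ i, a i • P n i := by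
    intro n R hR
    have htorsum : ∀ a : Fin r → ℤ, ℓ ^ n • ∑ i, a i • P n i = 0 := by
      intro a
      rw [Finset.smul_sum]
      refine Finset.sum_eq_zero fun i _ => ?_
      rw [smul_comm, htors, smul_zero]
    let φ : (Fin r → ZMod (ℓ ^ n)) → {R : M // ℓ ^ n • R = 0} := fun x =>
      ⟨∑ i, ((x i).cast : ℤ) • P n i, htorsum _⟩
    have hinj : Function.Injective φ := by
      intro x y hxy
      have h1 : ∑ i, ((x i).cast : ℤ) • P n i = ∑ i, ((y i).cast : ℤ) • P n i :=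
        congrArg Subtype.val hxy
      have h2 : ∑ i, (((x i).cast : ℤ) - ((y i).cast : ℤ)) • P n i = 0 := by
        simp only [sub_smul, Finset.sum_sub_distrib, h1, sub_self]
      funext i
      have h3 := hindep n _ h2 i
      have h4 : (((y i).cast : ℤ) : ZMod (ℓ ^ n)) = (((x i).cast : ℤ) : ZMod (ℓ ^ n)) := by
        rw [ZMod.intCast_eq_intCast_iff_dvd_sub]
        simpa using h3
      rw [ZMod.intCast_zmod_cast, ZMod.intCast_zmod_cast] at h4
      exact h4.symm
    have : Finite {R : M // ℓ ^ n • R = 0} := Nat.finite_of_card_ne_zero (by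
      rw [hcard n]; exact pow_ne_zero _ hℓ.out.ne_zero)
    have hle : Nat.card {R : M // ℓ ^ n • R = 0} ≤ Nat.card (Fin r → ZMod (ℓ ^ n)) := by
      rw [hcard n, Nat.card_fun, Nat.card_zmod, Nat.card_fin, ← pow_mul, mul_comm]
    obtain ⟨x, hx⟩ := (hinj.bijective_of_nat_card_le hle).2 ⟨R, hR⟩
    exact ⟨fun i => ((x i).cast : ℤ), (congrArg Subtype.val hx).symm⟩
  exact ⟨⟨P, hP0, hcompat, hindep, hspan⟩⟩

end Exists

end Fermat.Agent.EC
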