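import Mathlib
import Fermat.Agent.S13.MFSomos
import Fermat.Agent.S13.DivPoly.Universal

/-!
# EC library: the division polynomial criterion over every field with `2 ≠ 0` (helper77)

* `ec_psiAt_eq_evalEval`: `psiAt W x y n = (W.ψ n).evalEval x y`;
* `ec_mfStmt`: `MFStmt E` for every Weierstrass curve over a field with `2 ≠ 0`;
* `ec_starAdd`, `ec_starMul`: the universal identities `StarAdd`, `StarMul` for every Weierstrass
  curve over every field (proved over `Frac ℤ[a₁, a₂, a₃, a₄, a₆]`, then specialised);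
* `ec_crit`: for every affine point `P` of a Weierstrass curve over a field with `2 ≠ 0` and all
  `n`: `n • P = 0 ↔ ΨSq_n(x(P)) = 0`, `x(n • P) * ΨSq_n(x(P)) = Φ_n(x(P))` if `n • P ≠ 0`, and
  `Φ_n`, `ΨSq_n` have no common zero at `x(P)`.
-/

set_option autoImplicit false
set_option linter.unusedSectionVars false

namespace Fermat.Agent.EC

open WeierstrassCurve WeierstrassCurve.Affine Polynomial Fermat.Agent.S05 Fermat.Agent.S13
  Fermat.Agent.S13.DivX

section Bridge

variable {K : Type*} [Field K] (W : WeierstrassCurve K)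

/-- `psiAt` is the value of the bivariate division polynomial `ψ n` at `(x, y)`. -/
theorem ec_psiAt_eq_evalEval (x y : K) (n : ℤ) : psiAt W x y n = (W.ψ n).evalEval x y := by
  have h1 : (W.ψ n).evalEval x y = (Polynomial.evalEvalRingHom x y) (W.ψ n) := rfl
  rw [h1, WeierstrassCurve.ψ, map_normEDS, psiAt]
  congr 1
  · simp [WeierstrassCurve.ψ₂, WeierstrassCurve.Affine.polynomialY, Polynomial.evalEvalRingHom]
    ring
  · simp [Polynomial.evalEvalRingHom]
  · simp [Polynomial.evalEvalRingHom]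

variable [DecidableEq K]

/-- The multiplication formula below the first zero, in the form `MFStmt`. -/
theorem ec_mfStmt (h2 : (2 : K) ≠ 0) : MFStmt W := by
  intro x y h N hN
  refine ⟨fun k hk hkN => ?_, fun h0 => ?_⟩
  · have := (mf h2 h N hN k hk hkN).2
    simp only [← ec_psiAt_eq_evalEval]
    linear_combination -this
  · rw [← ec_psiAt_eq_evalEval]
    rcases Nat.eq_zero_or_pos N with rfl | hNpos
    · exfalso
      rw [zero_add, one_nsmul] at h0
      exact Point.some_ne_zero h h0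
    · exact mfZ h2 h (N + 1) (by omega) (fun k hk hkN => hN k hk (by omega)) h0

end Bridge

section Universal

/-- `StarAdd` for a Weierstrass curve over a commutative ring. -/
def StarAddR {R : Type*} [CommRing R] (W : WeierstrassCurve R) (n : ℤ) : Prop :=
  W.Φ (n + 1) * W.ΨSq (n - 1) + W.Φ (n - 1) * W.ΨSq (n + 1) =
    2 * W.Φ n * X * (W.Φ n + X * W.ΨSq n) + C W.b₂ * X * W.Φ n * W.ΨSq n
      + C W.b₄ * (W.Φ n + X * W.ΨSq n) * W.ΨSq n + C W.b₆ * W.ΨSq n ^ 2

/-- `StarMul` for a Weierstrass curve over a commutative ring. -/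
def StarMulR {R : Type*} [CommRing R] (W : WeierstrassCurve R) (n : ℤ) : Prop :=
  W.Φ (n + 1) * W.Φ (n - 1) =
    X ^ 2 * W.Φ n ^ 2 - C W.b₄ * X * W.Φ n * W.ΨSq n
      - C W.b₆ * (W.Φ n + X * W.ΨSq n) * W.ΨSq n - C W.b₈ * W.ΨSq n ^ 2

variable {R S : Type*} [CommRing R] [CommRing S] (f : R →+* S) (W : WeierstrassCurve R)

lemma starAddR_map_iff_map_eq (n : ℤ) :
    StarAddR (W.map f) n ↔
      (W.Φ (n + 1) * W.ΨSq (n - 1) + W.Φ (n - 1) * W.ΨSq (n + 1)).map f =
        (2 * W.Φ n * X * (W.Φ n + X * W.ΨSq n) + C W.b₂ * X * W.Φ n * W.ΨSq n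
          + C W.b₄ * (W.Φ n + X * W.ΨSq n) * W.ΨSq n + C W.b₆ * W.ΨSq n ^ 2).map f := by
  unfold StarAddR
  simp only [map_Φ, map_ΨSq, WeierstrassCurve.map_b₂, WeierstrassCurve.map_b₄,
    WeierstrassCurve.map_b₆, Polynomial.map_add, Polynomial.map_mul, Polynomial.map_pow,
    Polynomial.map_X, Polynomial.map_C, Polynomial.map_ofNat]

lemma starMulR_map_iff_map_eq (n : ℤ) :
    StarMulR (W.map f) n ↔
      (W.Φ (n + 1) * W.Φ (n - 1)).map f =
        (X ^ 2 * W.Φ n ^ 2 - C W.b₄ * X * W.Φ n * W.ΨSq n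
          - C W.b₆ * (W.Φ n + X * W.ΨSq n) * W.ΨSq n - C W.b₈ * W.ΨSq n ^ 2).map f := by
  unfold StarMulR
  simp only [map_Φ, map_ΨSq, WeierstrassCurve.map_b₄, WeierstrassCurve.map_b₈,
    WeierstrassCurve.map_b₆, Polynomial.map_add, Polynomial.map_sub, Polynomial.map_mul,
    Polynomial.map_pow, Polynomial.map_X, Polynomial.map_C]

lemma starAddR_map {n : ℤ} (h : StarAddR W n) : StarAddR (W.map f) n :=
  (starAddR_map_iff_map_eq f W n).2 (congrArg (Polynomial.map f) h)

lemma starMulR_map {n : ℤ} (h : StarMulR W n) : StarMulR (W.map f) n :=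
  (starMulR_map_iff_map_eq f W n).2 (congrArg (Polynomial.map f) h)

lemma starAddR_of_map (hf : Function.Injective f) {n : ℤ} (h : StarAddR (W.map f) n) :
    StarAddR W n :=
  Polynomial.map_injective f hf ((starAddR_map_iff_map_eq f W n).1 h)

lemma starMulR_of_map (hf : Function.Injective f) {n : ℤ} (h : StarMulR (W.map f) n) :
    StarMulR W n :=
  Polynomial.map_injective f hf ((starMulR_map_iff_map_eq f W n).1 h)

/-- The universal Weierstrass curve over `ℤ[a₁, a₂, a₃, a₄, a₆]`. -/
noncomputable def univCurve : WeierstrassCurve (MvPolynomial (Fin 5) ℤ) :=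
  ⟨MvPolynomial.X 0, MvPolynomial.X 1, MvPolynomial.X 2, MvPolynomial.X 3, MvPolynomial.X 4⟩

/-- The specialisation map of the universal curve to a given curve. -/
noncomputable def univSpec (W : WeierstrassCurve R) : MvPolynomial (Fin 5) ℤ →+* R :=
  (MvPolynomial.aeval (R := ℤ) ![W.a₁, W.a₂, W.a₃, W.a₄, W.a₆]).toRingHom

lemma univCurve_map (W : WeierstrassCurve R) : univCurve.map (univSpec W) = W := by
  ext <;> simp [univCurve, univSpec, WeierstrassCurve.map]

section CharZero

variable {K : Type*} [Field K] [CharZero K] (W : WeierstrassCurve K)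

lemma ff_two_ne_zero : (2 : W.toAffine.FunctionField) ≠ 0 := by
  have h : (algebraMap K W.toAffine.FunctionField) 2 ≠ 0 :=
    (map_ne_zero (algebraMap K W.toAffine.FunctionField)).2 two_ne_zero
  rwa [map_ofNat] at h

/-- `MFStmt` at the function field of a curve in characteristic `0`. -/
theorem ec_mfStmt_WF [DecidableEq W.toAffine.FunctionField] : MFStmt (WF W) :=
  ec_mfStmt (WF W) (ff_two_ne_zero W)

theorem ec_starAdd_charZero (n : ℕ) (hn : 2 ≤ n) : StarAdd W (n : ℤ) := by
  classical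
  exact starAdd_of_MF W (ec_mfStmt_WF W) n hn

theorem ec_starMul_charZero (n : ℕ) (hn : 2 ≤ n) : StarMul W (n : ℤ) := by
  classical
  exact starMul_of_MF W (ec_mfStmt_WF W) n hn

end CharZero

/-- `StarAdd` for the universal curve. -/
theorem univ_starAddR (n : ℕ) (hn : 2 ≤ n) : StarAddR univCurve (n : ℤ) := by
  have hinj : Function.Injective
      (algebraMap (MvPolynomial (Fin 5) ℤ) (FractionRing (MvPolynomial (Fin 5) ℤ))) :=
    IsFractionRing.injective _ _
  have : CharZero (FractionRing (MvPolynomial (Fin 5) ℤ)) :=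
    charZero_of_injective_algebraMap hinj
  exact starAddR_of_map _ univCurve hinj (ec_starAdd_charZero _ n hn)

/-- `StarMul` for the universal curve. -/
theorem univ_starMulR (n : ℕ) (hn : 2 ≤ n) : StarMulR univCurve (n : ℤ) := by
  have hinj : Function.Injective
      (algebraMap (MvPolynomial (Fin 5) ℤ) (FractionRing (MvPolynomial (Fin 5) ℤ))) :=
    IsFractionRing.injective _ _
  have : CharZero (FractionRing (MvPolynomial (Fin 5) ℤ)) :=
    charZero_of_injective_algebraMap hinj
  exact starMulR_of_map _ univCurve hinj (ec_starMul_charZero _ n hn)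

/-- `StarAdd` for every Weierstrass curve over every commutative ring. -/
theorem ec_starAddR (W : WeierstrassCurve R) (n : ℕ) (hn : 2 ≤ n) : StarAddR W (n : ℤ) := by
  have := starAddR_map (univSpec W) univCurve (univ_starAddR n hn)
  rwa [univCurve_map] at this

/-- `StarMul` for every Weierstrass curve over every commutative ring. -/
theorem ec_starMulR (W : WeierstrassCurve R) (n : ℕ) (hn : 2 ≤ n) : StarMulR W (n : ℤ) := by
  have := starMulR_map (univSpec W) univCurve (univ_starMulR n hn)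
  rwa [univCurve_map] at this

end Universal

section Field

variable {K : Type*} [Field K] (W : WeierstrassCurve K)

theorem ec_starAdd (n : ℕ) (hn : 2 ≤ n) : StarAdd W (n : ℤ) := ec_starAddR W n hn

theorem ec_starMul (n : ℕ) (hn : 2 ≤ n) : StarMul W (n : ℤ) := ec_starMulR W n hn

variable {W} [DecidableEq K]

/-- **The division polynomial criterion** over any field with `2 ≠ 0`, at every affine point and
for every `n`. -/
theorem ec_crit (h2 : (2 : K) ≠ 0) {P : W.toAffine.Point} (hP : P ≠ 0) (n : ℕ) : CritAt P n :=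
  crit h2 (ec_starAdd W) (ec_starMul W) hP n

/-- `n • P = 0 ↔ ΨSq_n(x(P)) = 0`. -/
theorem ec_nsmul_eq_zero_iff (h2 : (2 : K) ≠ 0) {x y : K} (h : W.toAffine.Nonsingular x y)
    (n : ℕ) : n • (Point.some x y h) = 0 ↔ (W.ΨSq (n : ℤ)).eval x = 0 :=
  (ec_crit h2 (Point.some_ne_zero h) n).1

/-- `x(n • P) * ΨSq_n(x(P)) = Φ_n(x(P))` if `n • P ≠ 0`. -/
theorem ec_xOf_nsmul (h2 : (2 : K) ≠ 0) {x y : K} (h : W.toAffine.Nonsingular x y)
    (n : ℕ) (hn : n • (Point.some x y h) ≠ 0) :
    xOf (n • (Point.some x y h)) * (W.ΨSq (n : ℤ)).eval x = (W.Φ (n : ℤ)).eval x :=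
  (ec_crit h2 (Point.some_ne_zero h) n).2.1 hn

/-- `Φ_n` and `ΨSq_n` have no common zero among the `x`-coordinates of points. -/
theorem ec_Φ_ne_zero_of_ΨSq (h2 : (2 : K) ≠ 0) {x y : K} (h : W.toAffine.Nonsingular x y)
    (n : ℕ) (h0 : (W.ΨSq (n : ℤ)).eval x = 0) : (W.Φ (n : ℤ)).eval x ≠ 0 :=
  (ec_crit h2 (Point.some_ne_zero h) n).2.2 h0

end Field

end Fermat.Agent.EC
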