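import Mathlib

/-!
# EC library: the generic member of a pencil `Φ - x₀ Ψ` is separable (helper77)

Pure polynomial algebra over an algebraically closed field.
-/

set_option autoImplicit false

namespace Fermat.Agent.EC

open Polynomial

variable {K : Type*} [Field K]

/-- Degree and monicity of `Φ - C x₀ * Ψ` for `Φ` monic of degree `N > deg Ψ`. -/
lemma pencil_natDegree {Φ Ψ : K[X]} {N : ℕ} (hΦd : Φ.natDegree = N) (hΨd : Ψ.natDegree < N)
    (x₀ : K) : (Φ - C x₀ * Ψ).natDegree = N := by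
  rw [natDegree_sub_eq_left_of_natDegree_lt, hΦd]
  rw [hΦd]
  exact lt_of_le_of_lt (natDegree_C_mul_le _ _) hΨd

lemma pencil_ne_zero {Φ Ψ : K[X]} {N : ℕ} (hN : 1 ≤ N) (hΦd : Φ.natDegree = N)
    (hΨd : Ψ.natDegree < N) (x₀ : K) : Φ - C x₀ * Ψ ≠ 0 := by
  intro h
  have := pencil_natDegree hΦd hΨd x₀
  rw [h, natDegree_zero] at this
  omega

/-- A multiple root of `Φ - C x₀ * Ψ` is a root of the Wronskian. -/
lemma pencil_wronskian_root {Φ Ψ : K[X]} {x₀ a : K} (h0 : (Φ - C x₀ * Ψ).IsRoot a)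
    (h1 : (derivative (Φ - C x₀ * Ψ)).IsRoot a) :
    (derivative Φ * Ψ - Φ * derivative Ψ).IsRoot a := by
  simp only [IsRoot.def, eval_sub, eval_mul, eval_C, derivative_sub, derivative_mul,
    derivative_C, zero_mul, zero_add] at h0 h1 ⊢
  have e0 : Φ.eval a = x₀ * Ψ.eval a := by linear_combination h0
  have e1 : (derivative Φ).eval a = x₀ * (derivative Ψ).eval a := by linear_combination h1
  rw [e0, e1]
  ring

variable [IsAlgClosed K] [DecidableEq K]

/-- **Generic separability of a pencil.**  If `Φ` is monic of degree `N ≥ 1`, `deg Ψ < N`,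
`Φ` and `Ψ` have no common root and the Wronskian `Φ' Ψ - Φ Ψ'` is nonzero, then for all `x₀`
outside a finite set, `Φ - x₀ Ψ` has exactly `N` distinct roots. -/
theorem pencil_card_roots (Φ Ψ : K[X]) (N : ℕ) (hN : 1 ≤ N)
    (hΦd : Φ.natDegree = N) (hΨd : Ψ.natDegree < N)
    (hcop : ∀ a : K, Ψ.eval a = 0 → Φ.eval a ≠ 0)
    (hw : derivative Φ * Ψ - Φ * derivative Ψ ≠ 0) :
    ∃ B : Finset K, ∀ x₀ : K, x₀ ∉ B → (Φ - C x₀ * Ψ).roots.toFinset.card = N := by
  refine ⟨(derivative Φ * Ψ - Φ * derivative Ψ).roots.toFinset.image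
    (fun a => Φ.eval a / Ψ.eval a), fun x₀ hx₀ => ?_⟩
  have hf0 : Φ - C x₀ * Ψ ≠ 0 := pencil_ne_zero hN hΦd hΨd x₀
  have hdeg := pencil_natDegree hΦd hΨd x₀
  have hnodup : (Φ - C x₀ * Ψ).roots.Nodup := by
    rw [Multiset.nodup_iff_count_le_one]
    intro a
    rw [count_roots]
    by_contra hcon
    have hlt : 1 < (Φ - C x₀ * Ψ).rootMultiplicity a := by omega
    obtain ⟨h0, h1⟩ := (one_lt_rootMultiplicity_iff_isRoot hf0).1 hlt
    have hwr := pencil_wronskian_root h0 h1
    have hΨa : Ψ.eval a ≠ 0 := by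
      intro hΨ
      apply hcop a hΨ
      have := h0
      simp only [IsRoot.def, eval_sub, eval_mul, eval_C, hΨ, mul_zero, sub_zero] at this
      exact this
    apply hx₀
    rw [Finset.mem_image]
    refine ⟨a, ?_, ?_⟩
    · rw [Multiset.mem_toFinset, mem_roots hw]
      exact hwr
    · have := h0
      simp only [IsRoot.def, eval_sub, eval_mul, eval_C] at this
      field_simp
      linear_combination this
  rw [Multiset.toFinset_card_of_nodup hnodup, ← hdeg]
  exact IsAlgClosed.card_roots_eq_natDegree
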