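import Mathlib
import Fermat.Prelude.Def_GaloisRep_Adic
import Fermat.Prelude.Def_FLTPrelim_GaloisRep
import Fermat.Agent.S05.Inertia
import Fermat.Agent.EC.Tors
import Fermat.Agent.EC.TateAbs

/-!
# The `ℓ`-adic Tate representation of an elliptic curve over `ℚ` (EC package, brick EC-adic (a))

For `W : WeierstrassCurve ℚ` with `W.Δ ≠ 0` and a prime `ℓ`:

* `tateRep W hΔ ℓ : GaloisRepAdic ℤ_[ℓ]`, with `V = Fin 2 → ℤ_[ℓ]`;
* `tateLevel W hΔ ℓ n : V →+ E[ℓ^n](ℚ̄)` : onto, kernel `ℓ^n V`, `ℤ_ℓ`- and Galois-equivariant,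
  compatible (`ℓ • tateLevel (n+1) v = tateLevel n v`);
* `tateRep_level` : the existential packaging asked for by the S58 plan;
* transfer of relations: `tateRep_rho_eq_one`, `tateRep_rho_quadratic`, `tateRep_rho_unipotent`.
-/

set_option autoImplicit false

namespace Fermat.Agent.EC

open WeierstrassCurve WeierstrassCurve.Affine WeierstrassCurve.Affine.Point

/-- `ℚ̄` -/
local notation "Qbar" => AlgebraicClosure ℚ
/-- `G_ℚ` -/
local notation "GQ" => (AlgebraicClosure ℚ ≃ₐ[ℚ] AlgebraicClosure ℚ)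

section Setup

variable (W : WeierstrassCurve ℚ)

lemma tate_Δ_ne_zero (hΔ : W.Δ ≠ 0) : (W⁄Qbar).Δ ≠ 0 := by
  change (W.map (algebraMap ℚ Qbar)).Δ ≠ 0
  rw [WeierstrassCurve.map_Δ]
  exact fun h => hΔ ((map_eq_zero _).1 h)

lemma tate_two_ne_zero : (2 : Qbar) ≠ 0 := two_ne_zero

lemma tate_cast_ne_zero {n : ℕ} (hn : n ≠ 0) : ((n : ℕ) : Qbar) ≠ 0 := by
  exact_mod_cast hn

variable (ℓ : ℕ) [hℓ : Fact ℓ.Prime]

lemma tate_card (hΔ : W.Δ ≠ 0) (n : ℕ) :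
    Nat.card {P : (W⁄Qbar).Point // ℓ ^ n • P = 0} = ℓ ^ (2 * n) := by
  have h := ec_card_torsion (W := W⁄Qbar) (tate_Δ_ne_zero W hΔ) tate_two_ne_zero
    (n := ℓ ^ n) (tate_cast_ne_zero (pow_ne_zero n hℓ.out.ne_zero))
  rw [pow_mul, pow_right_comm]
  rw [← pow_mul, mul_comm, pow_mul] at h ⊢
  exact h

lemma tate_div (hΔ : W.Δ ≠ 0) (P : (W⁄Qbar).Point) : ∃ Q : (W⁄Qbar).Point, ℓ • Q = P :=
  ec_nsmul_surjective (W := W⁄Qbar) (tate_Δ_ne_zero W hΔ) tate_two_ne_zero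
    (n := ℓ) (tate_cast_ne_zero hℓ.out.ne_zero) P

/-- A compatible system of bases of the `E[ℓ^n](ℚ̄)`. -/
noncomputable def tateSys (hΔ : W.Δ ≠ 0) : TateSys (W⁄Qbar).Point ℓ 2 :=
  Classical.choice (exists_tateSys (W⁄Qbar).Point ℓ 2 (tate_card W ℓ hΔ)
    (fun P _ => tate_div W ℓ hΔ P))

end Setup

section Rep

variable (W : WeierstrassCurve ℚ) (hΔ : W.Δ ≠ 0) (ℓ : ℕ) [hℓ : Fact ℓ.Prime]

/-- The Galois action on `E(ℚ̄)`, as a monoid homomorphism to the additive endomorphisms. -/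
noncomputable def tateGal : GQ →* AddMonoid.End (W⁄Qbar).Point :=
  DistribMulAction.toAddMonoidEnd GQ (W⁄Qbar).Point

lemma tateGal_apply (σ : GQ) (P : (W⁄Qbar).Point) : tateGal W σ P = σ • P := rfl

/-- The action of `G_ℚ` on the Tate module `(ℤ_ℓ)²`. -/
noncomputable def tateRho : GQ →* Module.End ℤ_[ℓ] (Fin 2 → ℤ_[ℓ]) :=
  ((tateSys W ℓ hΔ).tateEnd : AddMonoid.End (W⁄Qbar).Point →* _).comp (tateGal W)

lemma lev_tateRho (σ : GQ) (v : Fin 2 → ℤ_[ℓ]) (n : ℕ) :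
    (tateSys W ℓ hΔ).lev n (tateRho W hΔ ℓ σ v) = σ • (tateSys W ℓ hΔ).lev n v :=
  (tateSys W ℓ hΔ).lev_tateEnd (tateGal W σ) v n

/-- the coordinates of a point (`∅` for the point at infinity) -/
noncomputable def tateCoords {W' : WeierstrassCurve Qbar} : W'.toAffine.Point → Set Qbar
  | .zero => ∅
  | .some x y _ => {x, y}

lemma tateCoords_finite {W' : WeierstrassCurve Qbar} (P : W'.toAffine.Point) :
    (tateCoords P).Finite := by
  cases P with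
  | zero => exact Set.finite_empty
  | some x y h =>
    change ({x, y} : Set Qbar).Finite
    exact Set.toFinite _

/-- The field generated by the coordinates of `E[m]` is a finite extension of `ℚ`, and every
`σ` fixing it fixes `E[m]` pointwise. -/
theorem tate_finite_level (W : WeierstrassCurve ℚ) (hΔ : W.Δ ≠ 0) {m : ℕ} (hm : m ≠ 0) :
    ∃ L : IntermediateField ℚ Qbar, FiniteDimensional ℚ L ∧
      ∀ σ : GQ, (∀ x ∈ L, σ x = x) → ∀ P : (W⁄Qbar).Point, m • P = 0 → σ • P = P := by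
  classical
  have hfin : Finite {P : (W⁄Qbar).Point // m • P = 0} :=
    ec_finite_torsion (W := W⁄Qbar) (tate_Δ_ne_zero W hΔ) tate_two_ne_zero
      (n := m) (tate_cast_ne_zero hm)
  let S : Set Qbar := ⋃ x : {P : (W⁄Qbar).Point // m • P = 0}, tateCoords x.1
  have hS : S.Finite := Set.finite_iUnion fun x => tateCoords_finite _
  have hSf : Finite S := hS.to_subtype
  have halg := Fermat.Agent.S05.isAlgebraic_rat_qbar_of inferInstance
  refine ⟨IntermediateField.adjoin ℚ S, ?_, ?_⟩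
  · exact IntermediateField.finiteDimensional_adjoin
      (fun x _ => (halg.isAlgebraic x).isIntegral)
  · intro σ hσ P hP
    have hmem : ∀ z ∈ tateCoords P, σ z = z := by
      intro z hz
      apply hσ
      apply IntermediateField.subset_adjoin
      exact Set.mem_iUnion.mpr ⟨⟨P, hP⟩, hz⟩
    clear hP
    cases P with
    | zero => rfl
    | some a b h =>
      exact Fermat.Agent.S05.galois_smul_some_eq_self σ h
        (hmem a (by simp [tateCoords])) (hmem b (by simp [tateCoords]))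

/-- **The `ℓ`-adic Tate representation** of an elliptic curve over `ℚ`. -/
noncomputable def tateRep : GaloisRepAdic ℤ_[ℓ] where
  V := Fin 2 → ℤ_[ℓ]
  finrank_eq := by simp
  ρ := tateRho W hΔ ℓ
  isAdicContinuous := by
    intro n
    obtain ⟨L, hL, hfix⟩ := tate_finite_level W hΔ (m := ℓ ^ n) (pow_ne_zero n hℓ.out.ne_zero)
    refine ⟨L, hL, fun σ hσ v => ?_⟩
    exact (tateSys W ℓ hΔ).tateEnd_sub_mem (tateGal W σ) n (fun R hR => hfix σ hσ R hR) v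

@[simp] lemma tateRep_V : (tateRep W hΔ ℓ).V = (Fin 2 → ℤ_[ℓ]) := rfl

lemma tateRep_rho (σ : GQ) : (tateRep W hΔ ℓ).ρ σ = tateRho W hΔ ℓ σ := rfl

/-! ### The level maps -/

/-- The level map `T_ℓ E → E[ℓ^n](ℚ̄)`. -/
noncomputable def tateLevel (n : ℕ) :
    (tateRep W hΔ ℓ).V →+ Submodule.torsionBy ℤ (W⁄Qbar).Point ((ℓ ^ n : ℕ) : ℤ) where
  toFun v := ⟨(tateSys W ℓ hΔ).lev n v, by
    rw [Submodule.mem_torsionBy_iff, natCast_zsmul]
    exact (tateSys W ℓ hΔ).pow_smul_lev n v⟩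
  map_zero' := Subtype.ext (map_zero _)
  map_add' v w := Subtype.ext (map_add _ v w)

lemma coe_tateLevel (n : ℕ) (v : (tateRep W hΔ ℓ).V) :
    ((tateLevel W hΔ ℓ n v : Submodule.torsionBy ℤ (W⁄Qbar).Point ((ℓ ^ n : ℕ) : ℤ)) :
      (W⁄Qbar).Point) = (tateSys W ℓ hΔ).lev n v := rfl

/-- The level maps are onto. -/
theorem tateLevel_surjective (n : ℕ) : Function.Surjective (tateLevel W hΔ ℓ n) := by
  rintro ⟨R, hR⟩
  rw [Submodule.mem_torsionBy_iff, natCast_zsmul] at hR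
  obtain ⟨v, hv⟩ := (tateSys W ℓ hΔ).lev_surjective n R hR
  exact ⟨v, Subtype.ext hv⟩

/-- The kernel of the level-`n` map is `ℓ^n V`. -/
theorem tateLevel_eq_zero_iff (n : ℕ) (v : (tateRep W hΔ ℓ).V) :
    tateLevel W hΔ ℓ n v = 0 ↔
      v ∈ (Ideal.span {(ℓ : ℤ_[ℓ]) ^ n}) • (⊤ : Submodule ℤ_[ℓ] (tateRep W hΔ ℓ).V) := by
  have key := (tateSys W ℓ hΔ).lev_eq_zero_iff_mem n v
  exact ⟨fun h => key.1 (congrArg Subtype.val h), fun h => Subtype.ext (key.2 h)⟩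

/-- The kernel of the level-`n` map is `𝔪^n V`. -/
theorem tateLevel_eq_zero_iff_maximalIdeal (n : ℕ) (v : (tateRep W hΔ ℓ).V) :
    tateLevel W hΔ ℓ n v = 0 ↔
      v ∈ (IsLocalRing.maximalIdeal ℤ_[ℓ] ^ n) • (⊤ : Submodule ℤ_[ℓ] (tateRep W hΔ ℓ).V) := by
  have key := (tateSys W ℓ hΔ).lev_eq_zero_iff_mem_maximalIdeal n v
  exact ⟨fun h => key.1 (congrArg Subtype.val h), fun h => Subtype.ext (key.2 h)⟩

/-- The level maps are `ℤ_ℓ`-equivariant. -/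
theorem tateLevel_smul (n : ℕ) (a : ℤ_[ℓ]) (v : (tateRep W hΔ ℓ).V) :
    tateLevel W hΔ ℓ n (a • v) = (PadicInt.toZModPow n a).val • tateLevel W hΔ ℓ n v :=
  Subtype.ext ((tateSys W ℓ hΔ).lev_smul_val n a v)

/-- The level maps are Galois-equivariant. -/
theorem tateLevel_rho (n : ℕ) (σ : GQ) (v : (tateRep W hΔ ℓ).V) :
    tateLevel W hΔ ℓ n ((tateRep W hΔ ℓ).ρ σ v) = σ • tateLevel W hΔ ℓ n v :=
  Subtype.ext (lev_tateRho W hΔ ℓ σ v n)

/-- The level maps are compatible. -/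
theorem tateLevel_compat (n : ℕ) (v : (tateRep W hΔ ℓ).V) :
    ℓ • (tateLevel W hΔ ℓ (n + 1) v : (W⁄Qbar).Point) = (tateLevel W hΔ ℓ n v : (W⁄Qbar).Point) :=
  (tateSys W ℓ hΔ).smul_lev_succ n v

/-- The level maps are jointly injective. -/
theorem tateLevel_ext {v w : (tateRep W hΔ ℓ).V}
    (h : ∀ n, tateLevel W hΔ ℓ n v = tateLevel W hΔ ℓ n w) : v = w :=
  (tateSys W ℓ hΔ).lev_ext fun n => congrArg Subtype.val (h n)

/-- **EC-adic (a)**, in the shape of the S58 plan: the level structure of the Tate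
representation. -/
theorem tateRep_level (n : ℕ) :
    ∃ π : (tateRep W hΔ ℓ).V →+ Submodule.torsionBy ℤ (W⁄Qbar).Point ((ℓ ^ n : ℕ) : ℤ),
      Function.Surjective π ∧
      (∀ v, π v = 0 ↔
        v ∈ (Ideal.span {(ℓ : ℤ_[ℓ]) ^ n}) • (⊤ : Submodule ℤ_[ℓ] (tateRep W hΔ ℓ).V)) ∧
      (∀ (a : ℤ_[ℓ]) v, π (a • v) = (PadicInt.toZModPow n a).val • π v) ∧
      (∀ (σ : GQ) v, π ((tateRep W hΔ ℓ).ρ σ v) = σ • π v) :=
  ⟨tateLevel W hΔ ℓ n, tateLevel_surjective W hΔ ℓ n, tateLevel_eq_zero_iff W hΔ ℓ n,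
    tateLevel_smul W hΔ ℓ n, tateLevel_rho W hΔ ℓ n⟩

/-! ### Transfer of relations from the torsion points to the Tate module -/

lemma tateRho_eq_tateEnd (σ : GQ) :
    tateRho W hΔ ℓ σ = (tateSys W ℓ hΔ).tateEnd (tateGal W σ) := rfl

lemma tateRho_eq_one (σ : GQ)
    (h : ∀ (n : ℕ) (P : (W⁄Qbar).Point), ℓ ^ n • P = 0 → σ • P = P) :
    tateRho W hΔ ℓ σ = 1 := by
  rw [tateRho_eq_tateEnd, ← map_one (tateSys W ℓ hΔ).tateEnd]
  exact (tateSys W ℓ hΔ).tateEnd_congr _ _ fun n R hR => h n R hR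

lemma tateRho_quadratic (σ : GQ) (t d : ℤ)
    (h : ∀ (n : ℕ) (P : (W⁄Qbar).Point), ℓ ^ n • P = 0 → σ • σ • P - t • σ • P + d • P = 0) :
    tateRho W hΔ ℓ σ * tateRho W hΔ ℓ σ - t • tateRho W hΔ ℓ σ
      + d • (1 : Module.End ℤ_[ℓ] (Fin 2 → ℤ_[ℓ])) = 0 := by
  have key : (tateSys W ℓ hΔ).tateEnd (tateGal W σ) * (tateSys W ℓ hΔ).tateEnd (tateGal W σ)
      - t • (tateSys W ℓ hΔ).tateEnd (tateGal W σ) + d • (1 : Module.End ℤ_[ℓ] (Fin 2 → ℤ_[ℓ]))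
      = (tateSys W ℓ hΔ).tateEnd (tateGal W σ * tateGal W σ - t • tateGal W σ + d • 1) := by
    rw [map_add, map_sub, map_mul, map_zsmul, map_zsmul, map_one]
  rw [tateRho_eq_tateEnd, key]
  refine (tateSys W ℓ hΔ).tateEnd_eq_zero _ fun n R hR => ?_
  exact h n R hR

lemma tateRho_unipotent (σ : GQ)
    (h : ∀ (n : ℕ) (P : (W⁄Qbar).Point), ℓ ^ n • P = 0 →
      σ • (σ • P - P) - (σ • P - P) = 0) :
    (tateRho W hΔ ℓ σ - 1) * (tateRho W hΔ ℓ σ - 1) = 0 := by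
  have key : ((tateSys W ℓ hΔ).tateEnd (tateGal W σ) - 1) *
      ((tateSys W ℓ hΔ).tateEnd (tateGal W σ) - 1)
      = (tateSys W ℓ hΔ).tateEnd ((tateGal W σ - 1) * (tateGal W σ - 1)) := by
    rw [map_mul, map_sub, map_one]
  rw [tateRho_eq_tateEnd, key]
  refine (tateSys W ℓ hΔ).tateEnd_eq_zero _ fun n R hR => ?_
  exact h n R hR

/-- If `σ` fixes every `ℓ`-power torsion point then `ρ σ = 1`. -/
theorem tateRep_rho_eq_one (σ : GQ)
    (h : ∀ (n : ℕ) (P : (W⁄Qbar).Point), ℓ ^ n • P = 0 → σ • P = P) :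
    (tateRep W hΔ ℓ).ρ σ = 1 :=
  tateRho_eq_one W hΔ ℓ σ h

/-- `ρ σ = 1` iff `σ` fixes every `ℓ`-power torsion point. -/
theorem tateRep_rho_eq_one_iff (σ : GQ) :
    (tateRep W hΔ ℓ).ρ σ = 1 ↔
      ∀ (n : ℕ) (P : (W⁄Qbar).Point), ℓ ^ n • P = 0 → σ • P = P := by
  refine ⟨fun h n P hP => ?_, tateRep_rho_eq_one W hΔ ℓ σ⟩
  obtain ⟨v, rfl⟩ := (tateSys W ℓ hΔ).lev_surjective n P hP
  have h1 : tateRho W hΔ ℓ σ = 1 := h
  rw [← lev_tateRho, h1]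
  rfl

/-- A quadratic relation `σ² − tσ + d = 0` on all `ℓ`-power torsion points holds on the Tate
module. -/
theorem tateRep_rho_quadratic (σ : GQ) (t d : ℤ)
    (h : ∀ (n : ℕ) (P : (W⁄Qbar).Point), ℓ ^ n • P = 0 → σ • σ • P - t • σ • P + d • P = 0) :
    (tateRep W hΔ ℓ).ρ σ * (tateRep W hΔ ℓ).ρ σ - t • (tateRep W hΔ ℓ).ρ σ
      + d • (1 : Module.End ℤ_[ℓ] (tateRep W hΔ ℓ).V) = 0 :=
  tateRho_quadratic W hΔ ℓ σ t d h

/-- A relation `(σ − 1)² = 0` on all `ℓ`-power torsion points holds on the Tate module. -/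
theorem tateRep_rho_unipotent (σ : GQ)
    (h : ∀ (n : ℕ) (P : (W⁄Qbar).Point), ℓ ^ n • P = 0 →
      σ • (σ • P - P) - (σ • P - P) = 0) :
    ((tateRep W hΔ ℓ).ρ σ - 1) * ((tateRep W hΔ ℓ).ρ σ - 1) = 0 :=
  tateRho_unipotent W hΔ ℓ σ h

end Rep

end Fermat.Agent.EC
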