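import Mathlib
import Fermat.Prelude.Def_GaloisRep_Adic
import Fermat.Prelude.Def_GaloisRep_LocalConditions
import Fermat.Prelude.Def_FLTPrelim_Modularity
import Fermat.Agent.EC.Tate
import Fermat.Agent.RED.Unram

/-!
# Local properties of the Tate representation (EC package, bricks EC-adic (d) and (c), adic level)

* `charpoly_eq_X_sub_one_sq` : over a domain, `(f - 1)² = 0` on a free module of rank 2 implies
  `charpoly f = (X - 1)²`.
* `tateRepInt W hΔ ℓ` : the Tate representation of an integral model.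
* `tateRepInt_isUnramifiedAt` : unramified at good primes `q ≠ ℓ` (from `RED/Unram.lean`).
* `tateRepInt_isUnipotentOnInertiaAt_of_torsion` : unipotent on inertia at `q` as soon as
  `(σ - 1)² = 0` on all `E[ℓ^n]` for `σ` in the inertia groups at `q`.
-/

set_option autoImplicit false

namespace Fermat.Agent.EC

open WeierstrassCurve WeierstrassCurve.Affine WeierstrassCurve.Affine.Point Polynomial

/-- `ℚ̄` -/
local notation "Qbar" => AlgebraicClosure ℚ
/-- `G_ℚ` -/
local notation "GQ" => (AlgebraicClosure ℚ ≃ₐ[ℚ] AlgebraicClosure ℚ)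

section LinAlg

variable {R : Type*} [CommRing R] [IsDomain R] {V : Type*} [AddCommGroup V] [Module R V]
  [Module.Free R V] [Module.Finite R V]

/-- A nilpotent endomorphism of a finite free module over a domain has characteristic
polynomial `X ^ rank`. -/
lemma charpoly_eq_X_pow_of_isNilpotent (N : Module.End R V) (hN : IsNilpotent N) :
    N.charpoly = X ^ Module.finrank R V := by
  classical
  let b := Module.Free.chooseBasis R V
  have h1 : IsNilpotent (LinearMap.toMatrixAlgEquiv b N) := hN.map (LinearMap.toMatrixAlgEquiv b)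
  have h2 := Matrix.isNilpotent_charpoly_sub_pow_of_isNilpotent h1
  have h3 : (LinearMap.toMatrixAlgEquiv b N).charpoly = N.charpoly := by
    exact LinearMap.charpoly_toMatrix N b
  rw [h3, ← Module.finrank_eq_card_chooseBasisIndex] at h2
  exact sub_eq_zero.1 (IsNilpotent.eq_zero h2)

/-- Over a domain, `(f - 1)² = 0` on a free module of rank `2` implies
`charpoly f = (X - 1)²`. -/
lemma charpoly_eq_X_sub_one_sq (hrk : Module.finrank R V = 2) (f : Module.End R V)
    (hf : (f - 1) * (f - 1) = 0) : f.charpoly = (X - 1) ^ 2 := by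
  have hN : IsNilpotent (f - (1 : R) • (1 : Module.End R V)) := by
    rw [one_smul]
    exact ⟨2, by rw [pow_two, hf]⟩
  have h1 := charpoly_eq_X_pow_of_isNilpotent _ hN
  rw [LinearMap.charpoly_sub_smul, hrk] at h1
  have h2 := congrArg (fun p : R[X] => p.comp (X - C (1 : R))) h1
  simp only [Polynomial.comp_assoc] at h2
  have h3 : (X + C (1 : R)).comp (X - C (1 : R)) = X := by
    simp
  rw [h3, Polynomial.comp_X] at h2
  rw [h2]
  simp

end LinAlg

section Int

variable (W : WeierstrassCurve ℤ) (hΔ : W.Δ ≠ 0) (ℓ : ℕ) [hℓ : Fact ℓ.Prime]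

lemma tate_map_Δ_ne_zero (W : WeierstrassCurve ℤ) (hΔ : W.Δ ≠ 0) :
    (W.map (Int.castRingHom ℚ)).Δ ≠ 0 := by
  rw [WeierstrassCurve.map_Δ]
  intro h
  apply hΔ
  have h' : ((W.Δ : ℤ) : ℚ) = 0 := h
  exact_mod_cast h'

/-- The `ℓ`-adic Tate representation of (the generic fibre of) an integral Weierstrass model. -/
noncomputable def tateRepInt : GaloisRepAdic ℤ_[ℓ] :=
  tateRep (W.map (Int.castRingHom ℚ)) (tate_map_Δ_ne_zero W hΔ) ℓ

/-- **EC-adic (d)**: the Tate representation is unramified at every good prime `q ≠ ℓ`. -/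
theorem tateRepInt_isUnramifiedAt {q : ℕ} (hq : q.Prime) (hgood : W.IsGoodPrimeFor q)
    (hne : q ≠ ℓ) : (tateRepInt W hΔ ℓ).IsUnramifiedAt q := by
  intro A hA σ hσ
  refine tateRep_rho_eq_one _ _ ℓ σ fun n P hP => ?_
  refine Fermat.Agent.RED.inertia_smul_eq_of_good W hq hgood A hA hσ (n := ℓ ^ n) ?_ P hP
  intro hdvd
  exact hne ((Nat.prime_dvd_prime_iff_eq hq hℓ.out).1 (hq.dvd_of_dvd_pow hdvd))

/-- **EC-adic (c)**, adic step: if `(σ - 1)² = 0` on every `E[ℓ^n]` for all `σ` in the inertia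
groups at `q`, then the Tate representation is unipotent on inertia at `q`. -/
theorem tateRepInt_isUnipotentOnInertiaAt_of_torsion {q : ℕ}
    (h : ∀ A : ValuationSubring Qbar, A.LiesOverPrime q → ∀ σ ∈ A.inertiaSubgroupIn ℚ,
      ∀ (n : ℕ) (P : ((W.map (Int.castRingHom ℚ))⁄Qbar).Point), ℓ ^ n • P = 0 →
        σ • (σ • P - P) - (σ • P - P) = 0) :
    (tateRepInt W hΔ ℓ).IsUnipotentOnInertiaAt q := by
  intro A hA σ hσ
  exact charpoly_eq_X_sub_one_sq (tateRepInt W hΔ ℓ).finrank_eq _
    (tateRep_rho_unipotent _ _ ℓ σ (h A hA σ hσ))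

/-- Unramified implies unipotent on inertia. -/
theorem tateRepInt_isUnipotentOnInertiaAt_of_good {q : ℕ} (hq : q.Prime)
    (hgood : W.IsGoodPrimeFor q) (hne : q ≠ ℓ) :
    (tateRepInt W hΔ ℓ).IsUnipotentOnInertiaAt q := by
  intro A hA σ hσ
  rw [tateRepInt_isUnramifiedAt W hΔ ℓ hq hgood hne A hA σ hσ]
  exact charpoly_eq_X_sub_one_sq (tateRepInt W hΔ ℓ).finrank_eq _ (by simp)

end Int

end Fermat.Agent.EC
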