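import Mathlib
import Fermat.Agent.EC.TateLocal
import Fermat.Agent.RED.LinkAll
import Fermat.Agent.HW.KerFinal

/-!
# Frobenius characteristic polynomial on the Tate module (EC package, brick EC-adic (b))

For an integral Weierstrass model `W`, a prime `lam`, a prime `ℓ ∉ {2, lam}` of good reduction
and a Frobenius `τ` at a place of `ℚ̄` over `ℓ`:

  `charpoly ((tateRepInt W hΔ lam).ρ τ) = X² − a_ℓ X + ℓ`,   `a_ℓ = W.apOfModel ℓ`.

Proof.  The LINK (`RED/LinkAll.lean`) gives `f² − a_ℓ f + ℓ = 0` for `f = ρ τ` on `T_lam`.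
By Cayley–Hamilton in rank 2, either the characteristic polynomial is `X² − a_ℓ X + ℓ`, or `f`
is a scalar `c`.  In the scalar case `τ = m` on `E[lam^n]` for every integer `m ≡ c mod lam^n`,
so `lam^(2n)` divides `#ker(φ − m) = m² − a_ℓ m + ℓ` on the reduced curve (HW part 2,
`card_frobPt_eq_zsmul`, and injectivity of the reduction on `E[lam^n]`).  Comparing `m` and
`m + ℓ·lam^n` gives `2c = a_ℓ`, hence `a_ℓ² = 4ℓ`, which is absurd.
-/

set_option autoImplicit false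

namespace Fermat.Agent.EC

open WeierstrassCurve WeierstrassCurve.Affine WeierstrassCurve.Affine.Point Polynomial

/-- `ℚ̄` -/
local notation "Qbar" => AlgebraicClosure ℚ
/-- `G_ℚ` -/
local notation "GQ" => (AlgebraicClosure ℚ ≃ₐ[ℚ] AlgebraicClosure ℚ)

section LinAlg2

variable {R : Type*} [CommRing R] [IsDomain R]

/-- A `2 × 2` matrix over a domain killed by `X² − aX + d` has that characteristic polynomial,
or is a scalar. -/
lemma matrix_charpoly_or_scalar (M : Matrix (Fin 2) (Fin 2) R) (a d : R)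
    (h : M * M - a • M + d • (1 : Matrix (Fin 2) (Fin 2) R) = 0) :
    M.charpoly = X ^ 2 - C a * X + C d ∨ ∃ c : R, M = c • 1 ∧ c * c - a * c + d = 0 := by
  have h00 := congrFun (congrFun h 0) 0
  have h01 := congrFun (congrFun h 0) 1
  have h10 := congrFun (congrFun h 1) 0
  have h11 := congrFun (congrFun h 1) 1
  simp only [Matrix.add_apply, Matrix.sub_apply, Matrix.mul_apply, Fin.sum_univ_two,
    Matrix.smul_apply, Matrix.one_apply_eq, Matrix.zero_apply, smul_eq_mul, mul_one,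
    Matrix.one_apply_ne, ne_eq, zero_ne_one, one_ne_zero, not_false_eq_true, mul_zero,
    add_zero] at h00 h01 h10 h11
  by_cases htr : M 0 0 + M 1 1 = a
  · left
    rw [Matrix.charpoly_fin_two, Matrix.trace_fin_two, Matrix.det_fin_two, htr]
    congr 2
    rw [← htr] at h00
    linear_combination -h00
  · right
    have hne : M 0 0 + M 1 1 - a ≠ 0 := sub_ne_zero.2 htr
    have q0 : M 0 1 = 0 := by
      have : M 0 1 * (M 0 0 + M 1 1 - a) = 0 := by linear_combination h01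
      exact (mul_eq_zero.1 this).resolve_right hne
    have r0 : M 1 0 = 0 := by
      have : M 1 0 * (M 0 0 + M 1 1 - a) = 0 := by linear_combination h10
      exact (mul_eq_zero.1 this).resolve_right hne
    have ps : M 0 0 = M 1 1 := by
      have : (M 0 0 - M 1 1) * (M 0 0 + M 1 1 - a) = 0 := by linear_combination h00 - h11
      exact sub_eq_zero.1 ((mul_eq_zero.1 this).resolve_right hne)
    refine ⟨M 0 0, ?_, ?_⟩
    · ext i j
      fin_cases i <;> fin_cases j <;> simp [q0, r0, ps]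
    · rw [q0] at h00
      linear_combination h00

variable {V : Type*} [AddCommGroup V] [Module R V] [Module.Free R V] [Module.Finite R V]

/-- An endomorphism of a free module of rank `2` over a domain killed by `X² − aX + d` has that
characteristic polynomial, or is a scalar. -/
lemma charpoly_or_scalar (hrk : Module.finrank R V = 2) (f : Module.End R V) (a d : R)
    (h : f * f - a • f + d • (1 : Module.End R V) = 0) :
    f.charpoly = X ^ 2 - C a * X + C d ∨ ∃ c : R, f = c • 1 ∧ c * c - a * c + d = 0 := by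
  classical
  let b : Module.Basis (Fin 2) R V := Module.finBasisOfFinrankEq R V hrk
  have hM : LinearMap.toMatrixAlgEquiv b f * LinearMap.toMatrixAlgEquiv b f
      - a • LinearMap.toMatrixAlgEquiv b f + d • (1 : Matrix (Fin 2) (Fin 2) R) = 0 := by
    rw [← map_mul, ← map_smul, ← map_one (LinearMap.toMatrixAlgEquiv b), ← map_smul, ← map_sub,
      ← map_add, h, _root_.map_zero]
  rcases matrix_charpoly_or_scalar _ a d hM with h1 | ⟨c, hc, hc2⟩
  · left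
    rw [← h1]
    exact (LinearMap.charpoly_toMatrix f b).symm
  · right
    refine ⟨c, ?_, hc2⟩
    apply (LinearMap.toMatrixAlgEquiv b).injective
    rw [hc, map_smul, map_one]

end LinAlg2

section Arith

variable (lam : ℕ) [hlam : Fact lam.Prime]

/-- If `lam^(2n) ∣ m² − a m + ℓ` for all integers `m ≡ c mod lam^n` with `ℓ ∤ m² − a m + ℓ`
(all `n`), then `2c = a` in `ℤ_lam`. -/
lemma two_mul_eq_of_forall_dvd {ℓ : ℕ} (hℓ : ℓ.Prime) (hℓ2 : ℓ ≠ 2) (hne : ℓ ≠ lam) (a : ℤ)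
    (c : ℤ_[lam])
    (H : ∀ (n : ℕ) (m : ℤ), ((m : ℤ) : ZMod (lam ^ n)) = PadicInt.toZModPow n c →
      ¬ (ℓ : ℤ) ∣ m ^ 2 - a * m + ℓ → ((lam : ℤ) ^ (2 * n)) ∣ m ^ 2 - a * m + ℓ) :
    2 * c = (a : ℤ_[lam]) := by
  have hℓint : Prime (ℓ : ℤ) := Nat.prime_iff_prime_int.1 hℓ
  have key : ∀ n, PadicInt.toZModPow n (2 * c - (a : ℤ_[lam])) = 0 := by
    intro n
    -- a residue class `r` mod `ℓ` with `r ≢ 0, a`
    obtain ⟨r, hr0, hra⟩ : ∃ r : ℤ, ¬ (ℓ : ℤ) ∣ r ∧ ¬ (ℓ : ℤ) ∣ r - a := by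
      by_cases h1 : (ℓ : ℤ) ∣ 1 - a
      · refine ⟨2, ?_, ?_⟩
        · intro h2
          have h3 : ℓ ∣ 2 := by exact_mod_cast h2
          exact hℓ2 ((Nat.prime_dvd_prime_iff_eq hℓ Nat.prime_two).1 h3)
        · intro h2
          have h3 : (ℓ : ℤ) ∣ 1 := by
            have := dvd_sub h2 h1
            have e : (2 - a) - (1 - a) = 1 := by ring
            rwa [e] at this
          exact hℓint.not_isUnit (isUnit_of_dvd_one h3)
      · exact ⟨1, fun h => hℓint.not_isUnit (isUnit_of_dvd_one h), h1⟩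
    have hcop : IsCoprime ((lam : ℤ) ^ n) (ℓ : ℤ) := by
      apply IsCoprime.pow_left
      apply Nat.Coprime.isCoprime
      exact (Nat.coprime_primes hlam.out hℓ).2 (Ne.symm hne)
    obtain ⟨u, v, huv⟩ := hcop
    set c₀ : ℤ := ((PadicInt.toZModPow n c).cast : ℤ) with hc₀
    have hc₀rep : ((c₀ : ℤ) : ZMod (lam ^ n)) = PadicInt.toZModPow n c := ZMod.intCast_zmod_cast _
    have hz : (((lam : ℤ) ^ n : ℤ) : ZMod (lam ^ n)) = 0 := by
      have := ZMod.natCast_self (lam ^ n)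
      push_cast at this ⊢
      exact this
    -- the two test integers
    have hrep : ∀ t : ℤ, (((c₀ + (lam : ℤ) ^ n * t : ℤ)) : ZMod (lam ^ n))
        = PadicInt.toZModPow n c := by
      intro t
      rw [Int.cast_add, Int.cast_mul, hz, zero_mul, add_zero, hc₀rep]
    have hmodℓ : ∀ s : ℤ, (ℓ : ℤ) ∣ (c₀ + (lam : ℤ) ^ n * ((r - c₀) * u + ℓ * s)) - r := by
      intro s
      refine ⟨(c₀ - r) * v + (lam : ℤ) ^ n * s, ?_⟩
      linear_combination (r - c₀) * huv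
    have hnot : ∀ m : ℤ, (ℓ : ℤ) ∣ m - r → ¬ (ℓ : ℤ) ∣ m ^ 2 - a * m + ℓ := by
      intro m hm hdiv
      have h1 : (ℓ : ℤ) ∣ m * (m - a) := by
        have : m * (m - a) = (m ^ 2 - a * m + ℓ) - ℓ := by ring
        rw [this]
        exact dvd_sub hdiv dvd_rfl
      rcases hℓint.dvd_or_dvd h1 with h2 | h2
      · apply hr0
        have : r = m - (m - r) := by ring
        rw [this]
        exact dvd_sub h2 hm
      · apply hra
        have : r - a = (m - a) - (m - r) := by ring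
        rw [this]
        exact dvd_sub h2 hm
    set m₀ : ℤ := c₀ + (lam : ℤ) ^ n * ((r - c₀) * u + ℓ * 0) with hm₀
    set m₁ : ℤ := c₀ + (lam : ℤ) ^ n * ((r - c₀) * u + ℓ * 1) with hm₁
    have hD₀ := H n m₀ (hrep _) (hnot m₀ (hmodℓ 0))
    have hD₁ := H n m₁ (hrep _) (hnot m₁ (hmodℓ 1))
    have hdiff : (m₁ ^ 2 - a * m₁ + ℓ) - (m₀ ^ 2 - a * m₀ + ℓ)
        = (lam : ℤ) ^ n * (ℓ * (2 * m₀ - a + ℓ * (lam : ℤ) ^ n)) := by
      rw [hm₁, hm₀]; ring
    have h1 : ((lam : ℤ) ^ n * (lam : ℤ) ^ n) ∣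
        (lam : ℤ) ^ n * (ℓ * (2 * m₀ - a + ℓ * (lam : ℤ) ^ n)) := by
      rw [← hdiff, ← pow_add, ← two_mul]
      exact dvd_sub hD₁ hD₀
    have hlam0 : ((lam : ℤ) ^ n) ≠ 0 := pow_ne_zero _ (by exact_mod_cast hlam.out.ne_zero)
    have h2 : ((lam : ℤ) ^ n) ∣ ℓ * (2 * m₀ - a + ℓ * (lam : ℤ) ^ n) :=
      (mul_dvd_mul_iff_left hlam0).1 h1
    have h3 : ((lam : ℤ) ^ n) ∣ 2 * m₀ - a + ℓ * (lam : ℤ) ^ n :=
      IsCoprime.dvd_of_dvd_mul_left ⟨u, v, huv⟩ h2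
    have h4 : ((lam : ℤ) ^ n) ∣ 2 * m₀ - a := by
      have : 2 * m₀ - a = (2 * m₀ - a + ℓ * (lam : ℤ) ^ n) - ℓ * (lam : ℤ) ^ n := by ring
      rw [this]
      exact dvd_sub h3 (Dvd.intro_left _ rfl)
    have h5 : (((2 * m₀ - a : ℤ)) : ZMod (lam ^ n)) = 0 := by
      rw [ZMod.intCast_zmod_eq_zero_iff_dvd]
      push_cast
      exact h4
    rw [map_sub, map_mul, map_intCast, ← hrep ((r - c₀) * u + ℓ * 0), ← hm₀]
    have h6 : PadicInt.toZModPow n (2 : ℤ_[lam]) = ((2 : ℤ) : ZMod (lam ^ n)) := by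
      rw [Int.cast_ofNat, map_ofNat]
    rw [h6, ← Int.cast_mul, ← Int.cast_sub]
    exact h5
  have h0 : 2 * c - (a : ℤ_[lam]) = 0 :=
    PadicInt.ext_of_toZModPow.1 (fun n => by rw [key n, _root_.map_zero])
  exact sub_eq_zero.1 h0

/-- `a² = 4ℓ` is impossible for an odd prime `ℓ`. -/
lemma sq_ne_four_mul_prime {ℓ : ℕ} (hℓ : ℓ.Prime) (hℓ2 : ℓ ≠ 2) (a : ℤ) : a ^ 2 ≠ 4 * (ℓ : ℤ) := by
  intro h
  have hℓint : Prime (ℓ : ℤ) := Nat.prime_iff_prime_int.1 hℓ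
  have h1 : (ℓ : ℤ) ∣ a ^ 2 := ⟨4, by rw [h]; ring⟩
  obtain ⟨b, rfl⟩ := hℓint.dvd_of_dvd_pow h1
  have hℓ0 : (ℓ : ℤ) ≠ 0 := by exact_mod_cast hℓ.ne_zero
  have h2 : (ℓ : ℤ) * b ^ 2 = 4 := by
    apply mul_left_cancel₀ hℓ0
    linear_combination h
  have h3 : (ℓ : ℤ) ∣ 2 * 2 := ⟨b ^ 2, by rw [h2]; norm_num⟩
  have h4 : (ℓ : ℤ) ∣ 2 := by
    rcases hℓint.dvd_or_dvd h3 with h | h <;> exact h
  have h5 : ℓ ∣ 2 := by exact_mod_cast h4
  exact hℓ2 ((Nat.prime_dvd_prime_iff_eq hℓ Nat.prime_two).1 h5)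

/-- The scalar case is impossible. -/
lemma false_of_scalar {ℓ : ℕ} (hℓ : ℓ.Prime) (hℓ2 : ℓ ≠ 2) (hne : ℓ ≠ lam) (a : ℤ)
    (c : ℤ_[lam]) (hc : c * c - (a : ℤ_[lam]) * c + (ℓ : ℤ_[lam]) = 0)
    (H : ∀ (n : ℕ) (m : ℤ), ((m : ℤ) : ZMod (lam ^ n)) = PadicInt.toZModPow n c →
      ¬ (ℓ : ℤ) ∣ m ^ 2 - a * m + ℓ → ((lam : ℤ) ^ (2 * n)) ∣ m ^ 2 - a * m + ℓ) : False := by
  have h2c := two_mul_eq_of_forall_dvd lam hℓ hℓ2 hne a c H
  have h1 : ((a ^ 2 : ℤ) : ℤ_[lam]) = ((4 * (ℓ : ℤ) : ℤ) : ℤ_[lam]) := by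
    push_cast
    rw [← h2c] at hc ⊢
    linear_combination (-4 : ℤ_[lam]) * hc
  exact sq_ne_four_mul_prime hℓ hℓ2 a (Int.cast_injective h1)

end Arith

section Geo

open Fermat.Agent.RED

/-- If a Frobenius `τ` at a good prime `ℓ ≠ 2` acts as the integer `m` on `E[N](ℚ̄)` (`ℓ ∤ N`),
then `N² ∣ #ker(φ − m) = m² − a_ℓ m + ℓ`. -/
theorem sq_dvd_of_frob_eq_zsmul (W : WeierstrassCurve ℤ) (hΔ : W.Δ ≠ 0) {ℓ : ℕ} (hℓ : ℓ.Prime)
    (hℓ2 : ℓ ≠ 2) (hgood : W.IsGoodPrimeFor ℓ) (A : ValuationSubring Qbar)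
    (hA : A.LiesOverPrime ℓ) (τ : GQ) (hτ : A.IsFrobeniusAt τ ℓ)
    {N : ℕ} (hN : ¬ ℓ ∣ N) (hN0 : N ≠ 0) (m : ℤ)
    (hτm : ∀ P : ((W.map (Int.castRingHom ℚ)).toAffine⁄Qbar).Point, N • P = 0 → τ • P = m • P)
    (hm : ¬ (ℓ : ℤ) ∣ m ^ 2 - W.apOfModel ℓ * m + ℓ) :
    ((N : ℤ) ^ 2) ∣ m ^ 2 - W.apOfModel ℓ * m + ℓ := by
  have : Fact ℓ.Prime := ⟨hℓ⟩
  let _ : DecidableEq (IsLocalRing.ResidueField A) := Classical.decEq _
  have : CharP (IsLocalRing.ResidueField A) ℓ := charP_residueField A hℓ hA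
  let _ : Algebra (ZMod ℓ) (IsLocalRing.ResidueField A) := ZMod.algebra _ ℓ
  have : IsAlgClosed (IsLocalRing.ResidueField A) := isAlgClosed_residueField A
  have hΔA : IsUnit (modelA W A).Δ := isUnit_Δ_modelA hℓ hA hgood
  have hΔℓ : (W.reductionMod ℓ).Δ ≠ 0 := by
    rw [WeierstrassCurve.reductionMod, WeierstrassCurve.map_Δ]
    intro h0
    apply hgood
    have : ((W.Δ : ℤ) : ZMod ℓ) = 0 := by simpa using h0
    exact (ZMod.intCast_zmod_eq_zero_iff_dvd W.Δ ℓ).1 this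
  have hcount := Fermat.Agent.HW.card_frobPt_eq_zsmul ℓ (W.reductionMod ℓ)
    (IsLocalRing.ResidueField A) hℓ2 hΔℓ m hm
  have hcount' : (Nat.card {P : (Fermat.Agent.HW.EK ℓ (W.reductionMod ℓ)
        (IsLocalRing.ResidueField A)).toAffine.Point //
        Fermat.Agent.HW.frobPt ℓ (W.reductionMod ℓ) (IsLocalRing.ResidueField A) P = m • P} : ℤ)
      = m ^ 2 - W.apOfModel ℓ * m + ℓ := hcount
  -- the subgroup `φ = m` of the reduced curve
  let φ : (Fermat.Agent.HW.EK ℓ (W.reductionMod ℓ) (IsLocalRing.ResidueField A)).toAffine.Point →+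
      (Fermat.Agent.HW.EK ℓ (W.reductionMod ℓ) (IsLocalRing.ResidueField A)).toAffine.Point :=
    Fermat.Agent.HW.frobPt ℓ (W.reductionMod ℓ) (IsLocalRing.ResidueField A)
  let g : (Fermat.Agent.HW.EK ℓ (W.reductionMod ℓ) (IsLocalRing.ResidueField A)).toAffine.Point →+
      (Fermat.Agent.HW.EK ℓ (W.reductionMod ℓ) (IsLocalRing.ResidueField A)).toAffine.Point :=
    φ - zsmulAddGroupHom m
  have hg : ∀ Q, Q ∈ g.ker ↔
      Fermat.Agent.HW.frobPt ℓ (W.reductionMod ℓ) (IsLocalRing.ResidueField A) Q = m • Q :=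
    fun Q => by
      rw [AddMonoidHom.mem_ker, AddMonoidHom.sub_apply, zsmulAddGroupHom_apply, sub_eq_zero]
      rfl
  have hcardH : (Nat.card g.ker : ℤ) = m ^ 2 - W.apOfModel ℓ * m + ℓ := by
    rw [← hcount']
    congr 1
    exact Nat.card_congr (Equiv.subtypeEquivRight hg)
  let r : ((W.map (Int.castRingHom ℚ)).toAffine⁄Qbar).Point →+
      (Fermat.Agent.HW.EK ℓ (W.reductionMod ℓ) (IsLocalRing.ResidueField A)).toAffine.Point :=
    redQ (ℓ := ℓ) hΔA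
  have hr_frob : ∀ P, r (τ • P) = φ (r P) := fun P => redQ_frob (ℓ := ℓ) hΔA hτ P
  have hr_inj : ∀ P : ((W.map (Int.castRingHom ℚ)).toAffine⁄Qbar).Point, N • P = 0 →
      r P = 0 → P = 0 := fun P hP h0 =>
    eq_zero_of_redQ_eq_zero (ℓ := ℓ) hΔA hA hN hP h0
  -- the torsion subgroup
  let T : AddSubgroup ((W.map (Int.castRingHom ℚ)).toAffine⁄Qbar).Point :=
    (nsmulAddMonoidHom N).ker
  have hT : ∀ P, P ∈ T ↔ N • P = 0 := fun P => by
    rw [AddMonoidHom.mem_ker, nsmulAddMonoidHom_apply]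
  have hcardT : Nat.card T = N ^ 2 := by
    rw [← ec_card_torsion (W := (W.map (Int.castRingHom ℚ)).toAffine⁄Qbar)
      (tate_Δ_ne_zero _ (tate_map_Δ_ne_zero W hΔ)) tate_two_ne_zero (n := N)
      (tate_cast_ne_zero hN0)]
    exact Nat.card_congr (Equiv.subtypeEquivRight hT)
  -- reduction maps the torsion subgroup injectively into `ker (φ − m)`
  let ψ : T →+ g.ker := AddMonoidHom.codRestrict (r.comp T.subtype) g.ker
    (fun x => by
      rw [hg]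
      have h1 := hr_frob x.1
      rw [hτm x.1 ((hT _).1 x.2), map_zsmul] at h1
      exact h1.symm)
  have hψ : Function.Injective ψ := by
    rw [injective_iff_map_eq_zero]
    intro x hx
    have h1 : r x.1 = 0 := congrArg Subtype.val hx
    exact Subtype.ext (hr_inj x.1 ((hT _).1 x.2) h1)
  have hdvd := AddSubgroup.card_dvd_of_injective ψ hψ
  rw [hcardT] at hdvd
  have h2 : ((N ^ 2 : ℕ) : ℤ) ∣ (Nat.card g.ker : ℤ) := Int.natCast_dvd_natCast.2 hdvd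
  rw [hcardH] at h2
  push_cast at h2
  exact h2

end Geo

section Main

open Fermat.Agent.RED

variable (W : WeierstrassCurve ℤ) (hΔ : W.Δ ≠ 0) (lam : ℕ) [hlam : Fact lam.Prime]

/-- The Eichler–Shimura-type relation `f² − a_ℓ f + ℓ = 0` for `f = ρ(τ)` on the Tate module,
`τ` a Frobenius at a good prime `ℓ ≠ lam` (`ℓ = 2` allowed). -/
theorem tateRepInt_frob_quadratic {ℓ : ℕ} (hℓ : ℓ.Prime) (hgood : W.IsGoodPrimeFor ℓ)
    (hne : ℓ ≠ lam) (A : ValuationSubring Qbar) (hA : A.LiesOverPrime ℓ) (τ : GQ)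
    (hτ : A.IsFrobeniusAt τ ℓ) :
    (tateRepInt W hΔ lam).ρ τ * (tateRepInt W hΔ lam).ρ τ
      - (W.apOfModel ℓ) • (tateRepInt W hΔ lam).ρ τ
      + (ℓ : ℤ) • (1 : Module.End ℤ_[lam] (tateRepInt W hΔ lam).V) = 0 := by
  refine tateRep_rho_quadratic _ _ lam τ (W.apOfModel ℓ) (ℓ : ℤ) fun n P hP => ?_
  refine frobenius_relation_of_torsion_all W hℓ hgood A hA τ hτ (n := lam ^ n) ?_ P hP
  intro hdvd
  exact hne ((Nat.prime_dvd_prime_iff_eq hℓ hlam.out).1 (hℓ.dvd_of_dvd_pow hdvd))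

/-- **EC-adic (b)**: the characteristic polynomial of a Frobenius at a good prime
`ℓ ∉ {2, lam}` on the Tate module is `X² − a_ℓ X + ℓ`. -/
theorem tateRepInt_charpoly_frob {ℓ : ℕ} (hℓ : ℓ.Prime) (hℓ2 : ℓ ≠ 2)
    (hgood : W.IsGoodPrimeFor ℓ) (hne : ℓ ≠ lam) (A : ValuationSubring Qbar)
    (hA : A.LiesOverPrime ℓ) (τ : GQ) (hτ : A.IsFrobeniusAt τ ℓ) :
    LinearMap.charpoly ((tateRepInt W hΔ lam).ρ τ) =
      X ^ 2 - C ((W.apOfModel ℓ : ℤ) : ℤ_[lam]) * X + C ((ℓ : ℤ_[lam])) := by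
  have hq := tateRepInt_frob_quadratic W hΔ lam hℓ hgood hne A hA τ hτ
  rw [← Int.cast_smul_eq_zsmul ℤ_[lam] (W.apOfModel ℓ), ← Int.cast_smul_eq_zsmul ℤ_[lam] (ℓ : ℤ),
    Int.cast_natCast] at hq
  rcases charpoly_or_scalar (tateRepInt W hΔ lam).finrank_eq _ _ _ hq with h | ⟨c, hc, hc2⟩
  · exact h
  · exfalso
    refine false_of_scalar lam hℓ hℓ2 hne (W.apOfModel ℓ) c hc2 fun n m hm hnd => ?_
    have h1 := sq_dvd_of_frob_eq_zsmul W hΔ hℓ hℓ2 hgood A hA τ hτ (N := lam ^ n)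
      (fun hdvd => hne ((Nat.prime_dvd_prime_iff_eq hℓ hlam.out).1 (hℓ.dvd_of_dvd_pow hdvd)))
      (pow_ne_zero n hlam.out.ne_zero) m ?_ hnd
    · rw [pow_mul, pow_right_comm]
      push_cast at h1
      exact h1
    · intro P hP
      obtain ⟨v, rfl⟩ := (tateSys (W.map (Int.castRingHom ℚ)) lam
        (tate_map_Δ_ne_zero W hΔ)).lev_surjective n P hP
      have h2 := lev_tateRho (W.map (Int.castRingHom ℚ)) (tate_map_Δ_ne_zero W hΔ) lam τ v n
      have h3 : tateRho (W.map (Int.castRingHom ℚ)) (tate_map_Δ_ne_zero W hΔ) lam τ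
          = c • (1 : Module.End ℤ_[lam] (Fin 2 → ℤ_[lam])) := hc
      rw [h3, LinearMap.smul_apply, Module.End.one_apply] at h2
      rw [← h2]
      exact (tateSys (W.map (Int.castRingHom ℚ)) lam (tate_map_Δ_ne_zero W hΔ)).lev_smul
        n c v m hm

/-- Trace and determinant read off from a monic quadratic characteristic polynomial. -/
theorem trace_det_of_charpoly_eq {R : Type*} [CommRing R] [Nontrivial R]
    (f : Module.End R (Fin 2 → R)) (a d : R)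
    (h : LinearMap.charpoly f = X ^ 2 - C a * X + C d) :
    LinearMap.trace R _ f = a ∧ LinearMap.det f = d := by
  have hM : (LinearMap.toMatrix (Pi.basisFun R (Fin 2)) (Pi.basisFun R (Fin 2)) f).charpoly
      = X ^ 2 - C a * X + C d := by
    rw [LinearMap.charpoly_toMatrix, h]
  constructor
  · rw [LinearMap.trace_eq_matrix_trace R (Pi.basisFun R (Fin 2)) f,
      Matrix.trace_eq_neg_charpoly_coeff, hM]
    simp [coeff_X, coeff_C]
  · rw [← LinearMap.det_toMatrix (Pi.basisFun R (Fin 2)) f, Matrix.det_eq_sign_charpoly_coeff, hM]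
    simp [coeff_X, coeff_C]

/-- Trace of Frobenius on the Tate module. -/
theorem tateRepInt_trace_frob {ℓ : ℕ} (hℓ : ℓ.Prime) (hℓ2 : ℓ ≠ 2)
    (hgood : W.IsGoodPrimeFor ℓ) (hne : ℓ ≠ lam) (A : ValuationSubring Qbar)
    (hA : A.LiesOverPrime ℓ) (τ : GQ) (hτ : A.IsFrobeniusAt τ ℓ) :
    LinearMap.trace ℤ_[lam] (Fin 2 → ℤ_[lam]) ((tateRepInt W hΔ lam).ρ τ)
      = ((W.apOfModel ℓ : ℤ) : ℤ_[lam]) :=
  (trace_det_of_charpoly_eq _ _ _
    (tateRepInt_charpoly_frob W hΔ lam hℓ hℓ2 hgood hne A hA τ hτ)).1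

/-- Determinant of Frobenius on the Tate module. -/
theorem tateRepInt_det_frob {ℓ : ℕ} (hℓ : ℓ.Prime) (hℓ2 : ℓ ≠ 2)
    (hgood : W.IsGoodPrimeFor ℓ) (hne : ℓ ≠ lam) (A : ValuationSubring Qbar)
    (hA : A.LiesOverPrime ℓ) (τ : GQ) (hτ : A.IsFrobeniusAt τ ℓ) :
    LinearMap.det ((tateRepInt W hΔ lam).ρ τ : Module.End ℤ_[lam] (Fin 2 → ℤ_[lam]))
      = (ℓ : ℤ_[lam]) :=
  (trace_det_of_charpoly_eq _ _ _
    (tateRepInt_charpoly_frob W hΔ lam hℓ hℓ2 hgood hne A hA τ hτ)).2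

end Main

end Fermat.Agent.EC
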