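import Mathlib
import Fermat.Prelude.Def_GaloisRep_Adic
import Fermat.Prelude.Def_FLTPrelim_ModularRep
import Fermat.Agent.EC.TateLocal

/-!
# The residual representation of the Tate module is `E[p]` (EC package, residual dictionary)

For `W : WeierstrassCurve ℚ` with `Δ ≠ 0` and a prime `p`, `ρ = tateRep W hΔ p` acts on
`V = (ℤ_p)²`, and `ρ.residual` acts on `k ⊗ V` (`k` the residue field of `ℤ_p`).  On the other
hand `E[p](ℚ̄)` is a `ZMod p`-module with Galois action (`galoisRepModuleEnd`).  This file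
compares the two:

* `tateResBasis` : the `ZMod p`-basis of `E[p]` given by the level-one points of the Tate system;
* `tateRes_toMatrix` : the matrix of `σ` on `E[p]` in this basis is the reduction mod `p` of the
  matrix of `ρ σ`;
* `tateRes_charpoly` : `charpoly (σ | E[p]) = (charpoly (ρ σ)).map toZMod`;
* `tateRes_residual_charpoly` : the same for `ρ.residual`, through `PadicInt.residueField`;
* `tateRes_isIrreducible` : `E[p]` irreducible ⇒ `ρ.residual.IsIrreducible`;
* `tateRes_isOdd_of_det` : oddness of `ρ.residual` from `det (c | E[p]) = -1`.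
-/

set_option autoImplicit false

namespace Fermat.Agent.EC

open WeierstrassCurve WeierstrassCurve.Affine WeierstrassCurve.Affine.Point Polynomial
open scoped TensorProduct

/-- `ℚ̄` -/
local notation "Qbar" => AlgebraicClosure ℚ
/-- `G_ℚ` -/
local notation "GQ" => (AlgebraicClosure ℚ ≃ₐ[ℚ] AlgebraicClosure ℚ)

namespace TateSys

variable {M : Type*} [AddCommGroup M] {ℓ : ℕ} [hℓ : Fact ℓ.Prime] {r : ℕ} (S : TateSys M ℓ r)

omit [AddCommGroup M] in
/-- the level-one representative reduces to `toZMod` -/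
lemma cast_rep_one (a : ℤ_[ℓ]) : ((rep 1 a : ℤ) : ZMod ℓ) = PadicInt.toZMod a := by
  have h1 : PadicInt.toZModPow 1 (a - ((rep 1 a : ℤ) : ℤ_[ℓ])) = 0 := by
    rw [map_sub, map_intCast, cast_rep, sub_self]
  have h2 : a - ((rep 1 a : ℤ) : ℤ_[ℓ]) ∈ RingHom.ker (PadicInt.toZModPow (p := ℓ) 1) := h1
  rw [PadicInt.ker_toZModPow, pow_one, ← PadicInt.maximalIdeal_eq_span_p,
    ← PadicInt.ker_toZMod] at h2
  have h3 : PadicInt.toZMod (a - ((rep 1 a : ℤ) : ℤ_[ℓ])) = 0 := h2
  rw [map_sub, map_intCast, sub_eq_zero] at h3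
  exact h3.symm

/-- the level map at a standard basis vector -/
lemma lev_single [DecidableEq (Fin r)] (n : ℕ) (j : Fin r) :
    S.lev n (Pi.single j (1 : ℤ_[ℓ])) = S.P n j := by
  have h := S.lev_intCast n (fun i => if i = j then (1 : ℤ) else 0)
  have h1 : (fun i => (((if i = j then (1 : ℤ) else 0 : ℤ)) : ℤ_[ℓ]))
      = Pi.single j (1 : ℤ_[ℓ]) := by
    funext i
    by_cases hij : i = j
    · subst hij; simp
    · simp [hij]
  rw [h1] at h
  rw [h]
  simp

/-- the action of an endomorphism on the level-`n` basis, in terms of the matrix of its action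
on the Tate module -/
lemma apply_P [DecidableEq (Fin r)] (g : AddMonoid.End M) (n : ℕ) (j : Fin r) :
    g (S.P n j) = ∑ i, rep n (S.tateEnd g (Pi.single j 1) i) • S.P n i := by
  rw [← S.lev_single n j, ← S.lev_tateEnd]
  exact S.lev_eq n _ _ fun i => isRep_rep n _

end TateSys


section Conc

variable (W : WeierstrassCurve ℚ) (hΔ : W.Δ ≠ 0) (p : ℕ) [hp : Fact p.Prime]

/-- the level-one points of the Tate system, in `E[p]` -/
noncomputable def tateResPt (i : Fin 2) : Submodule.torsionBy ℤ (W⁄Qbar).Point (p : ℤ) :=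
  ⟨(tateSys W p hΔ).P 1 i, by
    rw [Submodule.mem_torsionBy_iff, natCast_zsmul]
    have := (tateSys W p hΔ).pow_smul_P 1 i
    rwa [pow_one] at this⟩

lemma coe_tateResPt (i : Fin 2) :
    ((tateResPt W hΔ p i : Submodule.torsionBy ℤ (W⁄Qbar).Point (p : ℤ)) : (W⁄Qbar).Point)
      = (tateSys W p hΔ).P 1 i := rfl

/-- scalar multiplication by `ZMod p` on `E[p]` through integer representatives -/
lemma tateRes_zmod_smul (c : ZMod p) (a : ℤ) (ha : ((a : ℤ) : ZMod p) = c)
    (x : Submodule.torsionBy ℤ (W⁄Qbar).Point (p : ℤ)) : c • x = a • x := by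
  rw [← ha, Int.cast_smul_eq_zsmul]

lemma tateRes_sum_coe (a : Fin 2 → ℤ) :
    ((∑ i, a i • tateResPt W hΔ p i : Submodule.torsionBy ℤ (W⁄Qbar).Point (p : ℤ)) :
      (W⁄Qbar).Point) = ∑ i, a i • (tateSys W p hΔ).P 1 i := by
  rw [Fin.sum_univ_two, Fin.sum_univ_two]
  rfl

lemma tateRes_linearIndependent :
    LinearIndependent (ZMod p) (tateResPt W hΔ p) := by
  rw [Fintype.linearIndependent_iff]
  intro g hg i
  have h1 : ∑ i, ((g i).cast : ℤ) • tateResPt W hΔ p i = 0 := by
    rw [← hg]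
    refine Finset.sum_congr rfl fun j _ => ?_
    exact (tateRes_zmod_smul W p (g j) _ (ZMod.intCast_zmod_cast _) _).symm
  have h2 := congrArg (Subtype.val) h1
  rw [tateRes_sum_coe] at h2
  have h3 := (tateSys W p hΔ).indep 1 _ h2 i
  rw [pow_one] at h3
  rw [← ZMod.intCast_zmod_cast (g i)]
  exact (ZMod.intCast_zmod_eq_zero_iff_dvd _ p).2 h3

lemma tateRes_span :
    ⊤ ≤ Submodule.span (ZMod p) (Set.range (tateResPt W hΔ p)) := by
  rintro ⟨R, hR⟩ -
  rw [Submodule.mem_torsionBy_iff, natCast_zsmul] at hR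
  obtain ⟨a, ha⟩ := (tateSys W p hΔ).span 1 R (by rwa [pow_one])
  have h1 : (⟨R, by rw [Submodule.mem_torsionBy_iff, natCast_zsmul]; exact hR⟩ :
      Submodule.torsionBy ℤ (W⁄Qbar).Point (p : ℤ))
      = ∑ i, ((a i : ℤ) : ZMod p) • tateResPt W hΔ p i := by
    apply Subtype.ext
    have h2 : (∑ i, ((a i : ℤ) : ZMod p) • tateResPt W hΔ p i)
        = ∑ i, a i • tateResPt W hΔ p i :=
      Finset.sum_congr rfl fun j _ => tateRes_zmod_smul W p _ _ rfl _
    rw [h2, tateRes_sum_coe]
    exact ha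
  rw [h1]
  exact Submodule.sum_mem _ fun i _ =>
    Submodule.smul_mem _ _ (Submodule.subset_span ⟨i, rfl⟩)

/-- The `ZMod p`-basis of `E[p](ℚ̄)` given by the level-one points of the Tate system. -/
noncomputable def tateResBasis :
    Module.Basis (Fin 2) (ZMod p) (Submodule.torsionBy ℤ (W⁄Qbar).Point (p : ℤ)) :=
  Module.Basis.mk (tateRes_linearIndependent W hΔ p) (tateRes_span W hΔ p)

lemma tateResBasis_apply (i : Fin 2) : tateResBasis W hΔ p i = tateResPt W hΔ p i := by
  unfold tateResBasis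
  rw [Module.Basis.mk_apply]


/-- the matrix of `ρ σ` on the Tate module in the standard basis -/
noncomputable def tateResMat (σ : GQ) : Matrix (Fin 2) (Fin 2) ℤ_[p] :=
  LinearMap.toMatrix (Pi.basisFun ℤ_[p] (Fin 2)) (Pi.basisFun ℤ_[p] (Fin 2)) (tateRho W hΔ p σ)

lemma tateResMat_apply (σ : GQ) (i j : Fin 2) :
    tateResMat W hΔ p σ i j = tateRho W hΔ p σ (Pi.single j 1) i := by
  unfold tateResMat
  rw [LinearMap.toMatrix_apply, Pi.basisFun_apply, Pi.basisFun_repr]

lemma tateResMat_charpoly (σ : GQ) :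
    (tateResMat W hΔ p σ).charpoly = LinearMap.charpoly (tateRho W hΔ p σ) :=
  LinearMap.charpoly_toMatrix _ _

/-- the Galois action on the basis of `E[p]` -/
theorem tateRes_smul_basis (σ : GQ) (j : Fin 2) :
    σ • tateResBasis W hΔ p j
      = ∑ i, PadicInt.toZMod (tateResMat W hΔ p σ i j) • tateResBasis W hΔ p i := by
  have h2 : (∑ i, PadicInt.toZMod (tateResMat W hΔ p σ i j) • tateResBasis W hΔ p i)
      = ∑ i, (TateSys.rep 1 (tateResMat W hΔ p σ i j)) • tateResPt W hΔ p i :=
    Finset.sum_congr rfl fun i _ => by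
      rw [tateResBasis_apply]
      exact tateRes_zmod_smul W p _ _ (TateSys.cast_rep_one _) _
  rw [h2, tateResBasis_apply]
  apply Subtype.ext
  rw [tateRes_sum_coe]
  have h3 := (tateSys W p hΔ).apply_P (tateGal W σ) 1 j
  rw [tateGal_apply] at h3
  refine h3.trans (Finset.sum_congr rfl fun i _ => ?_)
  rw [tateResMat_apply]
  rfl

/-- The matrix of `σ` on `E[p]` is the reduction mod `p` of the matrix of `ρ σ`. -/
theorem tateRes_toMatrix (σ : GQ) :
    LinearMap.toMatrix (tateResBasis W hΔ p) (tateResBasis W hΔ p)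
        (galoisRepModuleEnd (S := ℚ) (K := Qbar) W p σ)
      = (tateResMat W hΔ p σ).map PadicInt.toZMod := by
  ext i j
  rw [LinearMap.toMatrix_apply, galoisRepModuleEnd_apply, tateRes_smul_basis,
    Module.Basis.repr_sum_self, Matrix.map_apply]

include hΔ in
lemma tateRes_finite : Module.Finite (ZMod p) (Submodule.torsionBy ℤ (W⁄Qbar).Point (p : ℤ)) :=
  Module.Finite.of_basis (tateResBasis W hΔ p)

include hΔ in
lemma tateRes_free : Module.Free (ZMod p) (Submodule.torsionBy ℤ (W⁄Qbar).Point (p : ℤ)) :=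
  Module.Free.of_basis (tateResBasis W hΔ p)

include hΔ in
lemma tateRes_finrank :
    Module.finrank (ZMod p) (Submodule.torsionBy ℤ (W⁄Qbar).Point (p : ℤ)) = 2 := by
  rw [Module.finrank_eq_card_basis (tateResBasis W hΔ p), Fintype.card_fin]

include hΔ in
lemma tateRes_card : Nat.card (Submodule.torsionBy ℤ (W⁄Qbar).Point (p : ℤ)) = p ^ 2 := by
  have := tateRes_finite W hΔ p
  rw [Module.natCard_eq_pow_finrank (K := ZMod p), tateRes_finrank W hΔ p, Nat.card_zmod]

/-- **Residual dictionary, characteristic polynomials**: the characteristic polynomial of `σ`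
on `E[p](ℚ̄)` is the reduction of the one on the Tate module. -/
theorem tateRes_charpoly [Module.Free (ZMod p) (Submodule.torsionBy ℤ (W⁄Qbar).Point (p : ℤ))]
    [Module.Finite (ZMod p) (Submodule.torsionBy ℤ (W⁄Qbar).Point (p : ℤ))] (σ : GQ) :
    LinearMap.charpoly (galoisRepModuleEnd (S := ℚ) (K := Qbar) W p σ)
      = (LinearMap.charpoly (tateRho W hΔ p σ)).map PadicInt.toZMod := by
  rw [← LinearMap.charpoly_toMatrix _ (tateResBasis W hΔ p), tateRes_toMatrix,
    Matrix.charpoly_map, tateResMat_charpoly]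

/-- determinants -/
theorem tateRes_det (σ : GQ) :
    LinearMap.det (galoisRepModuleEnd (S := ℚ) (K := Qbar) W p σ)
      = PadicInt.toZMod (LinearMap.det (tateRho W hΔ p σ)) := by
  rw [← LinearMap.det_toMatrix (tateResBasis W hΔ p), tateRes_toMatrix,
    ← LinearMap.det_toMatrix (Pi.basisFun ℤ_[p] (Fin 2))]
  exact (RingHom.map_det _ _).symm

/-- traces -/
theorem tateRes_trace (σ : GQ) :
    LinearMap.trace (ZMod p) _ (galoisRepModuleEnd (S := ℚ) (K := Qbar) W p σ)
      = PadicInt.toZMod (LinearMap.trace ℤ_[p] _ (tateRho W hΔ p σ)) := by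
  rw [LinearMap.trace_eq_matrix_trace (ZMod p) (tateResBasis W hΔ p), tateRes_toMatrix,
    LinearMap.trace_eq_matrix_trace ℤ_[p] (Pi.basisFun ℤ_[p] (Fin 2))]
  unfold tateResMat
  rw [Matrix.trace, Matrix.trace, map_sum]
  rfl


/-! ### The level-one map and irreducibility -/

/-- the level-one map `V → E[p]` -/
noncomputable def tateResLev :
    (Fin 2 → ℤ_[p]) →+ Submodule.torsionBy ℤ (W⁄Qbar).Point (p : ℤ) where
  toFun v := ⟨(tateSys W p hΔ).lev 1 v, by
    rw [Submodule.mem_torsionBy_iff, natCast_zsmul]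
    have := (tateSys W p hΔ).pow_smul_lev 1 v
    rwa [pow_one] at this⟩
  map_zero' := Subtype.ext (_root_.map_zero _)
  map_add' v w := Subtype.ext (_root_.map_add _ v w)

lemma coe_tateResLev (v : Fin 2 → ℤ_[p]) :
    ((tateResLev W hΔ p v : Submodule.torsionBy ℤ (W⁄Qbar).Point (p : ℤ)) : (W⁄Qbar).Point)
      = (tateSys W p hΔ).lev 1 v := rfl

theorem tateResLev_surjective : Function.Surjective (tateResLev W hΔ p) := by
  rintro ⟨R, hR⟩
  rw [Submodule.mem_torsionBy_iff, natCast_zsmul] at hR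
  obtain ⟨v, hv⟩ := (tateSys W p hΔ).lev_surjective 1 R (by rwa [pow_one])
  exact ⟨v, Subtype.ext hv⟩

theorem tateResLev_eq_zero_iff (v : Fin 2 → ℤ_[p]) :
    tateResLev W hΔ p v = 0 ↔
      v ∈ (IsLocalRing.maximalIdeal ℤ_[p]) • (⊤ : Submodule ℤ_[p] (Fin 2 → ℤ_[p])) := by
  have key := (tateSys W p hΔ).lev_eq_zero_iff_mem_maximalIdeal 1 v
  rw [pow_one] at key
  exact ⟨fun h => key.1 (congrArg Subtype.val h), fun h => Subtype.ext (key.2 h)⟩

theorem tateResLev_rho (σ : GQ) (v : Fin 2 → ℤ_[p]) :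
    tateResLev W hΔ p (tateRho W hΔ p σ v) = σ • tateResLev W hΔ p v :=
  Subtype.ext (lev_tateRho W hΔ p σ v 1)

theorem tateResLev_smul (a : ℤ_[p]) (v : Fin 2 → ℤ_[p]) :
    tateResLev W hΔ p (a • v) = PadicInt.toZMod a • tateResLev W hΔ p v := by
  rw [tateRes_zmod_smul W p _ _ (TateSys.cast_rep_one a)]
  exact Subtype.ext ((tateSys W p hΔ).lev_smul 1 a v _ (TateSys.isRep_rep 1 a))

end Conc

section Gen

variable {A : Type} [CommRing A] [IsLocalRing A] {V : Type} [AddCommGroup V] [Module A V]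

/-- every element of `k ⊗ V` is of the form `1 ⊗ v` -/
lemma tateRes_exists_tmul (x : IsLocalRing.ResidueField A ⊗[A] V) :
    ∃ v : V, x = (1 : IsLocalRing.ResidueField A) ⊗ₜ[A] v := by
  induction x using TensorProduct.induction_on with
  | zero => exact ⟨0, by rw [TensorProduct.tmul_zero]⟩
  | tmul c w =>
    obtain ⟨a, rfl⟩ := IsLocalRing.residue_surjective c
    refine ⟨a • w, ?_⟩
    rw [TensorProduct.tmul_smul, TensorProduct.smul_tmul', Algebra.smul_def, mul_one]
    rfl
  | add x y hx hy =>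
    obtain ⟨v, rfl⟩ := hx
    obtain ⟨w, rfl⟩ := hy
    exact ⟨v + w, by rw [TensorProduct.tmul_add]⟩

/-- `1 ⊗ v = 0` for `v ∈ 𝔪 V` -/
lemma tateRes_tmul_eq_zero {v : V}
    (hv : v ∈ (IsLocalRing.maximalIdeal A) • (⊤ : Submodule A V)) :
    (1 : IsLocalRing.ResidueField A) ⊗ₜ[A] v = 0 := by
  refine Submodule.smul_induction_on
    (p := fun x => (1 : IsLocalRing.ResidueField A) ⊗ₜ[A] x
      = (0 : IsLocalRing.ResidueField A ⊗[A] V)) hv ?_ ?_
  · intro a ha w _
    rw [TensorProduct.tmul_smul, TensorProduct.smul_tmul', Algebra.smul_def,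
      IsLocalRing.ResidueField.algebraMap_eq, (IsLocalRing.residue_eq_zero_iff a).mpr ha,
      zero_mul, TensorProduct.zero_tmul]
  · intro x y hx hy
    rw [TensorProduct.tmul_add, hx, hy, add_zero]

end Gen

section Irr

variable (W : WeierstrassCurve ℚ) (hΔ : W.Δ ≠ 0) (p : ℕ) [hp : Fact p.Prime]

/-- irreducibility, in terms of `tateRho` -/
theorem tateRes_irr_aux
    (hirr : GaloisRepIsIrreducible (K := Qbar) ℚ W p)
    (U : Submodule (IsLocalRing.ResidueField ℤ_[p])
      (IsLocalRing.ResidueField ℤ_[p] ⊗[ℤ_[p]] (Fin 2 → ℤ_[p])))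
    (hU : ∀ σ : GQ, ∀ x ∈ U,
      (tateRho W hΔ p σ).baseChange (IsLocalRing.ResidueField ℤ_[p]) x ∈ U) :
    U = ⊥ ∨ U = ⊤ := by
  -- the corresponding submodule of `E[p]`
  let N : Submodule (ZMod p) (Submodule.torsionBy ℤ (W⁄Qbar).Point (p : ℤ)) :=
    { carrier := {x | ∃ v : Fin 2 → ℤ_[p],
        (1 : IsLocalRing.ResidueField ℤ_[p]) ⊗ₜ[ℤ_[p]] v ∈ U ∧ tateResLev W hΔ p v = x}
      add_mem' := by
        rintro x y ⟨v, hv, rfl⟩ ⟨w, hw, rfl⟩
        exact ⟨v + w, by rw [TensorProduct.tmul_add]; exact U.add_mem hv hw,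
          _root_.map_add _ v w⟩
      zero_mem' := ⟨0, by rw [TensorProduct.tmul_zero]; exact U.zero_mem, _root_.map_zero _⟩
      smul_mem' := by
        rintro c x ⟨v, hv, rfl⟩
        obtain ⟨a, rfl⟩ := ZMod.ringHom_surjective (PadicInt.toZMod (p := p)) c
        refine ⟨a • v, ?_, tateResLev_smul W hΔ p a v⟩
        rw [TensorProduct.tmul_smul]
        exact U.smul_of_tower_mem a hv }
  have hN : IsGaloisStable ℚ N := by
    rintro σ x ⟨v, hv, rfl⟩
    refine ⟨tateRho W hΔ p σ v, ?_, tateResLev_rho W hΔ p σ v⟩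
    have := hU σ _ hv
    rwa [LinearMap.baseChange_tmul] at this
  rcases hirr.2 N hN with h | h
  · left
    rw [Submodule.eq_bot_iff]
    intro u hu
    obtain ⟨v, rfl⟩ := tateRes_exists_tmul u
    have h1 : tateResLev W hΔ p v ∈ N := ⟨v, hu, rfl⟩
    rw [h, Submodule.mem_bot] at h1
    exact tateRes_tmul_eq_zero ((tateResLev_eq_zero_iff W hΔ p v).1 h1)
  · right
    rw [Submodule.eq_top_iff']
    intro u
    obtain ⟨v, rfl⟩ := tateRes_exists_tmul u
    have h1 : tateResLev W hΔ p v ∈ N := by rw [h]; exact Submodule.mem_top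
    obtain ⟨w, hw, hwv⟩ := h1
    have h2 : tateResLev W hΔ p (v - w) = 0 := by rw [map_sub, hwv, sub_self]
    have h3 := tateRes_tmul_eq_zero ((tateResLev_eq_zero_iff W hΔ p (v - w)).1 h2)
    rw [TensorProduct.tmul_sub, sub_eq_zero] at h3
    rw [h3]
    exact hw

/-- **Residual dictionary, irreducibility**: if `E[p]` is irreducible, the residual
representation of the Tate module is irreducible. -/
theorem tateRes_isIrreducible
    (hirr : GaloisRepIsIrreducible (K := Qbar) ℚ W p) :
    (tateRep W hΔ p).residual.IsIrreducible :=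
  fun U hU => tateRes_irr_aux W hΔ p hirr U hU


/-! ### Determinant, trace, characteristic polynomial of the residual representation -/

/-- determinant of the residual representation, computed on `E[p]` -/
theorem tateRes_residual_det (σ : GQ) :
    PadicInt.residueField (LinearMap.det ((tateRep W hΔ p).residual.ρ σ))
      = LinearMap.det (galoisRepModuleEnd (S := ℚ) (K := Qbar) W p σ) := by
  have h1 : LinearMap.det ((tateRep W hΔ p).residual.ρ σ)
      = IsLocalRing.residue ℤ_[p] (LinearMap.det (tateRho W hΔ p σ)) := by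
    show LinearMap.det ((tateRho W hΔ p σ).baseChange (IsLocalRing.ResidueField ℤ_[p])) = _
    rw [LinearMap.det_baseChange]
    rfl
  rw [h1, tateRes_det W hΔ p σ]
  rfl

/-- trace of the residual representation, computed on `E[p]` -/
theorem tateRes_residual_trace (σ : GQ) :
    PadicInt.residueField (LinearMap.trace _ _ ((tateRep W hΔ p).residual.ρ σ))
      = LinearMap.trace (ZMod p) _ (galoisRepModuleEnd (S := ℚ) (K := Qbar) W p σ) := by
  have h1 : LinearMap.trace _ _ ((tateRep W hΔ p).residual.ρ σ)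
      = IsLocalRing.residue ℤ_[p] (LinearMap.trace ℤ_[p] _ (tateRho W hΔ p σ)) := by
    show LinearMap.trace _ _
      ((tateRho W hΔ p σ).baseChange (IsLocalRing.ResidueField ℤ_[p])) = _
    rw [LinearMap.trace_baseChange]
    rfl
  rw [h1, tateRes_trace W hΔ p σ]
  rfl

/-- characteristic polynomial of the residual representation, computed on `E[p]` -/
theorem tateRes_residual_charpoly
    [Module.Free (ZMod p) (Submodule.torsionBy ℤ (W⁄Qbar).Point (p : ℤ))]
    [Module.Finite (ZMod p) (Submodule.torsionBy ℤ (W⁄Qbar).Point (p : ℤ))] (σ : GQ) :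
    (LinearMap.charpoly ((tateRep W hΔ p).residual.ρ σ)).map
        (PadicInt.residueField (p := p)).toRingHom
      = LinearMap.charpoly (galoisRepModuleEnd (S := ℚ) (K := Qbar) W p σ) := by
  have h1 : LinearMap.charpoly ((tateRep W hΔ p).residual.ρ σ)
      = (LinearMap.charpoly (tateRho W hΔ p σ)).map (IsLocalRing.residue ℤ_[p]) := by
    show LinearMap.charpoly
      ((tateRho W hΔ p σ).baseChange (IsLocalRing.ResidueField ℤ_[p])) = _
    rw [LinearMap.charpoly_baseChange]
    rfl
  rw [h1, tateRes_charpoly W hΔ p σ, Polynomial.map_map]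
  rfl

/-- **Residual dictionary, oddness**: if every involution `c ≠ 1` has determinant `-1` on
`E[p]`, the residual representation of the Tate module is odd. -/
theorem tateRes_isOdd_of_det
    (hdet : ∀ c : GQ, c * c = 1 → c ≠ 1 →
      LinearMap.det (galoisRepModuleEnd (S := ℚ) (K := Qbar) W p c) = -1) :
    (tateRep W hΔ p).residual.IsOdd := by
  intro c hc hc1
  apply (PadicInt.residueField (p := p)).injective
  rw [tateRes_residual_det, hdet c hc hc1, map_neg, map_one]

end Irr

end Fermat.Agent.EC
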