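import Mathlib
import Fermat.Agent.EC.TateRes
import Fermat.Agent.EC.Abs
import Fermat.Agent.RED.ModelTrace
import Fermat.Agent.EC.TateFrob

/-!
# Residual dictionary for an integral model (EC package)

For `W : WeierstrassCurve ℤ` with `Δ ≠ 0`, a prime `p` and `ρ = tateRepInt W hΔ p`:

* `tateResInt_isIrreducible` : `W.ModRepIsIrreducible p → ρ.residual.IsIrreducible`;
* `tateResInt_isOdd` : `W.ModRepIsIrreducible p → ρ.residual.IsOdd`
  (`det = ` cyclotomic character, and every involution `≠ 1` of `ℚ̄` inverts roots of unity);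
* `tateResInt_isAbsolutelyIrreducible` : for `p ≠ 2`,
  `W.ModRepIsIrreducible p → ρ.residual.IsAbsolutelyIrreducible`;
* `tateResInt_residual_charpoly_frob` : the characteristic polynomial of a Frobenius at a good
  prime `ℓ ∉ {2, p}` on `ρ.residual` is `X² − a_ℓ(W) X + ℓ`.
-/

set_option autoImplicit false

namespace Fermat.Agent.EC

open WeierstrassCurve WeierstrassCurve.Affine WeierstrassCurve.Affine.Point Polynomial

/-- `ℚ̄` -/
local notation "Qbar" => AlgebraicClosure ℚ
/-- `G_ℚ` -/
local notation "GQ" => (AlgebraicClosure ℚ ≃ₐ[ℚ] AlgebraicClosure ℚ)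

/-- every involution `c ≠ 1` of `ℚ̄` has cyclotomic character `-1` -/
theorem cycloChar_involution (p : ℕ) [NeZero p] (c : GQ) (hcc : c * c = 1) (hc1 : c ≠ 1) :
    Fermat.Agent.S42.cycloChar p c = -1 :=
  modularCyclotomicCharacter_involution (Fermat.Agent.S42.cyclo_card p) c hcc hc1

variable (W : WeierstrassCurve ℤ) (hΔ : W.Δ ≠ 0) (p : ℕ) [hp : Fact p.Prime]

/-- **Residual dictionary, irreducibility.** -/
theorem tateResInt_isIrreducible (hirr : W.ModRepIsIrreducible p) :
    (tateRepInt W hΔ p).residual.IsIrreducible :=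
  tateRes_isIrreducible _ _ p hirr

/-- **Residual dictionary, oddness.** -/
theorem tateResInt_isOdd (hirr : W.ModRepIsIrreducible p) :
    (tateRepInt W hΔ p).residual.IsOdd := by
  refine tateRes_isOdd_of_det _ _ p fun c hcc hc1 => ?_
  have h := Fermat.Agent.RED.det_of_model W hΔ hirr c
  rw [cycloChar_involution p c hcc hc1] at h
  rw [Units.val_neg, Units.val_one] at h
  exact h

/-- **Residual dictionary, absolute irreducibility** (`p` odd). -/
theorem tateResInt_isAbsolutelyIrreducible (hp2 : p ≠ 2) (hirr : W.ModRepIsIrreducible p) :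
    (tateRepInt W hΔ p).residual.IsAbsolutelyIrreducible := by
  refine isAbsolutelyIrreducible_of_isOdd ?_ _ (tateResInt_isIrreducible W hΔ p hirr)
    (tateResInt_isOdd W hΔ p hirr)
  intro h
  have h1 := congrArg (PadicInt.residueField (p := p)) h
  rw [map_ofNat, _root_.map_zero] at h1
  have h2 : ((2 : ℕ) : ZMod p) = 0 := by exact_mod_cast h1
  rw [ZMod.natCast_eq_zero_iff] at h2
  exact hp2 ((Nat.prime_dvd_prime_iff_eq hp.out Nat.prime_two).1 h2)

/-- **Residual dictionary, Frobenius**: the characteristic polynomial of a Frobenius at a good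
prime `ℓ ∉ {2, p}` on the residual representation of the Tate module. -/
theorem tateResInt_residual_charpoly_frob {ℓ : ℕ} (hℓ : ℓ.Prime) (hℓ2 : ℓ ≠ 2)
    (hgood : W.IsGoodPrimeFor ℓ) (hne : ℓ ≠ p) (A : ValuationSubring Qbar)
    (hA : A.LiesOverPrime ℓ) (τ : GQ) (hτ : A.IsFrobeniusAt τ ℓ) :
    LinearMap.charpoly ((tateRepInt W hΔ p).residual.ρ τ) =
      X ^ 2 - C ((W.apOfModel ℓ : ℤ) : IsLocalRing.ResidueField ℤ_[p]) * X
        + C ((ℓ : IsLocalRing.ResidueField ℤ_[p])) := by
  have h1 : LinearMap.charpoly ((tateRepInt W hΔ p).residual.ρ τ)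
      = (LinearMap.charpoly ((tateRepInt W hΔ p).ρ τ)).map (IsLocalRing.residue ℤ_[p]) := by
    show LinearMap.charpoly
      (((tateRepInt W hΔ p).ρ τ).baseChange (IsLocalRing.ResidueField ℤ_[p])) = _
    rw [LinearMap.charpoly_baseChange]
    rfl
  rw [h1, tateRepInt_charpoly_frob W hΔ p hℓ hℓ2 hgood hne A hA τ hτ]
  simp

end Fermat.Agent.EC
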