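import Fermat.Agent.S42.Burnside
import Fermat.Prelude.Def_GaloisRep_Residual
import Fermat.Prelude.Def_GaloisRep_Adic

/-!
# EC package, brick BN2 (helper46): absolute irreducibility is determined by the traces

Pure algebra (`bn2_irr_of_trace`): `ρ₁ : G →* End_{K₁} V₁` irreducible over an algebraically closed
field `K₁`, `ρ₂ : G →* End_{K₂} V₂` over any field `K₂`, `dim V₁ = dim V₂`, `φ : K₁ →+* K₂` with
`tr ρ₂(g) = φ (tr ρ₁(g))` for all `g`.  Then `ρ₂(G)` spans `End_{K₂} V₂`; in particular `ρ₂` is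
irreducible.  (Burnside: `ρ₁(G)` contains a basis `ρ₁(gᵢ)` of `End V₁`; its Gram matrix
`tr ρ₁(gᵢ gⱼ)` for the trace form is nonsingular; so is its image under `φ`, which is the Gram
matrix of the `ρ₂(gᵢ)`; hence these are linearly independent.)

Consequences for the prelude's `ResidualGaloisRep` / `GaloisRepAdic`:
* `bn2_isAbsolutelyIrreducible_of_trace_eq`, `bn2_isAbsolutelyIrreducible_of_charpoly_eq`
  (two `ResidualGaloisRep`s compared along `φ : k₁ →+* k₂`), `bn2_isOdd_of_charpoly_eq`;
* `bn2_residual_isAbsolutelyIrreducible_of_charpoly_eq`, `bn2_residual_isOdd_of_charpoly_eq`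
  (two `GaloisRepAdic`s compared along a local homomorphism), and the mixed forms
  `bn2_residual_isAbsolutelyIrreducible_of_residual_charpoly`, `bn2_residual_isOdd_of_residual_charpoly`;
* `bn2_residual_trace`, `bn2_residual_charpoly`, `bn2_residual_det`.
-/

set_option autoImplicit false

open Module

namespace Fermat.Agent.EC

section General

variable {G : Type*} [Monoid G]

/-- no proper nonzero stable subspace -/
def Bn2Irr {K V : Type*} [Field K] [AddCommGroup V] [Module K V] (ρ : G →* Module.End K V) :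
    Prop :=
  ∀ W : Submodule K V, (∀ g : G, ∀ x ∈ W, ρ g x ∈ W) → W = ⊥ ∨ W = ⊤

/-- Burnside: an irreducible representation over an algebraically closed field spans `End V`. -/
theorem bn2_span_eq_top {K V : Type*} [Field K] [IsAlgClosed K] [AddCommGroup V] [Module K V]
    [FiniteDimensional K V] [Nontrivial V] (ρ : G →* Module.End K V) (h : Bn2Irr ρ) :
    Submodule.span K (Set.range ρ) = ⊤ := by
  have hB := Fermat.Agent.S42.burnside_subalgebra_eq_top (Algebra.adjoin K (Set.range ρ))
    (fun U hU => h U (fun g x hx => hU (ρ g) (Algebra.subset_adjoin ⟨g, rfl⟩) x hx))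
  have h1 := Algebra.adjoin_eq_span K (Set.range ρ)
  have hcl : (Submonoid.closure (Set.range ρ) : Set (Module.End K V)) = Set.range ρ := by
    rw [← MonoidHom.coe_mrange, Submonoid.closure_eq]
  rw [hB, hcl] at h1
  rw [← h1]
  exact Algebra.top_toSubmodule

/-- a representation spanning `End V` is irreducible -/
theorem bn2_irr_of_span {K V : Type*} [Field K] [AddCommGroup V] [Module K V]
    (ρ : G →* Module.End K V) (h : Submodule.span K (Set.range ρ) = ⊤) : Bn2Irr ρ := by
  intro W hW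
  have hall : ∀ f : Module.End K V, ∀ x ∈ W, f x ∈ W := by
    intro f
    have hf : f ∈ Submodule.span K (Set.range ρ) := by rw [h]; trivial
    induction hf using Submodule.span_induction with
    | mem y hy =>
      obtain ⟨g, rfl⟩ := hy
      exact hW g
    | zero => intro x _; simp
    | add y z _ _ hy hz =>
      intro x hx
      rw [LinearMap.add_apply]
      exact W.add_mem (hy x hx) (hz x hx)
    | smul c y _ hy =>
      intro x hx
      rw [LinearMap.smul_apply]
      exact W.smul_mem c (hy x hx)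
  by_cases hbot : W = ⊥
  · exact Or.inl hbot
  right
  obtain ⟨w, hwW, hw0⟩ := (Submodule.ne_bot_iff W).mp hbot
  obtain ⟨φ, hφ⟩ : ∃ φ : Module.Dual K V, φ w ≠ 0 := by
    by_contra hcon
    push Not at hcon
    exact hw0 ((Module.forall_dual_apply_eq_zero_iff K w).mp hcon)
  rw [eq_top_iff]
  intro v _
  have := hall (φ.smulRight ((φ w)⁻¹ • v)) w hwW
  rw [LinearMap.smulRight_apply, smul_smul, mul_inv_cancel₀ hφ, one_smul] at this
  exact this

/-- nondegeneracy of the trace form on `End V` -/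
theorem bn2_eq_zero_of_trace {K V : Type*} [Field K] [AddCommGroup V] [Module K V]
    [FiniteDimensional K V] (A : Module.End K V)
    (h : ∀ B : Module.End K V, LinearMap.trace K V (A * B) = 0) : A = 0 := by
  classical
  let b := Module.finBasis K V
  have h1 : LinearMap.toMatrix b b A = 0 := by
    rw [Matrix.ext_iff_trace_mul_right]
    intro X
    have := h (Matrix.toLin b b X)
    rw [LinearMap.trace_eq_matrix_trace K b, LinearMap.toMatrix_mul,
      LinearMap.toMatrix_toLin] at this
    rw [this, zero_mul, Matrix.trace_zero]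
  have h2 := congrArg (Matrix.toLin b b) h1
  rw [Matrix.toLin_toMatrix, map_zero] at h2
  exact h2

/-- **BN2, general form**: traces determine absolute irreducibility. -/
theorem bn2_span_of_trace {K₁ K₂ V₁ V₂ : Type*} [Field K₁] [Field K₂] [IsAlgClosed K₁]
    [AddCommGroup V₁] [Module K₁ V₁] [FiniteDimensional K₁ V₁] [Nontrivial V₁]
    [AddCommGroup V₂] [Module K₂ V₂] [FiniteDimensional K₂ V₂]
    (φ : K₁ →+* K₂) (hdim : finrank K₁ V₁ = finrank K₂ V₂)
    (ρ₁ : G →* Module.End K₁ V₁) (ρ₂ : G →* Module.End K₂ V₂)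
    (htr : ∀ g, LinearMap.trace K₂ V₂ (ρ₂ g) = φ (LinearMap.trace K₁ V₁ (ρ₁ g)))
    (h : Bn2Irr ρ₁) : Submodule.span K₂ (Set.range ρ₂) = ⊤ := by
  classical
  have hspan := bn2_span_eq_top ρ₁ h
  obtain ⟨b, hb_sub, hb_span, hb_li⟩ := exists_linearIndependent K₁ (Set.range ρ₁)
  rw [hspan] at hb_span
  have hfin : Finite b := hb_li.finite
  have : Fintype b := Fintype.ofFinite b
  let B₁ : Basis b K₁ (Module.End K₁ V₁) :=
    Basis.mk hb_li (by rw [Subtype.range_coe, hb_span])
  have hcard : Fintype.card b = finrank K₁ (Module.End K₁ V₁) :=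
    (Module.finrank_eq_card_basis B₁).symm
  choose g hg using fun i : b => hb_sub i.2
  -- the Gram matrix
  let M₁ : Matrix b b K₁ := Matrix.of fun i j => LinearMap.trace K₁ V₁ (ρ₁ (g i * g j))
  have hdet : M₁.det ≠ 0 := by
    intro h0
    obtain ⟨v, hv0, hv⟩ := Matrix.exists_vecMul_eq_zero_iff.mpr h0
    apply hv0
    have hA : (∑ i, v i • (i : Module.End K₁ V₁)) = 0 := by
      apply bn2_eq_zero_of_trace
      intro B
      have hB : B ∈ Submodule.span K₁ b := by rw [hb_span]; trivial
      induction hB using Submodule.span_induction with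
      | mem y hy =>
        have := congrFun hv ⟨y, hy⟩
        simp only [Matrix.vecMul, dotProduct, M₁, Matrix.of_apply, Pi.zero_apply] at this
        rw [Finset.sum_mul, map_sum]
        rw [← this]
        refine Finset.sum_congr rfl fun i _ => ?_
        rw [smul_mul_assoc, map_smul, smul_eq_mul, map_mul ρ₁, hg i, hg ⟨y, hy⟩]
      | zero => simp
      | add y z _ _ hy hz => rw [mul_add, map_add, hy, hz, add_zero]
      | smul c y _ hy => rw [mul_smul_comm, map_smul, hy, smul_zero]
    funext i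
    exact (Fintype.linearIndependent_iff.mp hb_li) v hA i
  have hdet2 : (M₁.map φ).det ≠ 0 := by
    have := RingHom.map_det φ M₁
    rw [RingHom.mapMatrix_apply] at this
    rw [← this]
    exact (map_ne_zero φ).mpr hdet
  have hli2 : LinearIndependent K₂ (fun i : b => ρ₂ (g i)) := by
    rw [Fintype.linearIndependent_iff]
    intro c hc
    have hvm : Matrix.vecMul c (M₁.map φ) = 0 := by
      funext j
      simp only [Matrix.vecMul, dotProduct, M₁, Matrix.map_apply, Matrix.of_apply,
        Pi.zero_apply]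
      have h1 := congrArg (fun A : Module.End K₂ V₂ => LinearMap.trace K₂ V₂ (A * ρ₂ (g j))) hc
      simp only [zero_mul, map_zero] at h1
      rw [Finset.sum_mul, map_sum] at h1
      rw [← h1]
      refine Finset.sum_congr rfl fun i _ => ?_
      rw [smul_mul_assoc, map_smul, smul_eq_mul, ← map_mul, htr]
    have := Matrix.eq_zero_of_vecMul_eq_zero hdet2 hvm
    intro i
    exact congrFun this i
  have hcard2 : Fintype.card b = finrank K₂ (Module.End K₂ V₂) := by
    rw [hcard, Module.finrank_linearMap, Module.finrank_linearMap, hdim]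
  have htop := hli2.span_eq_top_of_card_eq_finrank' hcard2
  rw [eq_top_iff, ← htop]
  apply Submodule.span_mono
  rintro _ ⟨i, rfl⟩
  exact ⟨g i, rfl⟩

theorem bn2_irr_of_trace {K₁ K₂ V₁ V₂ : Type*} [Field K₁] [Field K₂] [IsAlgClosed K₁]
    [AddCommGroup V₁] [Module K₁ V₁] [FiniteDimensional K₁ V₁]
    [AddCommGroup V₂] [Module K₂ V₂] [FiniteDimensional K₂ V₂]
    (φ : K₁ →+* K₂) (hdim : finrank K₁ V₁ = finrank K₂ V₂)
    (ρ₁ : G →* Module.End K₁ V₁) (ρ₂ : G →* Module.End K₂ V₂)
    (htr : ∀ g, LinearMap.trace K₂ V₂ (ρ₂ g) = φ (LinearMap.trace K₁ V₁ (ρ₁ g)))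
    (h : Bn2Irr ρ₁) : Bn2Irr ρ₂ := by
  by_cases h0 : finrank K₂ V₂ = 0
  · have : Subsingleton V₂ := Module.finrank_zero_iff.mp h0
    intro W _
    left
    exact Submodule.eq_bot_of_subsingleton
  · have : Nontrivial V₁ := Module.finrank_pos_iff.mp (by rw [hdim]; omega)
    exact bn2_irr_of_span ρ₂ (bn2_span_of_trace φ hdim ρ₁ ρ₂ htr h)

end General

/-! ### trace and determinant from the characteristic polynomial -/

section Charpoly

open Polynomial

theorem bn2_monic_nextCoeff_map {R S : Type*} [CommRing R] [CommRing S] [Nontrivial S]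
    (f : R →+* S) {p : R[X]} (hp : p.Monic) : (p.map f).nextCoeff = f p.nextCoeff := by
  unfold Polynomial.nextCoeff
  rw [hp.natDegree_map]
  split_ifs
  · rw [map_zero]
  · rw [coeff_map]

theorem bn2_trace_eq_neg_nextCoeff {R M : Type*} [CommRing R] [AddCommGroup M] [Module R M]
    [Module.Free R M] [Module.Finite R M] (f : M →ₗ[R] M) :
    LinearMap.trace R M f = - f.charpoly.nextCoeff := by
  classical
  rw [LinearMap.trace_eq_matrix_trace R (Module.Free.chooseBasis R M),
    ← LinearMap.charpoly_toMatrix f (Module.Free.chooseBasis R M),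
    Matrix.trace_eq_neg_charpoly_nextCoeff]

/-- equal (mapped) characteristic polynomials give equal (mapped) traces -/
theorem bn2_trace_of_charpoly {R S M N : Type*} [CommRing R] [CommRing S] [Nontrivial S]
    [AddCommGroup M] [Module R M] [Module.Free R M] [Module.Finite R M]
    [AddCommGroup N] [Module S N] [Module.Free S N] [Module.Finite S N]
    (φ : R →+* S) (f : M →ₗ[R] M) (g : N →ₗ[S] N)
    (h : g.charpoly = f.charpoly.map φ) :
    LinearMap.trace S N g = φ (LinearMap.trace R M f) := by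
  rw [bn2_trace_eq_neg_nextCoeff, bn2_trace_eq_neg_nextCoeff, h,
    bn2_monic_nextCoeff_map φ (LinearMap.charpoly_monic f), map_neg]

/-- equal (mapped) characteristic polynomials and equal ranks give equal (mapped) determinants -/
theorem bn2_det_of_charpoly {R S M N : Type*} [CommRing R] [CommRing S]
    [AddCommGroup M] [Module R M] [Module.Free R M] [Module.Finite R M]
    [AddCommGroup N] [Module S N] [Module.Free S N] [Module.Finite S N]
    (φ : R →+* S) (f : M →ₗ[R] M) (g : N →ₗ[S] N) (hrk : finrank R M = finrank S N)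
    (h : g.charpoly = f.charpoly.map φ) :
    LinearMap.det g = φ (LinearMap.det f) := by
  rw [LinearMap.det_eq_sign_charpoly_coeff, LinearMap.det_eq_sign_charpoly_coeff, h, coeff_map,
    hrk, map_mul, map_pow, map_neg, map_one]

end Charpoly

/-! ### the prelude's residual representations -/

section Residual

open Polynomial

variable {k₁ k₂ : Type} [Field k₁] [Field k₂]

/-- **BN2** for residual representations, trace form, along a field homomorphism. -/
theorem bn2_isAbsolutelyIrreducible_of_trace_eq (φ : k₁ →+* k₂)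
    (ρ₁ : ResidualGaloisRep k₁) (ρ₂ : ResidualGaloisRep k₂)
    (htr : ∀ σ, LinearMap.trace k₂ ρ₂.V (ρ₂.ρ σ) = φ (LinearMap.trace k₁ ρ₁.V (ρ₁.ρ σ)))
    (h : ρ₁.IsAbsolutelyIrreducible) : ρ₂.IsAbsolutelyIrreducible := by
  let : Algebra k₁ (AlgebraicClosure k₂) :=
    ((algebraMap k₂ (AlgebraicClosure k₂)).comp φ).toAlgebra
  let ψ : AlgebraicClosure k₁ →ₐ[k₁] AlgebraicClosure k₂ := IsAlgClosed.lift
  have hψ : ∀ x : k₁, ψ (algebraMap k₁ (AlgebraicClosure k₁) x)
      = algebraMap k₂ (AlgebraicClosure k₂) (φ x) := fun x => ψ.commutes x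
  unfold ResidualGaloisRep.IsAbsolutelyIrreducible at h ⊢
  refine bn2_irr_of_trace (ψ : AlgebraicClosure k₁ →+* AlgebraicClosure k₂) ?_
    (ρ₁.baseChange (AlgebraicClosure k₁)).ρ (ρ₂.baseChange (AlgebraicClosure k₂)).ρ ?_ h
  · rw [(ρ₁.baseChange (AlgebraicClosure k₁)).finrank_eq,
      (ρ₂.baseChange (AlgebraicClosure k₂)).finrank_eq]
  · intro σ
    show LinearMap.trace _ _ ((ρ₂.ρ σ).baseChange (AlgebraicClosure k₂))
      = ψ (LinearMap.trace _ _ ((ρ₁.ρ σ).baseChange (AlgebraicClosure k₁)))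
    rw [LinearMap.trace_baseChange, LinearMap.trace_baseChange, htr]
    exact (hψ _).symm

/-- **BN2** for residual representations, characteristic-polynomial form. -/
theorem bn2_isAbsolutelyIrreducible_of_charpoly_eq (φ : k₁ →+* k₂)
    (ρ₁ : ResidualGaloisRep k₁) (ρ₂ : ResidualGaloisRep k₂)
    (hcp : ∀ σ, LinearMap.charpoly (ρ₂.ρ σ) = (LinearMap.charpoly (ρ₁.ρ σ)).map φ)
    (h : ρ₁.IsAbsolutelyIrreducible) : ρ₂.IsAbsolutelyIrreducible :=
  bn2_isAbsolutelyIrreducible_of_trace_eq φ ρ₁ ρ₂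
    (fun σ => bn2_trace_of_charpoly φ _ _ (hcp σ)) h

/-- same field -/
theorem bn2_isAbsolutelyIrreducible_of_charpoly_eq_self {k : Type} [Field k]
    (ρ₁ ρ₂ : ResidualGaloisRep k)
    (hcp : ∀ σ, LinearMap.charpoly (ρ₂.ρ σ) = LinearMap.charpoly (ρ₁.ρ σ))
    (h : ρ₁.IsAbsolutelyIrreducible) : ρ₂.IsAbsolutelyIrreducible :=
  bn2_isAbsolutelyIrreducible_of_charpoly_eq (RingHom.id k) ρ₁ ρ₂
    (fun σ => by rw [hcp σ, Polynomial.map_id]) h

/-- oddness is determined by the characteristic polynomials -/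
theorem bn2_isOdd_of_charpoly_eq (φ : k₁ →+* k₂)
    (ρ₁ : ResidualGaloisRep k₁) (ρ₂ : ResidualGaloisRep k₂)
    (hcp : ∀ σ, LinearMap.charpoly (ρ₂.ρ σ) = (LinearMap.charpoly (ρ₁.ρ σ)).map φ)
    (h : ρ₁.IsOdd) : ρ₂.IsOdd := by
  intro c hc hc1
  rw [bn2_det_of_charpoly φ (ρ₁.ρ c) (ρ₂.ρ c) (by rw [ρ₁.finrank_eq, ρ₂.finrank_eq]) (hcp c),
    h c hc hc1, map_neg, map_one]

end Residual

/-! ### residual representations of adic representations -/

section Adic

open Polynomial

variable {A B : Type} [CommRing A] [IsLocalRing A] [CommRing B] [IsLocalRing B]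

theorem bn2_residual_trace (ρ : GaloisRepAdic A) (σ : AlgebraicClosure ℚ ≃ₐ[ℚ] AlgebraicClosure ℚ) :
    LinearMap.trace (IsLocalRing.ResidueField A) ρ.residual.V (ρ.residual.ρ σ)
      = IsLocalRing.residue A (LinearMap.trace A ρ.V (ρ.ρ σ)) := by
  show LinearMap.trace _ _ ((ρ.ρ σ).baseChange (IsLocalRing.ResidueField A)) = _
  rw [LinearMap.trace_baseChange]
  rfl

theorem bn2_residual_charpoly (ρ : GaloisRepAdic A)
    (σ : AlgebraicClosure ℚ ≃ₐ[ℚ] AlgebraicClosure ℚ) :
    LinearMap.charpoly (ρ.residual.ρ σ)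
      = (LinearMap.charpoly (ρ.ρ σ)).map (IsLocalRing.residue A) := by
  show LinearMap.charpoly ((ρ.ρ σ).baseChange (IsLocalRing.ResidueField A)) = _
  rw [LinearMap.charpoly_baseChange]
  rfl

theorem bn2_residual_det (ρ : GaloisRepAdic A) (σ : AlgebraicClosure ℚ ≃ₐ[ℚ] AlgebraicClosure ℚ) :
    LinearMap.det (ρ.residual.ρ σ) = IsLocalRing.residue A (LinearMap.det (ρ.ρ σ)) := by
  show LinearMap.det ((ρ.ρ σ).baseChange (IsLocalRing.ResidueField A)) = _
  rw [LinearMap.det_baseChange]
  rfl

/-- **BN2**, adic form: if the characteristic polynomials of `ρ₂` are the images of those of `ρ₁`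
under a local homomorphism and `ρ₁` is residually absolutely irreducible, so is `ρ₂`. -/
theorem bn2_residual_isAbsolutelyIrreducible_of_charpoly_eq (φ : A →+* B) [IsLocalHom φ]
    (ρ₁ : GaloisRepAdic A) (ρ₂ : GaloisRepAdic B)
    (hcp : ∀ σ, LinearMap.charpoly (ρ₂.ρ σ) = (LinearMap.charpoly (ρ₁.ρ σ)).map φ)
    (h : ρ₁.residual.IsAbsolutelyIrreducible) : ρ₂.residual.IsAbsolutelyIrreducible := by
  refine bn2_isAbsolutelyIrreducible_of_trace_eq (IsLocalRing.ResidueField.map φ) ρ₁.residual
    ρ₂.residual (fun σ => ?_) h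
  rw [bn2_residual_trace, bn2_residual_trace, bn2_trace_of_charpoly φ _ _ (hcp σ),
    IsLocalRing.ResidueField.map_residue]

/-- oddness, adic form -/
theorem bn2_residual_isOdd_of_charpoly_eq (φ : A →+* B) [IsLocalHom φ]
    (ρ₁ : GaloisRepAdic A) (ρ₂ : GaloisRepAdic B)
    (hcp : ∀ σ, LinearMap.charpoly (ρ₂.ρ σ) = (LinearMap.charpoly (ρ₁.ρ σ)).map φ)
    (h : ρ₁.residual.IsOdd) : ρ₂.residual.IsOdd := by
  intro c hc hc1
  have h1 := h c hc hc1
  rw [bn2_residual_det] at h1 ⊢
  rw [bn2_det_of_charpoly φ (ρ₁.ρ c) (ρ₂.ρ c) (by rw [ρ₁.finrank_eq, ρ₂.finrank_eq]) (hcp c),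
    ← IsLocalRing.ResidueField.map_residue, h1, map_neg, map_one]

/-- mixed form: a residual representation over `k` and an adic representation over `B`,
compared through `φ : k →+* ResidueField B`. -/
theorem bn2_residual_isAbsolutelyIrreducible_of_residual_charpoly {k : Type} [Field k]
    (φ : k →+* IsLocalRing.ResidueField B) (ρ₁ : ResidualGaloisRep k) (ρ₂ : GaloisRepAdic B)
    (hcp : ∀ σ, (LinearMap.charpoly (ρ₂.ρ σ)).map (IsLocalRing.residue B)
      = (LinearMap.charpoly (ρ₁.ρ σ)).map φ)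
    (h : ρ₁.IsAbsolutelyIrreducible) : ρ₂.residual.IsAbsolutelyIrreducible :=
  bn2_isAbsolutelyIrreducible_of_charpoly_eq φ ρ₁ ρ₂.residual
    (fun σ => by rw [bn2_residual_charpoly, hcp σ]) h

theorem bn2_residual_isOdd_of_residual_charpoly {k : Type} [Field k]
    (φ : k →+* IsLocalRing.ResidueField B) (ρ₁ : ResidualGaloisRep k) (ρ₂ : GaloisRepAdic B)
    (hcp : ∀ σ, (LinearMap.charpoly (ρ₂.ρ σ)).map (IsLocalRing.residue B)
      = (LinearMap.charpoly (ρ₁.ρ σ)).map φ)
    (h : ρ₁.IsOdd) : ρ₂.residual.IsOdd :=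
  bn2_isOdd_of_charpoly_eq φ ρ₁ ρ₂.residual (fun σ => by rw [bn2_residual_charpoly, hcp σ]) h

end Adic

end Fermat.Agent.EC
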