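import Mathlib
import Fermat.Prelude.Def_GaloisRep_Adic
import Fermat.Agent.Cheb.Final

/-!
# EC package, brick CMP (helper46): two adic representations with the same Frobenius
characteristic polynomials outside a finite set have the same characteristic polynomials everywhere

`charpoly_eq_of_frobenius` : `O` local with `⋂ 𝔪ⁿ = 0`, `ρ₁ ρ₂ : GaloisRepAdic O`, `S` a finite set of
primes; if `charpoly ρ₁(φ) = charpoly ρ₂(φ)` for every Frobenius `φ` at every prime `ℓ ∉ S`, then
`charpoly ρ₁(σ) = charpoly ρ₂(σ)` for ALL `σ ∈ G_ℚ`.  (Weak Chebotarev + Lucas for `2 × 2` matrices.)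
-/

set_option autoImplicit false

open Polynomial

namespace Fermat.Agent.EC

/-! ### `2 × 2` matrices: powers -/

section Mat

variable {R : Type*} [CommRing R]

theorem mat2_sq (N : Matrix (Fin 2) (Fin 2) R) :
    N ^ 2 = N.trace • N - N.det • (1 : Matrix (Fin 2) (Fin 2) R) := by
  ext i j
  fin_cases i <;> fin_cases j <;>
    simp [pow_two, Matrix.mul_apply, Fin.sum_univ_two, Matrix.trace_fin_two, Matrix.det_fin_two] <;>
    ring

theorem mat2_trace_pow_eq {N₁ N₂ : Matrix (Fin 2) (Fin 2) R} (ht : N₁.trace = N₂.trace)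
    (hd : N₁.det = N₂.det) (m : ℕ) : (N₁ ^ m).trace = (N₂ ^ m).trace := by
  induction m using Nat.twoStepInduction with
  | zero => simp
  | one => simpa using ht
  | more j h0 h1 =>
    have key : ∀ N : Matrix (Fin 2) (Fin 2) R,
        (N ^ (j + 2)).trace = N.trace * (N ^ (j + 1)).trace - N.det * (N ^ j).trace := by
      intro N
      have : N ^ (j + 2) = N.trace • N ^ (j + 1) - N.det • N ^ j := by
        rw [pow_add, mat2_sq, mul_sub, Matrix.mul_smul, Matrix.mul_smul, mul_one, pow_succ]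
      rw [this, Matrix.trace_sub, Matrix.trace_smul, Matrix.trace_smul, smul_eq_mul, smul_eq_mul]
    rw [key N₁, key N₂, ht, hd, h0, h1]

theorem mat2_charpoly_pow_eq [Nontrivial R] {N₁ N₂ : Matrix (Fin 2) (Fin 2) R}
    (h : N₁.charpoly = N₂.charpoly) (m : ℕ) : (N₁ ^ m).charpoly = (N₂ ^ m).charpoly := by
  have ht : N₁.trace = N₂.trace := by
    have := congrArg (fun p => p.coeff 1) h
    simp only [Matrix.charpoly_fin_two] at this
    simpa [Polynomial.coeff_X, Polynomial.coeff_C, Polynomial.coeff_X_pow] using this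
  have hd : N₁.det = N₂.det := by
    have := congrArg (fun p => p.coeff 0) h
    simp only [Matrix.charpoly_fin_two] at this
    simpa [Polynomial.coeff_X, Polynomial.coeff_C, Polynomial.coeff_X_pow] using this
  rw [Matrix.charpoly_fin_two, Matrix.charpoly_fin_two, mat2_trace_pow_eq ht hd m,
    Matrix.det_pow, Matrix.det_pow, hd]

end Mat

/-! ### finite Galois hulls -/

/-- `ℚ̄ / ℚ` is normal (for the instance of `Algebra ℚ ℚ̄` found by unification) -/
theorem cmp_qbar_normal : Normal ℚ (AlgebraicClosure ℚ) := by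
  have h1 : @Normal ℚ (AlgebraicClosure ℚ) _ _ (AlgebraicClosure.instAlgebra ℚ) := inferInstance
  convert h1
  exact Subsingleton.elim _ _

/-- two finite extensions of `ℚ` in `ℚ̄` lie in a finite Galois extension -/
theorem cmp_exists_galois_hull (E₁ E₂ : IntermediateField ℚ (AlgebraicClosure ℚ))
    [FiniteDimensional ℚ E₁] [FiniteDimensional ℚ E₂] :
    ∃ F : IntermediateField ℚ (AlgebraicClosure ℚ), FiniteDimensional ℚ F ∧ IsGalois ℚ F ∧
      E₁ ≤ F ∧ E₂ ≤ F := by
  have hn := cmp_qbar_normal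
  set K : IntermediateField ℚ (AlgebraicClosure ℚ) := E₁ ⊔ E₂ with hK
  have hKfin : FiniteDimensional ℚ K := inferInstance
  refine ⟨IntermediateField.normalClosure ℚ K (AlgebraicClosure ℚ), inferInstance, ?_, ?_, ?_⟩
  · have : Normal ℚ (IntermediateField.normalClosure ℚ K (AlgebraicClosure ℚ)) :=
      normalClosure.normal ℚ K (AlgebraicClosure ℚ)
    exact IsGalois.mk
  · exact le_trans le_sup_left (IntermediateField.le_normalClosure K)
  · exact le_trans le_sup_right (IntermediateField.le_normalClosure K)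

/-! ### congruences of matrices -/

section Congr

variable {A V : Type*} [CommRing A] [AddCommGroup V] [Module A V]

theorem cmp_functional_mem (I : Ideal A) (φ : V →ₗ[A] A) {w : V}
    (hw : w ∈ I • (⊤ : Submodule A V)) : φ w ∈ I := by
  refine Submodule.smul_induction_on (p := fun x => φ x ∈ I) hw ?_ ?_
  · intro a ha v _
    rw [map_smul, smul_eq_mul]
    exact I.mul_mem_right _ ha
  · intro x y hx hy
    rw [map_add]
    exact I.add_mem hx hy

theorem cmp_map_mem (I : Ideal A) (f : Module.End A V) {w : V}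
    (hw : w ∈ I • (⊤ : Submodule A V)) : f w ∈ I • (⊤ : Submodule A V) := by
  refine Submodule.smul_induction_on (p := fun x => f x ∈ I • (⊤ : Submodule A V)) hw ?_ ?_
  · intro a ha v _
    rw [map_smul]
    exact Submodule.smul_mem_smul ha Submodule.mem_top
  · intro x y hx hy
    rw [map_add]
    exact Submodule.add_mem _ hx hy

end Congr

/-! ### the comparison theorem -/

section Main

variable {O : Type} [CommRing O] [IsLocalRing O]

local notation "Γℚ" => (AlgebraicClosure ℚ ≃ₐ[ℚ] AlgebraicClosure ℚ)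

/-- the matrix of `ρ(g)` in a fixed basis -/
noncomputable def cmpMat (ρ : GaloisRepAdic O) (g : Γℚ) : Matrix (Fin 2) (Fin 2) O :=
  LinearMap.toMatrix (Module.finBasisOfFinrankEq O ρ.V ρ.finrank_eq)
    (Module.finBasisOfFinrankEq O ρ.V ρ.finrank_eq) (ρ.ρ g)

theorem cmpMat_charpoly (ρ : GaloisRepAdic O) (g : Γℚ) :
    (cmpMat ρ g).charpoly = LinearMap.charpoly (ρ.ρ g) :=
  LinearMap.charpoly_toMatrix _ _

theorem cmpMat_one (ρ : GaloisRepAdic O) : cmpMat ρ 1 = 1 := by
  rw [cmpMat, map_one]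
  exact LinearMap.toMatrix_one _

theorem cmpMat_mul (ρ : GaloisRepAdic O) (g h : Γℚ) :
    cmpMat ρ (g * h) = cmpMat ρ g * cmpMat ρ h := by
  rw [cmpMat, map_mul]
  exact LinearMap.toMatrix_mul _ _ _

theorem cmpMat_pow (ρ : GaloisRepAdic O) (g : Γℚ) (m : ℕ) :
    cmpMat ρ (g ^ m) = cmpMat ρ g ^ m := by
  induction m with
  | zero => rw [pow_zero, pow_zero, cmpMat_one]
  | succ m ih => rw [pow_succ, pow_succ, cmpMat_mul, ih]

theorem cmpMat_congr (ρ : GaloisRepAdic O) (I : Ideal O) (σ g : Γℚ)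
    (hg : ∀ v : ρ.V, ρ.ρ g v - v ∈ I • (⊤ : Submodule O ρ.V)) (i j : Fin 2) :
    cmpMat ρ (σ * g) i j - cmpMat ρ σ i j ∈ I := by
  set b := Module.finBasisOfFinrankEq O ρ.V ρ.finrank_eq with hb
  have h1 : cmpMat ρ (σ * g) i j - cmpMat ρ σ i j
      = b.coord i (ρ.ρ σ (ρ.ρ g (b j) - b j)) := by
    simp only [cmpMat, LinearMap.toMatrix_apply, map_mul, Module.End.mul_apply, map_sub,
      Module.Basis.coord_apply, ← hb]
  rw [h1]
  exact cmp_functional_mem I _ (cmp_map_mem I _ (hg (b j)))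

/-- **CMP.** Two adic Galois representations with the same characteristic polynomials of
Frobenius outside a finite set of primes have the same characteristic polynomials on all of `G_ℚ`. -/
theorem charpoly_eq_of_frobenius
    (hsep : ∀ x : O, (∀ n : ℕ, x ∈ IsLocalRing.maximalIdeal O ^ n) → x = 0)
    (ρ₁ ρ₂ : GaloisRepAdic O) (S : Finset ℕ)
    (h : ∀ ℓ : ℕ, ℓ.Prime → ℓ ∉ S →
      ∀ A : ValuationSubring (AlgebraicClosure ℚ), A.LiesOverPrime ℓ →
        ∀ τ : Γℚ, A.IsFrobeniusAt τ ℓ →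
          LinearMap.charpoly (ρ₁.ρ τ) = LinearMap.charpoly (ρ₂.ρ τ))
    (σ : Γℚ) : LinearMap.charpoly (ρ₁.ρ σ) = LinearMap.charpoly (ρ₂.ρ σ) := by
  rw [← cmpMat_charpoly, ← cmpMat_charpoly]
  ext k
  rw [← sub_eq_zero]
  apply hsep
  intro n
  set I := IsLocalRing.maximalIdeal O ^ n with hI
  obtain ⟨L₁, hL₁, h₁⟩ := ρ₁.isAdicContinuous n
  obtain ⟨L₂, hL₂, h₂⟩ := ρ₂.isAdicContinuous n
  obtain ⟨F, hFfin, hFgal, hF₁, hF₂⟩ := cmp_exists_galois_hull L₁ L₂
  obtain ⟨ℓ, A, τ, m, hℓ, hℓS, hA, hτ, hτσ⟩ := Fermat.Agent.Cheb.exists_frobenius_pow_eq F S σ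
  set g : Γℚ := σ⁻¹ * τ ^ m with hg
  have hgF : ∀ x ∈ F, g x = x := by
    intro x hx
    rw [hg, AlgEquiv.mul_apply, hτσ x hx]
    exact σ.symm_apply_apply x
  have hτm : τ ^ m = σ * g := by rw [hg, mul_inv_cancel_left]
  have hg₁ := h₁ g (fun x hx => hgF x (hF₁ hx))
  have hg₂ := h₂ g (fun x hx => hgF x (hF₂ hx))
  -- reduction modulo `I`
  have hmap : ∀ (ρ : GaloisRepAdic O), (∀ v : ρ.V, ρ.ρ g v - v ∈ I • (⊤ : Submodule O ρ.V)) →
      (cmpMat ρ σ).charpoly.map (Ideal.Quotient.mk I)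
        = ((cmpMat ρ τ) ^ m).charpoly.map (Ideal.Quotient.mk I) := by
    intro ρ hρ
    rw [← Matrix.charpoly_map, ← Matrix.charpoly_map, ← cmpMat_pow, hτm]
    congr 1
    ext i j
    simp only [Matrix.map_apply]
    exact ((Ideal.Quotient.eq).mpr (cmpMat_congr ρ I σ g hρ i j)).symm
  have hτeq : (cmpMat ρ₁ τ).charpoly = (cmpMat ρ₂ τ).charpoly := by
    rw [cmpMat_charpoly, cmpMat_charpoly]
    exact h ℓ hℓ hℓS A hA τ hτ
  have key : (cmpMat ρ₁ σ).charpoly.map (Ideal.Quotient.mk I)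
      = (cmpMat ρ₂ σ).charpoly.map (Ideal.Quotient.mk I) := by
    rw [hmap ρ₁ hg₁, hmap ρ₂ hg₂, mat2_charpoly_pow_eq hτeq m]
  have := congrArg (fun p => p.coeff k) key
  simp only [Polynomial.coeff_map] at this
  exact (Ideal.Quotient.eq).mp this

/-- CMP for Noetherian local rings (Krull's intersection theorem), e.g. discrete valuation rings. -/
theorem charpoly_eq_of_frobenius_of_noetherian [IsNoetherianRing O]
    (ρ₁ ρ₂ : GaloisRepAdic O) (S : Finset ℕ)
    (h : ∀ ℓ : ℕ, ℓ.Prime → ℓ ∉ S →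
      ∀ A : ValuationSubring (AlgebraicClosure ℚ), A.LiesOverPrime ℓ →
        ∀ τ : Γℚ, A.IsFrobeniusAt τ ℓ →
          LinearMap.charpoly (ρ₁.ρ τ) = LinearMap.charpoly (ρ₂.ρ τ))
    (σ : Γℚ) : LinearMap.charpoly (ρ₁.ρ σ) = LinearMap.charpoly (ρ₂.ρ σ) := by
  refine charpoly_eq_of_frobenius ?_ ρ₁ ρ₂ S h σ
  intro x hx
  have hbot := Ideal.iInf_pow_eq_bot_of_isLocalRing (IsLocalRing.maximalIdeal O)
    (IsLocalRing.maximalIdeal.isMaximal O).ne_top
  have : x ∈ ⨅ n : ℕ, IsLocalRing.maximalIdeal O ^ n := by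
    rw [Ideal.mem_iInf]; exact hx
  rw [hbot] at this
  exact this

end Main

end Fermat.Agent.EC
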