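/-
# EC-DET, linear-algebra core (helper40)

Abstract statements on a representation `ρ : G →* End_{𝔽_p}(V)`, `dim V = 2`:
Cayley–Hamilton comparison (`trace_det_of_rel`), fixed vectors of unipotent groups
(`exists_fixed_ne_zero`), and the abstract core of S41 R4 (`false_of_unip_normal`).
Mathlib only.
-/
import Mathlib

set_option autoImplicit false

namespace Fermat.Agent.EC.DetChar

open Polynomial

section LA

variable {k : Type*} [Field k] {V : Type*} [AddCommGroup V] [Module k V]

/-- an endomorphism is scalar -/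
def IsScalarEnd (x : Module.End k V) : Prop := ∃ r : k, x = r • (1 : Module.End k V)

theorem isScalarEnd_smul {x : Module.End k V} (hx : IsScalarEnd x) (c : k) :
    IsScalarEnd (c • x) := by
  obtain ⟨r, rfl⟩ := hx
  exact ⟨c * r, by rw [smul_smul]⟩

theorem isScalarEnd_pow {x : Module.End k V} (hx : IsScalarEnd x) (m : ℕ) :
    IsScalarEnd (x ^ m) := by
  obtain ⟨r, rfl⟩ := hx
  exact ⟨r ^ m, by rw [_root_.smul_pow, one_pow]⟩

theorem isScalarEnd_mul {x y : Module.End k V} (hx : IsScalarEnd x) (hy : IsScalarEnd y) :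
    IsScalarEnd (x * y) := by
  obtain ⟨r, rfl⟩ := hx
  obtain ⟨s, rfl⟩ := hy
  exact ⟨r * s, by rw [smul_mul_smul_comm, one_mul]⟩

/-- Cayley–Hamilton in dimension two. -/
theorem cayley_hamilton_two (h2 : Module.finrank k V = 2) (x : Module.End k V) :
    x ^ 2 - (LinearMap.trace k V x) • x + (LinearMap.det x) • (1 : Module.End k V) = 0 := by
  have : Module.Finite k V := Module.finite_of_finrank_eq_succ h2
  have : Module.Free k V := inferInstance
  let b := Module.finBasisOfFinrankEq k V h2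
  have hch := LinearMap.aeval_self_charpoly x
  have hcp : x.charpoly = X ^ 2 - C (LinearMap.trace k V x) * X + C (LinearMap.det x) := by
    rw [← LinearMap.charpoly_toMatrix x b, Matrix.charpoly_fin_two,
      LinearMap.trace_eq_matrix_trace k b x, LinearMap.det_toMatrix b x]
  rw [hcp] at hch
  simpa [Algebra.smul_def, aeval_X, map_sub, map_add, map_mul] using hch

theorem exists_ne_zero_of_finrank_two (h2 : Module.finrank k V = 2) : ∃ v : V, v ≠ 0 := by
  have : Nontrivial V := Module.nontrivial_of_finrank_pos (R := k) (by rw [h2]; norm_num)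
  exact exists_ne 0

theorem smul_one_end_eq_zero (h2 : Module.finrank k V = 2) {r : k}
    (h : r • (1 : Module.End k V) = 0) : r = 0 := by
  obtain ⟨v, hv⟩ := exists_ne_zero_of_finrank_two (k := k) h2
  have h1 : (r • (1 : Module.End k V)) v = 0 := by rw [h]; rfl
  rw [LinearMap.smul_apply, Module.End.one_apply] at h1
  exact (smul_eq_zero.mp h1).resolve_right hv

/-- A non-scalar endomorphism of a plane killed by `X² − aX + ℓ` has trace `a` and
determinant `ℓ`. -/
theorem trace_det_of_rel (h2 : Module.finrank k V = 2) {x : Module.End k V} {a l : k}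
    (hrel : x ^ 2 - a • x + l • (1 : Module.End k V) = 0) (hns : ¬ IsScalarEnd x) :
    LinearMap.trace k V x = a ∧ LinearMap.det x = l := by
  have hch := cayley_hamilton_two h2 x
  have hsub : (LinearMap.trace k V x - a) • x
      = (LinearMap.det x - l) • (1 : Module.End k V) := by
    have h0 : (x ^ 2 - a • x + l • (1 : Module.End k V))
        - (x ^ 2 - (LinearMap.trace k V x) • x + (LinearMap.det x) • (1 : Module.End k V)) = 0 := by
      rw [hrel, hch, sub_zero]
    have h1 : (LinearMap.trace k V x - a) • x - (LinearMap.det x - l) • (1 : Module.End k V)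
        = (x ^ 2 - a • x + l • (1 : Module.End k V))
        - (x ^ 2 - (LinearMap.trace k V x) • x + (LinearMap.det x) • (1 : Module.End k V)) := by
      simp only [sub_smul]
      abel
    rw [h0] at h1
    exact sub_eq_zero.mp h1
  have htr : LinearMap.trace k V x = a := by
    by_contra hne
    have hne' : LinearMap.trace k V x - a ≠ 0 := sub_ne_zero.mpr hne
    apply hns
    refine ⟨(LinearMap.trace k V x - a)⁻¹ * (LinearMap.det x - l), ?_⟩
    rw [mul_smul, ← hsub, smul_smul, inv_mul_cancel₀ hne', one_smul]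
  refine ⟨htr, ?_⟩
  rw [htr, sub_self, zero_smul] at hsub
  exact sub_eq_zero.mp (smul_one_end_eq_zero h2 hsub.symm)

/-- determinant of a scalar endomorphism of a plane -/
theorem det_smul_one_two (h2 : Module.finrank k V = 2) (r : k) :
    LinearMap.det (r • (1 : Module.End k V)) = r ^ 2 := by
  have : Module.Finite k V := Module.finite_of_finrank_eq_succ h2
  rw [LinearMap.det_smul, h2]
  simp

theorem trace_smul_one_two (h2 : Module.finrank k V = 2) (r : k) :
    LinearMap.trace k V (r • (1 : Module.End k V)) = 2 * r := by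
  have : Module.Finite k V := Module.finite_of_finrank_eq_succ h2
  rw [map_smul, LinearMap.trace_one, h2]
  simp [mul_comm]

/-- In a plane: if `x = r` is scalar, killed by `X² − aX + ℓ` and `det x = ℓ`, and `2 ≠ 0`,
then `tr x = a`. -/
theorem trace_of_rel_scalar (h2 : Module.finrank k V = 2) {r a l : k}
    (hrel : (r • (1 : Module.End k V)) ^ 2 - a • (r • (1 : Module.End k V))
      + l • (1 : Module.End k V) = 0)
    (hdet : LinearMap.det (r • (1 : Module.End k V)) = l) (hl : l ≠ 0) :
    LinearMap.trace k V (r • (1 : Module.End k V)) = a := by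
  rw [det_smul_one_two h2] at hdet
  rw [trace_smul_one_two h2]
  have h1 : (r ^ 2 - a * r + l) • (1 : Module.End k V) = 0 := by
    rw [← hrel, _root_.smul_pow, one_pow, smul_smul, add_smul, sub_smul]
  have h3 := smul_one_end_eq_zero h2 h1
  have hr : r ≠ 0 := by
    rintro rfl
    apply hl
    rw [← hdet]
    ring
  have h4 : r * (2 * r - a) = 0 := by
    have : r * (2 * r - a) = (r ^ 2 - a * r + l) + (r ^ 2 - l) := by ring
    rw [this, h3, hdet, sub_self, add_zero]
  rcases mul_eq_zero.mp h4 with h | h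
  · exact absurd h hr
  · exact sub_eq_zero.mp h

end LA

section Unip

variable {R : Type*} [Ring R]

theorem one_add_pow_of_mul_self_eq_zero {n : R} (h : n * n = 0) (m : ℕ) :
    (1 + n) ^ m = 1 + m • n := by
  induction m with
  | zero => simp
  | succ m ih =>
    rw [pow_succ, ih, mul_add, mul_one, add_mul, one_mul, smul_mul_assoc, h, smul_zero, add_zero,
      succ_nsmul]
    abel

theorem pow_sub_one_sq_eq_zero {x : R} (h : (x - 1) * (x - 1) = 0) (m : ℕ) :
    (x ^ m - 1) * (x ^ m - 1) = 0 := by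
  have hx : x = 1 + (x - 1) := by abel
  have h1 : x ^ m = 1 + m • (x - 1) := by
    conv_lhs => rw [hx]
    exact one_add_pow_of_mul_self_eq_zero h m
  rw [h1, add_sub_cancel_left, smul_mul_smul_comm, h, smul_zero]

end Unip

section PG

variable {p : ℕ} [hp : Fact p.Prime] {V : Type*} [AddCommGroup V] [Module (ZMod p) V]
  {G : Type*} [Group G] (ρ : G →* Module.End (ZMod p) V)

theorem pow_p_eq_one_of_unip {x : Module.End (ZMod p) V} (h : (x - 1) * (x - 1) = 0) :
    x ^ p = 1 := by
  have hx : x = 1 + (x - 1) := by abel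
  have h1 : x ^ p = 1 + p • (x - 1) := by
    conv_lhs => rw [hx]
    exact one_add_pow_of_mul_self_eq_zero h p
  rw [h1]
  have : p • (x - 1) = 0 := by
    rw [← Nat.cast_smul_eq_nsmul (ZMod p), ZMod.natCast_self, zero_smul]
  rw [this, add_zero]

/-- A subgroup acting unipotently on a finite `𝔽_p`-module of order divisible by `p` has a
nonzero fixed vector. -/
theorem exists_fixed_ne_zero [Finite V] (hV : p ∣ Nat.card V) (H : Subgroup G)
    (hH : ∀ σ ∈ H, (ρ σ - 1) * (ρ σ - 1) = 0) :
    ∃ v : V, v ≠ 0 ∧ ∀ σ ∈ H, ρ σ v = v := by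
  let Q : Subgroup (Module.End (ZMod p) V)ˣ := H.map ρ.toHomUnits
  have hQ : IsPGroup p Q := by
    rintro ⟨u, hu⟩
    obtain ⟨σ, hσ, rfl⟩ := hu
    refine ⟨1, ?_⟩
    apply Subtype.ext
    apply Units.ext
    rw [pow_one]
    show ((ρ.toHomUnits σ : (Module.End (ZMod p) V)ˣ) : Module.End (ZMod p) V) ^ p = 1
    rw [MonoidHom.coe_toHomUnits]
    exact pow_p_eq_one_of_unip (hH σ hσ)
  have h0 : (0 : V) ∈ MulAction.fixedPoints Q V := by
    rintro ⟨u, hu⟩
    show (u : Module.End (ZMod p) V) (0 : V) = 0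
    exact map_zero _
  obtain ⟨b, hb, hne⟩ := hQ.exists_fixed_point_of_prime_dvd_card_of_fixed_point V hV h0
  refine ⟨b, fun h => hne h.symm, fun σ hσ => ?_⟩
  have := hb ⟨ρ.toHomUnits σ, Subgroup.mem_map_of_mem _ hσ⟩
  exact this

end PG

section Rep

variable {p : ℕ} [hp : Fact p.Prime] {V : Type*} [AddCommGroup V] [Module (ZMod p) V]
  {G : Type*} [Group G] (ρ : G →* Module.End (ZMod p) V)

/-- irreducibility of a representation on an `𝔽_p`-module (no nontriviality clause) -/
def RepIrred : Prop :=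
  ∀ N : Submodule (ZMod p) V, (∀ g : G, ∀ x ∈ N, ρ g x ∈ N) → N = ⊥ ∨ N = ⊤

variable {ρ}

/-- A normal subgroup acting unipotently acts trivially on an irreducible module. -/
theorem trivial_of_unip_normal [Finite V] (hV : p ∣ Nat.card V) (hirr : RepIrred ρ)
    (H : Subgroup G) [hN : H.Normal] (hH : ∀ σ ∈ H, (ρ σ - 1) * (ρ σ - 1) = 0) :
    ∀ σ ∈ H, ρ σ = 1 := by
  let N : Submodule (ZMod p) V :=
    { carrier := {v | ∀ σ ∈ H, ρ σ v = v}
      add_mem' := fun {a b} ha hb σ hσ => by rw [map_add, ha σ hσ, hb σ hσ]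
      zero_mem' := fun σ _ => map_zero _
      smul_mem' := fun r v hv σ hσ => by rw [map_smul, hv σ hσ] }
  have hst : ∀ g : G, ∀ x ∈ N, ρ g x ∈ N := by
    intro g x hx σ hσ
    have h1 : g⁻¹ * σ * g ∈ H := by
      have := hN.conj_mem σ hσ g⁻¹
      rwa [inv_inv] at this
    have h2 : σ * g = g * (g⁻¹ * σ * g) := by group
    calc ρ σ (ρ g x) = ρ (σ * g) x := by rw [map_mul]; rfl
      _ = ρ (g * (g⁻¹ * σ * g)) x := by rw [h2]
      _ = ρ g (ρ (g⁻¹ * σ * g) x) := by rw [map_mul]; rfl
      _ = ρ g x := by rw [hx _ h1]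
  obtain ⟨v, hv0, hv⟩ := exists_fixed_ne_zero ρ hV H hH
  rcases hirr N hst with h | h
  · exfalso
    apply hv0
    have : v ∈ N := hv
    rw [h] at this
    exact (Submodule.mem_bot _).mp this
  · intro σ hσ
    apply LinearMap.ext
    intro x
    have hx : x ∈ N := by rw [h]; exact Submodule.mem_top
    exact hx σ hσ

/-- With commutative image, an element whose square acts trivially acts as `±1` on an irreducible
module. -/
theorem involution_scalar (hirr : RepIrred ρ) (hcomm : ∀ g h : G, ρ g * ρ h = ρ h * ρ g)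
    (c : G) (hc : ρ c * ρ c = 1) : ρ c = 1 ∨ ρ c = -1 := by
  have hst : ∀ g : G, ∀ x ∈ LinearMap.ker (ρ c - 1), ρ g x ∈ LinearMap.ker (ρ c - 1) := by
    intro g x hx
    rw [LinearMap.mem_ker] at hx ⊢
    have h1 : (ρ c - 1) (ρ g x) = ((ρ c - 1) * ρ g) x := rfl
    have h2 : (ρ c - 1) * ρ g = ρ g * (ρ c - 1) := by
      rw [sub_mul, mul_sub, hcomm c g, one_mul, mul_one]
    rw [h1, h2]
    show ρ g ((ρ c - 1) x) = 0
    rw [hx, map_zero]
  rcases hirr _ hst with h | h
  · right
    apply LinearMap.ext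
    intro v
    have h1 : (ρ c + 1) v ∈ LinearMap.ker (ρ c - 1) := by
      rw [LinearMap.mem_ker]
      have : (ρ c - 1) ((ρ c + 1) v) = ((ρ c - 1) * (ρ c + 1)) v := rfl
      rw [this]
      have h3 : (ρ c - 1) * (ρ c + 1) = 0 := by
        rw [sub_mul, mul_add, one_mul, mul_one, hc]
        abel
      rw [h3]
      rfl
    rw [h, Submodule.mem_bot] at h1
    rw [LinearMap.add_apply, Module.End.one_apply] at h1
    rw [LinearMap.neg_apply, Module.End.one_apply]
    exact eq_neg_of_add_eq_zero_left h1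
  · left
    have h1 : ρ c - 1 = 0 := LinearMap.ker_eq_top.mp h
    exact sub_eq_zero.mp h1

/-- An irreducible representation on a plane has a non-scalar element. -/
theorem exists_nonscalar (h2 : Module.finrank (ZMod p) V = 2) (hirr : RepIrred ρ) :
    ∃ σ : G, ¬ IsScalarEnd (ρ σ) := by
  by_contra hcon
  have hcon : ∀ σ : G, IsScalarEnd (ρ σ) := fun σ => not_not.mp fun h => hcon ⟨σ, h⟩
  obtain ⟨v, hv⟩ := exists_ne_zero_of_finrank_two (k := ZMod p) h2
  have hst : ∀ g : G, ∀ x ∈ Submodule.span (ZMod p) {v}, ρ g x ∈ Submodule.span (ZMod p) {v} := by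
    intro g x hx
    obtain ⟨r, hr⟩ := hcon g
    rw [hr, LinearMap.smul_apply, Module.End.one_apply]
    exact Submodule.smul_mem _ _ hx
  rcases hirr _ hst with h | h
  · apply hv
    have : v ∈ Submodule.span (ZMod p) {v} := Submodule.mem_span_singleton_self v
    rw [h] at this
    exact (Submodule.mem_bot _).mp this
  · have h1 : Module.finrank (ZMod p) (Submodule.span (ZMod p) {v}) = 1 :=
      finrank_span_singleton hv
    rw [h, finrank_top, h2] at h1
    norm_num at h1

/-- If `det ∘ ρ` agrees with a character `χ` on the non-scalar elements and some element is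
non-scalar, then `det ∘ ρ = χ`. -/
theorem det_eq_char_of_nonscalar (h2 : Module.finrank (ZMod p) V = 2) (χ : G →* (ZMod p)ˣ)
    (hA : ∀ σ : G, ¬ IsScalarEnd (ρ σ) → LinearMap.det (ρ σ) = (χ σ : ZMod p))
    {σ₀ : G} (h₀ : ¬ IsScalarEnd (ρ σ₀)) (σ : G) :
    LinearMap.det (ρ σ) = (χ σ : ZMod p) := by
  by_cases hs : IsScalarEnd (ρ σ)
  · obtain ⟨r, hr⟩ := hs
    have hr0 : r ≠ 0 := by
      rintro rfl
      rw [zero_smul] at hr
      have h1 : ρ σ * ρ σ⁻¹ = 1 := by rw [← map_mul, mul_inv_cancel, map_one]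
      rw [hr, zero_mul] at h1
      have h3 : (1 : ZMod p) • (1 : Module.End (ZMod p) V) = 0 := by rw [one_smul, ← h1]
      exact one_ne_zero (smul_one_end_eq_zero h2 h3)
    have hns : ¬ IsScalarEnd (ρ (σ * σ₀)) := by
      rintro ⟨t, ht⟩
      apply h₀
      refine ⟨r⁻¹ * t, ?_⟩
      rw [map_mul, hr, smul_mul_assoc, one_mul] at ht
      rw [mul_smul, ← ht, smul_smul, inv_mul_cancel₀ hr0, one_smul]
    have h1 := hA _ hns
    have h3 := hA _ h₀
    rw [map_mul, map_mul, map_mul, Units.val_mul, h3] at h1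
    exact mul_right_cancel₀ (Units.ne_zero (χ σ₀)) h1
  · exact hA σ hs

/-- **Abstract core of R4.**  Let `ρ` be an irreducible representation on an `𝔽_p`-plane, `p` odd,
whose determinant agrees with a character `χ` on the non-scalar elements.  Then there is no
normal subgroup `H` with abelian quotient acting unipotently, together with an element `c` with
`c² ∈ H` and `χ(c) = −1`. -/
theorem false_of_unip_normal (hp2 : p ≠ 2) (h2 : Module.finrank (ZMod p) V = 2)
    (hirr : RepIrred ρ) (χ : G →* (ZMod p)ˣ)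
    (hA : ∀ σ : G, ¬ IsScalarEnd (ρ σ) → LinearMap.det (ρ σ) = (χ σ : ZMod p))
    (H : Subgroup G) [hN : H.Normal] (hab : ∀ g h : G, g * h * g⁻¹ * h⁻¹ ∈ H)
    (hH : ∀ σ ∈ H, (ρ σ - 1) * (ρ σ - 1) = 0)
    (c : G) (hc : c * c ∈ H) (hχc : χ c = -1) : False := by
  have hfin : Module.Finite (ZMod p) V := Module.finite_of_finrank_eq_succ h2
  have hFin : Finite V := Module.finite_of_finite (ZMod p)
  have hcard : Nat.card V = p ^ 2 := by
    rw [Module.natCard_eq_pow_finrank (K := ZMod p), Nat.card_zmod, h2]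
  have hV : p ∣ Nat.card V := by rw [hcard]; exact dvd_pow_self p two_ne_zero
  have htriv := trivial_of_unip_normal hV hirr H hH
  have hcomm : ∀ g h : G, ρ g * ρ h = ρ h * ρ g := by
    intro g h
    have h1 := htriv _ (hab g h)
    rw [map_mul, map_mul, map_mul] at h1
    have h3 : ρ g * ρ h = (ρ g * ρ h * ρ g⁻¹ * ρ h⁻¹) * (ρ h * ρ g) := by
      have e1 : ρ h⁻¹ * ρ h = 1 := by rw [← map_mul, inv_mul_cancel, map_one]
      have e2 : ρ g⁻¹ * ρ g = 1 := by rw [← map_mul, inv_mul_cancel, map_one]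
      calc ρ g * ρ h = ρ g * ρ h * 1 := by rw [mul_one]
        _ = ρ g * ρ h * (ρ g⁻¹ * ρ g) := by rw [e2]
        _ = ρ g * ρ h * (ρ g⁻¹ * 1 * ρ g) := by rw [mul_one]
        _ = ρ g * ρ h * (ρ g⁻¹ * (ρ h⁻¹ * ρ h) * ρ g) := by rw [e1]
        _ = (ρ g * ρ h * ρ g⁻¹ * ρ h⁻¹) * (ρ h * ρ g) := by simp only [mul_assoc]
    rw [h3, h1, one_mul]
  have hcc : ρ c * ρ c = 1 := by rw [← map_mul]; exact htriv _ hc
  obtain ⟨σ₀, h₀⟩ := exists_nonscalar h2 hirr
  have hdet := det_eq_char_of_nonscalar h2 χ hA h₀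
  have hε : LinearMap.det (ρ c) = 1 := by
    rcases involution_scalar hirr hcomm c hcc with h | h
    · rw [h, map_one]
    · have : (-1 : Module.End (ZMod p) V) = (-1 : ZMod p) • (1 : Module.End (ZMod p) V) := by
        rw [neg_smul, one_smul]
      rw [h, this, det_smul_one_two h2]
      ring
  have h1 := hdet c
  rw [hε, hχc] at h1
  have h3 : ((-1 : (ZMod p)ˣ) : ZMod p) = -1 := by simp
  rw [h3] at h1
  have h4 : (2 : ZMod p) = 0 := by
    have : (2 : ZMod p) = 1 - (-1) := by ring
    rw [this, ← h1, sub_self]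
  have h5 : ((2 : ℕ) : ZMod p) = 0 := by exact_mod_cast h4
  rw [ZMod.natCast_eq_zero_iff] at h5
  have := (Nat.prime_dvd_prime_iff_eq hp.out Nat.prime_two).mp h5
  exact hp2 this

end Rep

end Fermat.Agent.EC.DetChar
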