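/-
# EC-DET and the abstract form of S41 R4 (helper40)

`E : WeierstrassCurve ℚ`, `V = E[p](ℚ̄)` (`TorsQbar E p`), `ρ̄ = rhoBar E p`, `p` prime.
Hypotheses, all abstract:
* (CARD) `Nat.card (TorsQbar E p) = p ^ 2`            (EC/Tors.lean, helper77);
* (REL)  `FrobRel E p a S₀`: `τ² − a_ℓ τ + ℓ = 0` on `V` for every Frobenius `τ` at `ℓ ∉ S₀`
         (RED link, helper13; `a = W.apOfModel` after transport, helper6);
* (IRR)  `GaloisRepIsIrreducible ℚ E p`, or only "some `ρ̄(σ₀)` is not scalar".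

Results (no Weil pairing, no isogenies: Cayley–Hamilton + the generator form of weak Chebotarev):
* `det_rhoBar_eq_cycloChar`, `det_rhoBar_eq_cycloChar_of_irred` : `det ρ̄(σ) = χ_p(σ)`;
* `trace_rhoBar_frob`, `trace_rhoBar_frob_of_irred`, `galoisTrace_frob_of_irred` :
  `tr ρ̄(τ) = a_ℓ mod p` for a Frobenius `τ` at `ℓ ∉ S₀`, `ℓ ≠ p`;
* `exists_prime_modEq_one_not_dvd` (R4): for `p` odd and every `M > 0` there is a prime `ℓ ∉ S₀`,
  `ℓ ≡ 1 mod M`, with `¬ p ∣ a ℓ − (ℓ + 1)`.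
-/
import Fermat.Agent.EC.DetCharLA
import Fermat.Agent.Cheb.Strong
import Fermat.Agent.S31.Cyclo
import Fermat.Agent.S30.Cyclo
import Fermat.Agent.S42.FreyField
import Fermat.Agent.S42.Hull

set_option autoImplicit false

noncomputable section

namespace Fermat.Agent.EC.DetChar

open WeierstrassCurve WeierstrassCurve.Affine WeierstrassCurve.Affine.Point
open Fermat.Agent.ES Fermat.Agent.S42

/-- `E[p](ℚ̄)` -/
abbrev TorsQbar (E : WeierstrassCurve ℚ) (p : ℕ) : Type :=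
  Submodule.torsionBy ℤ (E⁄(AlgebraicClosure ℚ)).Point p

/-- the mod-`p` representation `G_ℚ → End(E[p])` -/
abbrev rhoBar (E : WeierstrassCurve ℚ) (p : ℕ) : GQ →* Module.End (ZMod p) (TorsQbar E p) :=
  galoisRepModuleEnd (S := ℚ) (K := AlgebraicClosure ℚ) E p

/-- **(REL)** the Frobenius relation `τ² − a_ℓ τ + ℓ = 0` on `E[p]` for all primes `ℓ ∉ S₀`. -/
def FrobRel (E : WeierstrassCurve ℚ) (p : ℕ) (a : ℕ → ℤ) (S₀ : Finset ℕ) : Prop :=
  ∀ ℓ : ℕ, ℓ.Prime → ℓ ∉ S₀ → ∀ A : ValuationSubring (AlgebraicClosure ℚ), A.LiesOverPrime ℓ →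
    ∀ τ : GQ, A.IsFrobeniusAt τ ℓ → ∀ x : TorsQbar E p,
      τ • τ • x - a ℓ • τ • x + (ℓ : ℤ) • x = 0

variable {E : WeierstrassCurve ℚ} {p : ℕ}

theorem rhoBar_apply (σ : GQ) (x : TorsQbar E p) : rhoBar E p σ x = σ • x := rfl

/-- (REL) as an identity of endomorphisms. -/
theorem frobRel_end {a : ℕ → ℤ} {S₀ : Finset ℕ} (hrel : FrobRel E p a S₀) {ℓ : ℕ}
    (hℓ : ℓ.Prime) (hℓS : ℓ ∉ S₀) {A : ValuationSubring (AlgebraicClosure ℚ)}
    (hA : A.LiesOverPrime ℓ) {τ : GQ} (hτ : A.IsFrobeniusAt τ ℓ) :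
    rhoBar E p τ ^ 2 - (a ℓ : ZMod p) • rhoBar E p τ
      + (ℓ : ZMod p) • (1 : Module.End (ZMod p) (TorsQbar E p)) = 0 := by
  apply LinearMap.ext
  intro x
  have h := hrel ℓ hℓ hℓS A hA τ hτ x
  rw [LinearMap.add_apply, LinearMap.sub_apply, LinearMap.smul_apply, LinearMap.smul_apply,
    Module.End.one_apply, LinearMap.zero_apply, pow_two, Module.End.mul_apply, rhoBar_apply,
    rhoBar_apply, Int.cast_smul_eq_zsmul, Nat.cast_smul_eq_nsmul]
  rw [← h, natCast_zsmul]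


theorem exists_level (hfin : Finite (TorsQbar E p)) (n : ℕ) [NeZero n] :
    ∃ F : IntermediateField ℚ (AlgebraicClosure ℚ), FiniteDimensional ℚ F ∧ IsGalois ℚ F ∧
      (∀ σ σ' : GQ, (∀ x ∈ F, σ x = σ' x) → rhoBar E p σ = rhoBar E p σ') ∧
      (∀ σ σ' : GQ, (∀ x ∈ F, σ x = σ' x) → cycloChar n σ = cycloChar n σ') := by
  classical
  obtain ⟨E₀, hE₀, hE₀triv⟩ := finite_level_of_finite_torsion E p hfin
  have : NeZero (n : AlgebraicClosure ℚ) := ⟨Nat.cast_ne_zero.mpr (NeZero.ne n)⟩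
  obtain ⟨ζ, hζ⟩ := HasEnoughRootsOfUnity.exists_primitiveRoot (AlgebraicClosure ℚ) n
  have hint : IsIntegral ℚ ζ := (hζ.isIntegral (Nat.pos_of_ne_zero (NeZero.ne n))).tower_top
  have hK : FiniteDimensional ℚ (IntermediateField.adjoin ℚ {ζ}) :=
    IntermediateField.adjoin.finiteDimensional hint
  obtain ⟨F, hFfin, hFnorm, hle⟩ := stmtHull {E₀, IntermediateField.adjoin ℚ {ζ}} (by
    intro K hK'
    rw [Finset.mem_insert, Finset.mem_singleton] at hK'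
    rcases hK' with rfl | rfl
    · exact hE₀
    · exact hK)
  have hE₀F : E₀ ≤ F := hle E₀ (by simp)
  have hζF : ζ ∈ F :=
    hle (IntermediateField.adjoin ℚ {ζ}) (by simp)
      (IntermediateField.subset_adjoin ℚ {ζ} (Set.mem_singleton ζ))
  refine ⟨F, hFfin, ?_, ?_, ?_⟩
  · exact IsGalois.mk
  · intro σ σ' h
    have hfix : FixesField E₀ (σ'⁻¹ * σ) := by
      intro x hx
      rw [AlgEquiv.mul_apply, h x (hE₀F hx)]
      exact σ'.symm_apply_apply x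
    have h1 : rhoBar E p (σ'⁻¹ * σ) = 1 := by
      apply LinearMap.ext
      intro x
      exact hE₀triv _ hfix x
    have h2 : σ = σ' * (σ'⁻¹ * σ) := by group
    rw [h2, map_mul, h1, mul_one]
  · intro σ σ' h
    have h1 := cycloChar_spec n σ hζ
    have h2 := cycloChar_spec n σ' hζ
    rw [h ζ hζF, h2] at h1
    have h3 := hζ.pow_inj (ZMod.val_lt _) (ZMod.val_lt _) h1
    apply Units.ext
    exact (ZMod.val_injective n h3).symm



section Main

variable [hpF : Fact p.Prime]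

theorem finite_of_card (hcard : Nat.card (TorsQbar E p) = p ^ 2) : Finite (TorsQbar E p) := by
  apply Nat.finite_of_card_ne_zero
  rw [hcard]
  exact pow_ne_zero _ hpF.out.ne_zero

theorem finrank_of_card (hcard : Nat.card (TorsQbar E p) = p ^ 2) :
    Module.finrank (ZMod p) (TorsQbar E p) = 2 := by
  have hfin : Finite (TorsQbar E p) := finite_of_card hcard
  have hmf : Module.Finite (ZMod p) (TorsQbar E p) := Module.Finite.of_finite
  have h := Module.natCard_eq_pow_finrank (K := ZMod p) (V := TorsQbar E p)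
  rw [hcard, Nat.card_zmod] at h
  exact (Nat.pow_right_injective hpF.out.two_le h).symm

/-- **(A)** for a non-scalar `ρ̄(σ)`: `det ρ̄(σ) = χ_p(σ)`. -/
theorem det_of_nonscalar (hcard : Nat.card (TorsQbar E p) = p ^ 2) {a : ℕ → ℤ} {S₀ : Finset ℕ}
    (hrel : FrobRel E p a S₀) (σ : GQ) (hns : ¬ IsScalarEnd (rhoBar E p σ)) :
    LinearMap.det (rhoBar E p σ) = ((cycloChar p σ : (ZMod p)ˣ) : ZMod p) := by
  have h2 := finrank_of_card hcard
  obtain ⟨F, hFfin, hFgal, hρ, hχ⟩ := exists_level (finite_of_card hcard) p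
  obtain ⟨ℓ, A, τ, m, k, hℓ, hℓS, hA, hτ, h1, -⟩ :=
    Fermat.Agent.Cheb.exists_frobenius_generator F (insert p S₀) σ
  have hℓp : ℓ ≠ p := fun h => hℓS (h ▸ Finset.mem_insert_self _ _)
  have hℓS₀ : ℓ ∉ S₀ := fun h => hℓS (Finset.mem_insert_of_mem h)
  have hρσ : rhoBar E p σ = rhoBar E p τ ^ m := by
    rw [← map_pow]
    exact (hρ _ _ h1).symm
  have hχσ : cycloChar p σ = cycloChar p τ ^ m := by
    rw [← map_pow]
    exact (hχ _ _ h1).symm
  have hnsτ : ¬ IsScalarEnd (rhoBar E p τ) := fun h => hns (hρσ ▸ isScalarEnd_pow h m)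
  have hdet := (trace_det_of_rel h2 (frobRel_end hrel hℓ hℓS₀ hA hτ) hnsτ).2
  have hfrob := cycloChar_frob p hpF.out ℓ hℓ hℓp A hA τ hτ
  rw [hρσ, hχσ, map_pow, hdet, Units.val_pow_eq_pow_val, hfrob]

/-- **EC-DET (determinant).**  If some `ρ̄(σ₀)` is not scalar, `det ρ̄ = χ_p`. -/
theorem det_rhoBar_eq_cycloChar (hcard : Nat.card (TorsQbar E p) = p ^ 2) {a : ℕ → ℤ}
    {S₀ : Finset ℕ} (hrel : FrobRel E p a S₀) {σ₀ : GQ} (h₀ : ¬ IsScalarEnd (rhoBar E p σ₀))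
    (σ : GQ) :
    LinearMap.det (rhoBar E p σ) = ((cycloChar p σ : (ZMod p)ˣ) : ZMod p) :=
  det_eq_char_of_nonscalar (finrank_of_card hcard) (cycloChar p)
    (fun σ hσ => det_of_nonscalar hcard hrel σ hσ) h₀ σ

/-- **EC-DET (trace).**  If some `ρ̄(σ₀)` is not scalar, then `tr ρ̄(τ) = a_ℓ` for every Frobenius
`τ` at a prime `ℓ ∉ S₀`, `ℓ ≠ p`. -/
theorem trace_rhoBar_frob (hcard : Nat.card (TorsQbar E p) = p ^ 2) {a : ℕ → ℤ}
    {S₀ : Finset ℕ} (hrel : FrobRel E p a S₀) {σ₀ : GQ} (h₀ : ¬ IsScalarEnd (rhoBar E p σ₀))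
    {ℓ : ℕ} (hℓ : ℓ.Prime) (hℓS : ℓ ∉ S₀) (hℓp : ℓ ≠ p)
    {A : ValuationSubring (AlgebraicClosure ℚ)} (hA : A.LiesOverPrime ℓ) {τ : GQ}
    (hτ : A.IsFrobeniusAt τ ℓ) :
    LinearMap.trace (ZMod p) (TorsQbar E p) (rhoBar E p τ) = (a ℓ : ZMod p) := by
  have h2 := finrank_of_card hcard
  have hr := frobRel_end hrel hℓ hℓS hA hτ
  by_cases hs : IsScalarEnd (rhoBar E p τ)
  · obtain ⟨r, hr'⟩ := hs
    have hdet := det_rhoBar_eq_cycloChar hcard hrel h₀ τ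
    rw [cycloChar_frob p hpF.out ℓ hℓ hℓp A hA τ hτ] at hdet
    have hl0 : (ℓ : ZMod p) ≠ 0 := by
      intro h0
      rw [ZMod.natCast_eq_zero_iff] at h0
      exact hℓp ((Nat.prime_dvd_prime_iff_eq hpF.out hℓ).mp h0).symm
    rw [hr'] at hr hdet ⊢
    exact trace_of_rel_scalar h2 hr hdet hl0
  · exact (trace_det_of_rel h2 hr hs).1

/-- a natural number prime to the residue characteristic is a unit of the valuation ring -/
theorem natCast_not_mem_nonunits_of_coprime (A : ValuationSubring (AlgebraicClosure ℚ)) {n ℓ : ℕ}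
    (hcop : Nat.Coprime n ℓ) (hA : A.LiesOverPrime ℓ) :
    ((n : ℕ) : AlgebraicClosure ℚ) ∉ A.nonunits := by
  intro h
  obtain ⟨u, v, huv⟩ := Nat.Coprime.isCoprime hcop
  have h1 : ((u : AlgebraicClosure ℚ) * ((n : ℕ) : AlgebraicClosure ℚ)
      + (v : AlgebraicClosure ℚ) * (ℓ : AlgebraicClosure ℚ)) = 1 := by
    have := congrArg (fun z : ℤ => (z : AlgebraicClosure ℚ)) huv
    simpa using this
  have hu : (u : AlgebraicClosure ℚ) ∈ A := intCast_mem A u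
  have hv : (v : AlgebraicClosure ℚ) ∈ A := intCast_mem A v
  have h2 : A.valuation ((u : AlgebraicClosure ℚ) * ((n : ℕ) : AlgebraicClosure ℚ)
      + (v : AlgebraicClosure ℚ) * (ℓ : AlgebraicClosure ℚ)) < 1 := by
    apply Valuation.map_add_lt
    · rw [map_mul]
      calc A.valuation (u : AlgebraicClosure ℚ) * A.valuation ((n : ℕ) : AlgebraicClosure ℚ)
          ≤ 1 * A.valuation ((n : ℕ) : AlgebraicClosure ℚ) :=
            mul_le_mul_left ((A.valuation_le_one_iff _).mpr hu) _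
        _ = A.valuation ((n : ℕ) : AlgebraicClosure ℚ) := one_mul _
        _ < 1 := A.mem_nonunits_iff.mp h
    · rw [map_mul]
      calc A.valuation (v : AlgebraicClosure ℚ) * A.valuation (ℓ : AlgebraicClosure ℚ)
          ≤ 1 * A.valuation (ℓ : AlgebraicClosure ℚ) :=
            mul_le_mul_left ((A.valuation_le_one_iff _).mpr hv) _
        _ = A.valuation (ℓ : AlgebraicClosure ℚ) := one_mul _
        _ < 1 := A.mem_nonunits_iff.mp hA
  rw [h1, map_one] at h2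
  exact lt_irrefl _ h2

/-- a Frobenius at `ℓ ∤ n` with trivial mod-`n` cyclotomic character has `ℓ ≡ 1 mod n` -/
theorem modEq_one_of_cycloChar_eq_one {n : ℕ} [NeZero n] {ℓ : ℕ}
    (hcop : Nat.Coprime n ℓ) {A : ValuationSubring (AlgebraicClosure ℚ)}
    (hA : A.LiesOverPrime ℓ) {τ : GQ} (hτ : A.IsFrobeniusAt τ ℓ)
    (h1 : cycloChar n τ = 1) : ℓ ≡ 1 [MOD n] := by
  have : NeZero (n : AlgebraicClosure ℚ) := ⟨Nat.cast_ne_zero.mpr (NeZero.ne n)⟩
  obtain ⟨ζ, hζ⟩ := HasEnoughRootsOfUnity.exists_primitiveRoot (AlgebraicClosure ℚ) n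
  have hfrob : τ ζ = ζ ^ ℓ :=
    Fermat.Agent.S31.frob_rootOfUnity A (natCast_not_mem_nonunits_of_coprime A hcop hA)
      (NeZero.ne n) hτ hζ.pow_eq_one
  have hspec := cycloChar_spec n τ hζ
  rw [h1, hfrob] at hspec
  -- `ζ ^ ℓ = ζ ^ (1 : ZMod n).val`
  have hfo : IsOfFinOrder ζ :=
    isOfFinOrder_iff_pow_eq_one.mpr ⟨n, Nat.pos_of_ne_zero (NeZero.ne n), hζ.pow_eq_one⟩
  have hd : ζ ^ ℓ = ζ ^ 1 ↔ ℓ ≡ 1 [MOD n] := by
    have := hfo.pow_eq_pow_iff_modEq (n := ℓ) (m := 1)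
    rwa [← hζ.eq_orderOf] at this
  by_cases hn1 : n = 1
  · subst hn1
    exact Nat.modEq_one
  · have hlt : 1 < n := lt_of_le_of_ne (Nat.pos_of_ne_zero (NeZero.ne n)) (Ne.symm hn1)
    have : Fact (1 < n) := ⟨hlt⟩
    have hv : ((1 : (ZMod n)ˣ) : ZMod n).val = 1 := by
      rw [Units.val_one, ZMod.val_one]
    rw [hv] at hspec
    exact hd.mp hspec

theorem cycloChar_complexConj : cycloChar p complexConjugation = -1 := by
  have hp := hpF.out
  have : NeZero (p : AlgebraicClosure ℚ) := ⟨Nat.cast_ne_zero.mpr hp.ne_zero⟩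
  obtain ⟨ζ, hζ⟩ := HasEnoughRootsOfUnity.exists_primitiveRoot (AlgebraicClosure ℚ) p
  have h1 := Fermat.Agent.S30.complexConj_root p ζ hp.ne_zero hζ.pow_eq_one
  have hspec := cycloChar_spec p complexConjugation hζ
  rw [h1] at hspec
  have hinv : ζ⁻¹ = ζ ^ (p - 1) := by
    have hζ0 : ζ ≠ 0 := hζ.ne_zero hp.ne_zero
    have : ζ * ζ ^ (p - 1) = 1 := by
      rw [← pow_succ', Nat.sub_add_cancel hp.one_le, hζ.pow_eq_one]
    exact inv_eq_of_mul_eq_one_right this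
  rw [hinv] at hspec
  have h3 := hζ.pow_inj (Nat.sub_lt hp.pos Nat.one_pos) (ZMod.val_lt _) hspec
  apply Units.ext
  rw [Units.val_neg, Units.val_one]
  have h4 : ((cycloChar p complexConjugation : (ZMod p)ˣ) : ZMod p)
      = ((p - 1 : ℕ) : ZMod p) := by
    rw [h3, ZMod.natCast_zmod_val]
  rw [h4, Nat.cast_sub hp.one_le, ZMod.natCast_self, Nat.cast_one, zero_sub]

/-- an irreducible `E[p]` of order `p²` has a non-scalar `ρ̄(σ₀)` -/
theorem exists_nonscalar_of_irred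
    (hirr : GaloisRepIsIrreducible (K := AlgebraicClosure ℚ) ℚ E p)
    (hcard : Nat.card (TorsQbar E p) = p ^ 2) : ∃ σ₀ : GQ, ¬ IsScalarEnd (rhoBar E p σ₀) :=
  exists_nonscalar (finrank_of_card hcard) (fun N hN => hirr.2 N hN)

/-- **EC-DET (determinant), irreducible case.** -/
theorem det_rhoBar_eq_cycloChar_of_irred
    (hirr : GaloisRepIsIrreducible (K := AlgebraicClosure ℚ) ℚ E p)
    (hcard : Nat.card (TorsQbar E p) = p ^ 2) {a : ℕ → ℤ} {S₀ : Finset ℕ}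
    (hrel : FrobRel E p a S₀) (σ : GQ) :
    LinearMap.det (rhoBar E p σ) = ((cycloChar p σ : (ZMod p)ˣ) : ZMod p) := by
  obtain ⟨σ₀, h₀⟩ := exists_nonscalar_of_irred hirr hcard
  exact det_rhoBar_eq_cycloChar hcard hrel h₀ σ

/-- **EC-DET (trace), irreducible case.** -/
theorem trace_rhoBar_frob_of_irred
    (hirr : GaloisRepIsIrreducible (K := AlgebraicClosure ℚ) ℚ E p)
    (hcard : Nat.card (TorsQbar E p) = p ^ 2) {a : ℕ → ℤ} {S₀ : Finset ℕ}
    (hrel : FrobRel E p a S₀) {ℓ : ℕ} (hℓ : ℓ.Prime) (hℓS : ℓ ∉ S₀) (hℓp : ℓ ≠ p)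
    {A : ValuationSubring (AlgebraicClosure ℚ)} (hA : A.LiesOverPrime ℓ) {τ : GQ}
    (hτ : A.IsFrobeniusAt τ ℓ) :
    LinearMap.trace (ZMod p) (TorsQbar E p) (rhoBar E p τ) = (a ℓ : ZMod p) := by
  obtain ⟨σ₀, h₀⟩ := exists_nonscalar_of_irred hirr hcard
  exact trace_rhoBar_frob hcard hrel h₀ hℓ hℓS hℓp hA hτ

/-- **EC-DET (trace), irreducible case, in terms of the prelude's `galoisTrace`.** -/
theorem galoisTrace_frob_of_irred
    (hirr : GaloisRepIsIrreducible (K := AlgebraicClosure ℚ) ℚ E p)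
    (hcard : Nat.card (TorsQbar E p) = p ^ 2) {a : ℕ → ℤ} {S₀ : Finset ℕ}
    (hrel : FrobRel E p a S₀) {ℓ : ℕ} (hℓ : ℓ.Prime) (hℓS : ℓ ∉ S₀) (hℓp : ℓ ≠ p)
    {A : ValuationSubring (AlgebraicClosure ℚ)} (hA : A.LiesOverPrime ℓ) {τ : GQ}
    (hτ : A.IsFrobeniusAt τ ℓ) :
    galoisTrace (K := AlgebraicClosure ℚ) ℚ E p τ = (a ℓ : ZMod p) :=
  trace_rhoBar_frob_of_irred hirr hcard hrel hℓ hℓS hℓp hA hτ

/-- **S41 R4 (abstract form).**  If `E[p]` is irreducible of order `p²` (`p` odd) and the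
Frobenius relation `τ² − a_ℓ τ + ℓ = 0` holds on `E[p]` for all primes `ℓ ∉ S₀`, then for every
`M > 0` there is a prime `ℓ ∉ S₀`, `ℓ ≡ 1 mod M`, with `a_ℓ ≢ ℓ + 1 mod p`. -/
theorem exists_prime_modEq_one_not_dvd (hp2 : p ≠ 2)
    (hirr : GaloisRepIsIrreducible (K := AlgebraicClosure ℚ) ℚ E p)
    (hcard : Nat.card (TorsQbar E p) = p ^ 2) {a : ℕ → ℤ} {S₀ : Finset ℕ}
    (hrel : FrobRel E p a S₀) {M : ℕ} (hM : 0 < M) :
    ∃ ℓ : ℕ, ℓ.Prime ∧ ℓ ∉ S₀ ∧ ℓ ≡ 1 [MOD M] ∧ ¬ (p : ℤ) ∣ a ℓ - (ℓ + 1) := by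
  by_contra hcon
  have hp := hpF.out
  have hneg : ∀ ℓ : ℕ, ℓ.Prime → ℓ ∉ S₀ → ℓ ≡ 1 [MOD M] → (p : ℤ) ∣ a ℓ - (ℓ + 1) := by
    intro ℓ h1 h2 h3
    by_contra h4
    exact hcon ⟨ℓ, h1, h2, h3, h4⟩
  have h2 := finrank_of_card hcard
  have hirr' : RepIrred (rhoBar E p) := fun N hN => hirr.2 N hN
  have : NeZero (p * M) := ⟨Nat.mul_ne_zero hp.ne_zero hM.ne'⟩
  refine false_of_unip_normal hp2 h2 hirr' (cycloChar p)
    (fun σ hσ => det_of_nonscalar hcard hrel σ hσ) (cycloChar (p * M)).ker ?_ ?_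
    complexConjugation ?_ cycloChar_complexConj
  · intro g h
    rw [MonoidHom.mem_ker, map_mul, map_mul, map_mul, map_inv, map_inv]
    rw [mul_comm (cycloChar (p * M) g) (cycloChar (p * M) h), mul_assoc, mul_assoc,
      mul_inv_cancel_left, mul_inv_cancel]
  · intro σ hσ
    obtain ⟨F, hFfin, hFgal, hρ, hχ⟩ := exists_level (finite_of_card hcard) (p * M)
    obtain ⟨ℓ, A, τ, m, k, hℓ, hℓS, hA, hτ, h1, h3⟩ :=
      Fermat.Agent.Cheb.exists_frobenius_generator F (S₀ ∪ (p * M).primeFactors) σ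
    have hℓS₀ : ℓ ∉ S₀ := fun h => hℓS (Finset.mem_union_left _ h)
    have hndvd : ¬ ℓ ∣ p * M := by
      intro hd
      apply hℓS
      apply Finset.mem_union_right
      rw [Nat.mem_primeFactors]
      exact ⟨hℓ, hd, NeZero.ne _⟩
    have hcop : Nat.Coprime (p * M) ℓ := ((Nat.Prime.coprime_iff_not_dvd hℓ).mpr hndvd).symm
    have hχτ : cycloChar (p * M) τ = 1 := by
      have := hχ (σ ^ k) τ h3
      rw [← this, map_pow, MonoidHom.mem_ker.mp hσ, one_pow]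
    have hmod := modEq_one_of_cycloChar_eq_one hcop hA hτ hχτ
    have hmodM : ℓ ≡ 1 [MOD M] := hmod.of_mul_left p
    have hmodp : ℓ ≡ 1 [MOD p] := hmod.of_mul_right M
    have hdvd := hneg ℓ hℓ hℓS₀ hmodM
    have hl1 : (ℓ : ZMod p) = 1 := by
      have := (ZMod.natCast_eq_natCast_iff ℓ 1 p).mpr hmodp
      simpa using this
    have ha2 : ((a ℓ : ℤ) : ZMod p) = 2 := by
      have h0 : ((a ℓ - (ℓ + 1) : ℤ) : ZMod p) = 0 :=
        (ZMod.intCast_zmod_eq_zero_iff_dvd _ p).mpr hdvd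
      push_cast at h0
      rw [hl1] at h0
      linear_combination h0
    have hr := frobRel_end hrel hℓ hℓS₀ hA hτ
    rw [ha2, hl1, one_smul] at hr
    have hτu : (rhoBar E p τ - 1) * (rhoBar E p τ - 1) = 0 := by
      have : (rhoBar E p τ - 1) * (rhoBar E p τ - 1)
          = rhoBar E p τ ^ 2 - (2 : ZMod p) • rhoBar E p τ + 1 := by
        rw [sub_mul, mul_sub, mul_sub, one_mul, mul_one, mul_one, pow_two, two_smul]
        abel
      rw [this, hr]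
    have hρσ : rhoBar E p σ = rhoBar E p τ ^ m := by
      rw [← map_pow]
      exact (hρ _ _ h1).symm
    rw [hρσ]
    exact pow_sub_one_sq_eq_zero hτu m
  · rw [complexConjugation_mul_self]
    exact one_mem _

end Main

end Fermat.Agent.EC.DetChar
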