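import Mathlib

/-!
# EC package, brick ODD (helper46): an involution of an algebraically closed field inverts roots of unity

`L` algebraically closed of characteristic `≠ 2`, `c : L →+* L` with `c ∘ c = id`, `c ≠ id`.
Artin–Schreier-lite, completely elementwise (no intermediate fields, no orderings):

* `inv_not_fixed_sq_neg_one` : no square root of `-1` is fixed by `c`;
* `inv_exists_sq_add_sq`     : a sum of two squares of fixed elements is the square of a fixed element;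
* `inv_fixed_rootOfUnity`    : a fixed root of unity is `±1` (`ξ ^ 2 = 1`);
* `inv_apply_rootOfUnity`    : `c ζ = ζ⁻¹` for EVERY root of unity `ζ`;
* `galois_involution_rootOfUnity` : the same for `c : ℚ̄ ≃ₐ[ℚ] ℚ̄`, `c * c = 1`, `c ≠ 1`.
-/

namespace Fermat.Agent.EC

section Abstract

variable {L : Type*} [Field L] [IsAlgClosed L] (c : L →+* L)

/-- No square root of `-1` is fixed by a nontrivial involution. -/
theorem inv_not_fixed_sq_neg_one (h2 : (2 : L) ≠ 0) (hc : ∀ x, c (c x) = x) {d : L} (hd : c d ≠ d)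
    {j : L} (hj : j ^ 2 = -1) : c j ≠ j := by
  intro hfix
  set δ := d - c d with hδ
  have hδ0 : δ ≠ 0 := sub_ne_zero.mpr (Ne.symm hd)
  have hcδ : c δ = -δ := by
    rw [hδ, map_sub, hc]; ring
  obtain ⟨β, hβ⟩ := IsAlgClosed.exists_pow_nat_eq δ (n := 2) (by norm_num)
  set n := β * c β with hn
  have hcn : c n = n := by rw [hn, map_mul, hc]; ring
  have hn2 : n ^ 2 = -δ ^ 2 := by
    have : c β ^ 2 = c δ := by rw [← hβ, map_pow]
    rw [hn, mul_pow, hβ, this, hcδ]; ring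
  have hsq : (n * j) ^ 2 = δ ^ 2 := by
    rw [mul_pow, hn2, hj]; ring
  have hfixnj : c (n * j) = n * j := by rw [map_mul, hcn, hfix]
  have hor : n * j = δ ∨ n * j = -δ := sq_eq_sq_iff_eq_or_eq_neg.mp hsq
  have hcδ' : c δ = δ := by
    rcases hor with h | h
    · rw [← h]; exact hfixnj
    · have : δ = -(n * j) := by rw [h]; ring
      rw [this, map_neg, hfixnj]
  rw [hcδ] at hcδ'
  have : (2 : L) * δ = 0 := by linear_combination -hcδ'
  rcases mul_eq_zero.mp this with h | h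
  · exact h2 h
  · exact hδ0 h

/-- A chosen square root of `-1` is sent to its negative. -/
theorem inv_apply_sq_neg_one (h2 : (2 : L) ≠ 0) (hc : ∀ x, c (c x) = x) {d : L} (hd : c d ≠ d)
    {j : L} (hj : j ^ 2 = -1) : c j = -j := by
  have h1 : c j ^ 2 = j ^ 2 := by rw [← map_pow, hj, map_neg, map_one]
  rcases sq_eq_sq_iff_eq_or_eq_neg.mp h1 with h | h
  · exact absurd h (inv_not_fixed_sq_neg_one c h2 hc hd hj)
  · exact h

/-- A sum of two squares of fixed elements is the square of a fixed element. -/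
theorem inv_exists_sq_add_sq (h2 : (2 : L) ≠ 0) (hc : ∀ x, c (c x) = x) {d : L} (hd : c d ≠ d)
    {u v : L} (hu : c u = u) (hv : c v = v) : ∃ w, c w = w ∧ w ^ 2 = u ^ 2 + v ^ 2 := by
  obtain ⟨i, hi⟩ := IsAlgClosed.exists_pow_nat_eq (-1 : L) (n := 2) (by norm_num)
  have hci := inv_apply_sq_neg_one c h2 hc hd hi
  obtain ⟨y, hy⟩ := IsAlgClosed.exists_pow_nat_eq (u + v * i) (n := 2) (by norm_num)
  refine ⟨y * c y, by rw [map_mul, hc]; ring, ?_⟩
  have : c y ^ 2 = u - v * i := by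
    rw [← map_pow, hy, map_add, map_mul, hu, hv, hci]; ring
  rw [mul_pow, hy, this]
  linear_combination (-(v ^ 2)) * hi

/-- A finite sum of squares of fixed elements is the square of a fixed element. -/
theorem inv_exists_sq_sum (h2 : (2 : L) ≠ 0) (hc : ∀ x, c (c x) = x) {d : L} (hd : c d ≠ d)
    {ι : Type*} (s : Finset ι) (f : ι → L) (hf : ∀ k ∈ s, c (f k) = f k) :
    ∃ w, c w = w ∧ w ^ 2 = ∑ k ∈ s, f k ^ 2 := by
  classical
  induction s using Finset.induction_on with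
  | empty => exact ⟨0, map_zero c, by simp⟩
  | insert a s ha ih =>
    obtain ⟨w, hw, hw2⟩ := ih (fun k hk => hf k (Finset.mem_insert_of_mem hk))
    obtain ⟨w', hw', hw'2⟩ :=
      inv_exists_sq_add_sq c h2 hc hd (hf a (Finset.mem_insert_self a s)) hw
    exact ⟨w', hw', by rw [Finset.sum_insert ha, hw'2, hw2]⟩

/-- `-1` is not a sum of squares of fixed elements. -/
theorem inv_neg_one_ne_sq_sum (h2 : (2 : L) ≠ 0) (hc : ∀ x, c (c x) = x) {d : L} (hd : c d ≠ d)
    {ι : Type*} (s : Finset ι) (f : ι → L) (hf : ∀ k ∈ s, c (f k) = f k) :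
    ∑ k ∈ s, f k ^ 2 ≠ -1 := by
  intro h
  obtain ⟨w, hw, hw2⟩ := inv_exists_sq_sum c h2 hc hd s f hf
  exact inv_not_fixed_sq_neg_one c h2 hc hd (hw2.trans h) hw

/-- A fixed root of unity of odd order is `1`. -/
theorem inv_fixed_odd_order (h2 : (2 : L) ≠ 0) (hc : ∀ x, c (c x) = x) {d : L} (hd : c d ≠ d)
    {θ : L} (hθ : c θ = θ) {m : ℕ} (hm : Odd m) (hpow : θ ^ m = 1) : θ = 1 := by
  by_contra hne
  obtain ⟨r, hr⟩ := hm
  -- `m = 2 r + 1`, `θ ^ k = (θ ^ (k (r + 1))) ^ 2`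
  have hgeom : ∑ k ∈ Finset.range m, θ ^ k = 0 := by
    have h := mul_geom_sum θ m
    rw [hpow, sub_self] at h
    exact (mul_eq_zero.mp h).resolve_left (sub_ne_zero.mpr hne)
  have hsq : ∀ k, θ ^ k = (θ ^ (k * (r + 1))) ^ 2 := by
    intro k
    have : k * (r + 1) * 2 = k * m + k := by rw [hr]; ring
    rw [← pow_mul, this, pow_add, pow_mul', hpow, one_pow, one_mul]
  have hsum : ∑ k ∈ Finset.range m, (θ ^ (k * (r + 1))) ^ 2 = 0 := by
    rw [← hgeom]
    exact Finset.sum_congr rfl (fun k _ => (hsq k).symm)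
  -- split off `k = 0`
  have hm0 : m = (m - 1) + 1 := by omega
  rw [hm0, Finset.sum_range_succ'] at hsum
  simp only [zero_mul, pow_zero, one_pow] at hsum
  have hneg : ∑ k ∈ Finset.range (m - 1), (θ ^ ((k + 1) * (r + 1))) ^ 2 = -1 := by
    linear_combination hsum
  exact inv_neg_one_ne_sq_sum c h2 hc hd (Finset.range (m - 1))
    (fun k => θ ^ ((k + 1) * (r + 1))) (fun k _ => by rw [map_pow, hθ]) hneg

/-- A fixed root of unity of `2`-power order is `±1`. -/
theorem inv_fixed_two_pow (h2 : (2 : L) ≠ 0) (hc : ∀ x, c (c x) = x) {d : L} (hd : c d ≠ d)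
    {ξ : L} (hξ : c ξ = ξ) (e : ℕ) (hpow : ξ ^ 2 ^ e = 1) : ξ ^ 2 = 1 := by
  induction e with
  | zero => rw [pow_zero, pow_one] at hpow; rw [hpow, one_pow]
  | succ e ih =>
    rcases Nat.eq_zero_or_pos e with he | he
    · subst he; simpa using hpow
    · apply ih
      -- `(ξ ^ 2 ^ (e-1)) ^ 2 = ξ ^ 2 ^ e`, whose square is `1`
      have h1 : (ξ ^ 2 ^ e) ^ 2 = 1 := by rw [← pow_mul, ← pow_succ]; exact hpow
      have h1' : (ξ ^ 2 ^ e) ^ 2 = 1 ^ 2 := by rw [h1, one_pow]
      rcases sq_eq_sq_iff_eq_or_eq_neg.mp h1' with h | h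
      · exact h
      · exfalso
        obtain ⟨e', rfl⟩ : ∃ e', e = e' + 1 := ⟨e - 1, by omega⟩
        have hsq : (ξ ^ 2 ^ e') ^ 2 = -1 := by rw [← pow_mul, ← pow_succ]; exact h
        exact inv_not_fixed_sq_neg_one c h2 hc hd hsq (by rw [map_pow, hξ])

/-- A fixed root of unity is `±1`. -/
theorem inv_fixed_rootOfUnity (h2 : (2 : L) ≠ 0) (hc : ∀ x, c (c x) = x) {d : L} (hd : c d ≠ d)
    {ξ : L} (hξ : c ξ = ξ) {n : ℕ} (hn : n ≠ 0) (hpow : ξ ^ n = 1) : ξ ^ 2 = 1 := by
  obtain ⟨e, m, hm, rfl⟩ := Nat.exists_eq_two_pow_mul_odd hn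
  have h1 : (ξ ^ 2 ^ e) ^ m = 1 := by rw [← pow_mul]; exact hpow
  have h2' : ξ ^ 2 ^ e = 1 :=
    inv_fixed_odd_order c h2 hc hd (by rw [map_pow, hξ]) hm h1
  exact inv_fixed_two_pow c h2 hc hd hξ e h2'

/-- **A nontrivial involution of an algebraically closed field inverts every root of unity.** -/
theorem inv_apply_rootOfUnity (h2 : (2 : L) ≠ 0) (hc : ∀ x, c (c x) = x) {d : L} (hd : c d ≠ d)
    {ζ : L} {n : ℕ} (hn : n ≠ 0) (hpow : ζ ^ n = 1) : c ζ = ζ⁻¹ := by
  have hζ0 : ζ ≠ 0 := by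
    rintro rfl
    rw [zero_pow hn] at hpow
    exact zero_ne_one hpow
  obtain ⟨i, hi⟩ := IsAlgClosed.exists_pow_nat_eq (-1 : L) (n := 2) (by norm_num)
  have hci := inv_apply_sq_neg_one c h2 hc hd hi
  have hi0 : i ≠ 0 := by
    rintro rfl
    norm_num at hi
  -- the norm `ξ = ζ · c ζ` is a fixed root of unity
  set ξ := ζ * c ζ with hξdef
  have hξ : c ξ = ξ := by rw [hξdef, map_mul, hc]; ring
  have hξn : ξ ^ n = 1 := by
    rw [hξdef, mul_pow, ← map_pow, hpow, map_one, mul_one]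
  have hξ2 : ξ ^ 2 = 1 ^ 2 := by
    rw [one_pow]; exact inv_fixed_rootOfUnity c h2 hc hd hξ hn hξn
  rcases sq_eq_sq_iff_eq_or_eq_neg.mp hξ2 with h | h
  · exact eq_inv_of_mul_eq_one_right h
  · exfalso
    -- `ζ = u + v i` with `u`, `v` fixed, so `ξ = u² + v² = -1`
    set u := (ζ + c ζ) / 2 with hu
    set v := (ζ - c ζ) / (2 * i) with hv
    have hcu : c u = u := by
      rw [hu, map_div₀, map_add, hc, map_ofNat]; ring
    have hcv : c v = v := by
      rw [hv, map_div₀, map_sub, hc, map_mul, map_ofNat, hci]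
      field_simp
      ring
    have hsum : u ^ 2 + v ^ 2 = -1 := by
      rw [← h, hξdef, hu, hv]
      field_simp
      linear_combination ((ζ - c ζ) ^ 2) * hi
    obtain ⟨w, hw, hw2⟩ := inv_exists_sq_add_sq c h2 hc hd hcu hcv
    exact inv_not_fixed_sq_neg_one c h2 hc hd (hw2.trans hsum) hw

end Abstract

/-! ### The absolute Galois group of `ℚ` -/

/-- Every involution `c ≠ 1` of `ℚ̄` (every "complex conjugation") inverts every root of unity. -/
theorem galois_involution_rootOfUnity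
    (c : AlgebraicClosure ℚ ≃ₐ[ℚ] AlgebraicClosure ℚ) (hcc : c * c = 1) (hc1 : c ≠ 1)
    {ζ : AlgebraicClosure ℚ} {n : ℕ} (hn : n ≠ 0) (hpow : ζ ^ n = 1) : c ζ = ζ⁻¹ := by
  have hc : ∀ x, (c : AlgebraicClosure ℚ →+* AlgebraicClosure ℚ) ((c : AlgebraicClosure ℚ →+*
      AlgebraicClosure ℚ) x) = x := by
    intro x
    have := congrArg (fun f : AlgebraicClosure ℚ ≃ₐ[ℚ] AlgebraicClosure ℚ => f x) hcc
    simpa using this
  obtain ⟨d, hd⟩ : ∃ d, c d ≠ d := by
    by_contra hcon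
    push Not at hcon
    exact hc1 (AlgEquiv.ext hcon)
  exact inv_apply_rootOfUnity (c : AlgebraicClosure ℚ →+* AlgebraicClosure ℚ)
    (two_ne_zero) hc (d := d) hd hn hpow

/-- **Oddness of the cyclotomic character**: every involution `c ≠ 1` of `ℚ̄` has
`χ_n(c) = -1` for the mod `n` cyclotomic character (Mathlib's `modularCyclotomicCharacter`). -/
theorem modularCyclotomicCharacter_involution {n : ℕ} [NeZero n]
    (hn : Nat.card (rootsOfUnity n (AlgebraicClosure ℚ)) = n)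
    (c : AlgebraicClosure ℚ ≃ₐ[ℚ] AlgebraicClosure ℚ) (hcc : c * c = 1) (hc1 : c ≠ 1) :
    modularCyclotomicCharacter (AlgebraicClosure ℚ) hn
      (c : AlgebraicClosure ℚ ≃+* AlgebraicClosure ℚ) = -1 := by
  have key : ((-1 : (ZMod n)ˣ) : ZMod n) = modularCyclotomicCharacter (AlgebraicClosure ℚ) hn
      (c : AlgebraicClosure ℚ ≃+* AlgebraicClosure ℚ) := by
    apply modularCyclotomicCharacter.unique
    intro t ht
    have htn : (t : AlgebraicClosure ℚ) ^ n = 1 := by
      have := (mem_rootsOfUnity n t).mp ht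
      have h' := congrArg Units.val this
      simpa using h'
    have h1 : c (t : AlgebraicClosure ℚ) = (t : AlgebraicClosure ℚ)⁻¹ :=
      galois_involution_rootOfUnity c hcc hc1 (NeZero.ne n) htn
    show c (t : AlgebraicClosure ℚ) = _
    rw [h1]
    obtain ⟨m, rfl⟩ : ∃ m, n = m + 1 := ⟨n - 1, by have := NeZero.pos n; omega⟩
    have hval : ((-1 : (ZMod (m + 1))ˣ) : ZMod (m + 1)).val = m := by
      rw [Units.val_neg, Units.val_one]
      exact ZMod.val_neg_one m
    rw [hval]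
    have ht0 : (t : AlgebraicClosure ℚ) ≠ 0 := t.ne_zero
    apply inv_eq_of_mul_eq_one_right
    rw [← pow_succ']
    exact htn
  exact (Units.ext key).symm

end Fermat.Agent.EC
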