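import Mathlib
import Fermat.Agent.S33.DetCyclo
import Fermat.Agent.EC.TateFrob

/-!
# The determinant of the Tate representation is the cyclotomic character (EC package, for S59)

* `detIsCyclotomic_of_det_frob` : a `GaloisRepAdic T` (`T` noetherian local, `p ∈ 𝔪_T`) whose
  Frobenius elements at the primes `ℓ` outside a finite set have determinant `ℓ` has cyclotomic
  determinant (`GaloisRepAdic.DetIsCyclotomic`).  Proof as in `S33.detIsCyclotomic_of_datum`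
  (helper33): weak Chebotarev + continuity + Krull.
* `tateRepInt_detIsCyclotomic` : `(tateRepInt W hΔ p).DetIsCyclotomic p`.
-/

set_option autoImplicit false

namespace Fermat.Agent.EC

open Fermat.Agent.S31 Fermat.Agent.S34 Fermat.Agent.S33 Polynomial

/-- A representation whose Frobenius elements at almost all primes `ℓ` have determinant `ℓ`
has cyclotomic determinant. -/
theorem detIsCyclotomic_of_det_frob {T : Type} [CommRing T] [IsLocalRing T] [IsNoetherianRing T]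
    {p : ℕ} (hp : p.Prime) (hpT : (p : T) ∈ IsLocalRing.maximalIdeal T) (ρ : GaloisRepAdic T)
    (S₀ : Finset ℕ)
    (hfrob : ∀ ℓ : ℕ, ℓ.Prime → ℓ ∉ S₀ → ℓ ≠ p →
      ∀ A : ValuationSubring (AlgebraicClosure ℚ), A.LiesOverPrime ℓ →
        ∀ τ : AlgebraicClosure ℚ ≃ₐ[ℚ] AlgebraicClosure ℚ, A.IsFrobeniusAt τ ℓ →
          LinearMap.det (ρ.ρ τ) = (ℓ : T)) :
    ρ.DetIsCyclotomic p := by
  refine ⟨hpT, fun n σ a hσ => ?_⟩
  apply mem_of_forall_exists_sub_mem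
  intro k
  obtain ⟨L, hLfin, hL⟩ := ρ.isAdicContinuous k
  have hM0 : p ^ n ≠ 0 := pow_ne_zero n hp.ne_zero
  have : NeZero ((p ^ n : ℕ) : AlgebraicClosure ℚ) := ⟨Nat.cast_ne_zero.mpr hM0⟩
  obtain ⟨ζ, hζ⟩ := HasEnoughRootsOfUnity.exists_primitiveRoot (AlgebraicClosure ℚ) (p ^ n)
  have hζfin : FiniteDimensional ℚ (IntermediateField.adjoin ℚ {ζ}) :=
    IntermediateField.adjoin.finiteDimensional
      ((hζ.isIntegral (Nat.pos_of_ne_zero hM0)).tower_top)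
  obtain ⟨F, hFfin, hFgal, -, hLF, hζF⟩ :=
    exists_galois_hull L L (IntermediateField.adjoin ℚ {ζ})
  have hζF' : ζ ∈ F := hζF (IntermediateField.mem_adjoin_simple_self ℚ ζ)
  obtain ⟨ℓ, A, τ, m, hℓ, hℓS, hA, hτ, hg⟩ :=
    Cheb.exists_frobenius_pow_eq F (S₀ ∪ {p}) σ
  have hℓS' : ℓ ∉ S₀ := fun h => hℓS (Finset.mem_union_left _ h)
  have hℓp : ℓ ≠ p := fun h => hℓS (by
    simp only [Finset.mem_union, Finset.mem_singleton]
    exact Or.inr h)
  -- `ℓᵐ ≡ a mod pⁿ`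
  have hζ1 : ζ ^ (p ^ n) = 1 := hζ.pow_eq_one
  have h1 : (τ ^ m) ζ = ζ ^ (ℓ ^ m) :=
    frob_pow_rootOfUnity A (natCast_pow_not_mem_nonunits A hp hℓ hℓp hA n) hM0 hτ hζ1 m
  have h3 : ζ ^ (ℓ ^ m) = ζ ^ a := by
    rw [← h1, hg ζ hζF', hσ ζ hζ1]
  have h4 := (hζ.isOfFinOrder hM0).pow_eq_pow_iff_modEq.mp h3
  rw [← hζ.eq_orderOf] at h4
  have h5 : ((p ^ n : ℕ) : ℤ) ∣ ((ℓ ^ m : ℕ) : ℤ) - ((a : ℕ) : ℤ) :=
    (Nat.modEq_iff_dvd.mp h4.symm)
  obtain ⟨c, hc⟩ := h5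
  have h6 : (ℓ : T) ^ m - (a : T) = ((p ^ n : ℕ) : T) * (c : T) := by
    have := congrArg (fun z : ℤ => (z : T)) hc
    simpa using this
  -- the determinant
  have h7 := det_congr_of_agree ρ k L hL (τ ^ m) σ fun a ha => hg a (hLF ha)
  rw [map_pow, map_pow, hfrob ℓ hℓ hℓS' hℓp A hA τ hτ] at h7
  refine ⟨LinearMap.det (ρ.ρ σ) - (ℓ : T) ^ m, h7, ?_⟩
  have e : LinearMap.det (ρ.ρ σ) - (a : T) - (LinearMap.det (ρ.ρ σ) - (ℓ : T) ^ m) =
      (ℓ : T) ^ m - (a : T) := by ring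
  rw [e, h6]
  exact Ideal.mul_mem_right _ _ (Ideal.subset_span rfl)

/-- **The determinant of the Tate representation of an elliptic curve over `ℚ` is the
`p`-adic cyclotomic character.** -/
theorem tateRepInt_detIsCyclotomic (W : WeierstrassCurve ℤ) (hΔ : W.Δ ≠ 0) (p : ℕ)
    [hp : Fact p.Prime] : (tateRepInt W hΔ p).DetIsCyclotomic p := by
  have hpT : (p : ℤ_[p]) ∈ IsLocalRing.maximalIdeal ℤ_[p] := by
    rw [PadicInt.maximalIdeal_eq_span_p]
    exact Ideal.subset_span rfl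
  refine detIsCyclotomic_of_det_frob hp.out hpT _ (insert 2 W.Δ.natAbs.primeFactors) ?_
  intro ℓ hℓ hℓS hℓp A hA τ hτ
  have hℓ2 : ℓ ≠ 2 := fun h => hℓS (h ▸ Finset.mem_insert_self _ _)
  have hgood : W.IsGoodPrimeFor ℓ := by
    intro hdvd
    apply hℓS
    apply Finset.mem_insert_of_mem
    rw [Nat.mem_primeFactors]
    exact ⟨hℓ, Int.natCast_dvd.mp hdvd, Int.natAbs_ne_zero.mpr hΔ⟩
  exact tateRepInt_det_frob W hΔ p hℓ hℓ2 hgood hℓp A hA τ hτ

end Fermat.Agent.EC
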