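import Mathlib
import Fermat.Agent.EC.TateDet

/-!
# Frobenius characteristic polynomial on the Tate module at EVERY good prime `ℓ ≠ lam`
(EC package, brick EC-adic (b), the case `ℓ = 2` included)

`tateRepInt_charpoly_frob_all` : for an integral Weierstrass model `W` with `Δ ≠ 0`, a prime
`lam`, a prime `ℓ ≠ lam` of good reduction (`ℓ = 2` allowed) and a Frobenius `τ` at a place of
`ℚ̄` over `ℓ`,

  `charpoly ((tateRepInt W hΔ lam).ρ τ) = X² − a_ℓ X + ℓ`,   `a_ℓ = W.apOfModel ℓ`.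

Proof.  `tateRepInt_frob_quadratic` (valid at `ℓ = 2`) gives `f² − a_ℓ f + ℓ = 0`, so by
Cayley–Hamilton in rank 2 either the characteristic polynomial is the expected one or `f` is a
scalar `c` with `c² − a_ℓ c + ℓ = 0`.  The determinant of the Tate representation is cyclotomic
(`tateRepInt_detIsCyclotomic`, proved from the Frobenius at the good primes `≠ 2`), and `τ`
raises the `lam`-power roots of unity to the `ℓ`-th power, so `det f = ℓ`, i.e. `c² = ℓ`.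
Hence `a_ℓ c = 2 ℓ`, `a_ℓ² = 4 ℓ` in `ℤ`, and `ℓ` would be a square.
-/

set_option autoImplicit false

namespace Fermat.Agent.EC

open WeierstrassCurve Polynomial

/-- `ℚ̄` -/
local notation "Qbar" => AlgebraicClosure ℚ
/-- `G_ℚ` -/
local notation "GQ" => (AlgebraicClosure ℚ ≃ₐ[ℚ] AlgebraicClosure ℚ)

section Arith

/-- `a² = 4 ℓ` is impossible for a prime `ℓ`. -/
theorem tfa_sq_ne_four_mul_prime {ℓ : ℕ} (hℓ : ℓ.Prime) (a : ℤ) : a ^ 2 ≠ 4 * (ℓ : ℤ) := by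
  intro h
  have h2 : (2 : ℤ) ∣ a := by
    have : (2 : ℤ) ∣ a ^ 2 := ⟨2 * ℓ, by rw [h]; ring⟩
    exact Int.prime_two.dvd_of_dvd_pow this
  obtain ⟨b, rfl⟩ := h2
  have hb : b ^ 2 = (ℓ : ℤ) := by nlinarith
  have hb' : b.natAbs ^ 2 = ℓ := by
    have := congrArg Int.natAbs hb
    rwa [Int.natAbs_pow, Int.natAbs_natCast] at this
  have hdvd : b.natAbs ∣ ℓ := ⟨b.natAbs, by rw [← hb']; ring⟩
  rcases (Nat.dvd_prime hℓ).1 hdvd with h1 | h1
  · rw [h1] at hb'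
    exact hℓ.one_lt.ne' (by simpa using hb'.symm)
  · rw [h1] at hb'
    have : ℓ * ℓ = ℓ * 1 := by rw [mul_one, ← sq]; exact hb'
    exact hℓ.one_lt.ne' (Nat.eq_of_mul_eq_mul_left hℓ.pos this)

end Arith

section Main

variable (W : WeierstrassCurve ℤ) (hΔ : W.Δ ≠ 0) (lam : ℕ) [hlam : Fact lam.Prime]

/-- The determinant of a Frobenius at ANY prime `ℓ ≠ lam` on the Tate module is `ℓ`
(from the cyclotomic determinant). -/
theorem tateRepInt_det_frob_all {ℓ : ℕ} (hℓ : ℓ.Prime) (hne : ℓ ≠ lam)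
    (A : ValuationSubring Qbar) (hA : A.LiesOverPrime ℓ) (τ : GQ)
    (hτ : A.IsFrobeniusAt τ ℓ) :
    LinearMap.det ((tateRepInt W hΔ lam).ρ τ) = (ℓ : ℤ_[lam]) := by
  have hcyc := (tateRepInt_detIsCyclotomic W hΔ lam).2
  rw [← sub_eq_zero, ← Ideal.mem_bot]
  apply Fermat.Agent.S33.mem_of_forall_exists_sub_mem
  intro k
  refine ⟨_, ?_, by rw [sub_self]; exact Ideal.zero_mem _⟩
  have h1 := hcyc k τ ℓ fun μ hμ =>
    Fermat.Agent.S31.frob_rootOfUnity A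
      (Fermat.Agent.S31.natCast_pow_not_mem_nonunits A hlam.out hℓ hne hA k)
      (pow_ne_zero k hlam.out.ne_zero) hτ hμ
  rw [PadicInt.maximalIdeal_eq_span_p, Ideal.span_singleton_pow]
  simpa using h1

/-- **EC-adic (b), all good primes**: the characteristic polynomial of a Frobenius at a good
prime `ℓ ≠ lam` (`ℓ = 2` included) on the Tate module is `X² − a_ℓ X + ℓ`. -/
theorem tateRepInt_charpoly_frob_all {ℓ : ℕ} (hℓ : ℓ.Prime)
    (hgood : W.IsGoodPrimeFor ℓ) (hne : ℓ ≠ lam) (A : ValuationSubring Qbar)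
    (hA : A.LiesOverPrime ℓ) (τ : GQ) (hτ : A.IsFrobeniusAt τ ℓ) :
    LinearMap.charpoly ((tateRepInt W hΔ lam).ρ τ) =
      X ^ 2 - C ((W.apOfModel ℓ : ℤ) : ℤ_[lam]) * X + C ((ℓ : ℤ_[lam])) := by
  have hq := tateRepInt_frob_quadratic W hΔ lam hℓ hgood hne A hA τ hτ
  rw [← Int.cast_smul_eq_zsmul ℤ_[lam] (W.apOfModel ℓ), ← Int.cast_smul_eq_zsmul ℤ_[lam] (ℓ : ℤ),
    Int.cast_natCast] at hq
  rcases charpoly_or_scalar (tateRepInt W hΔ lam).finrank_eq _ _ _ hq with h | ⟨c, hc, hc2⟩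
  · exact h
  · exfalso
    have hdet := tateRepInt_det_frob_all W hΔ lam hℓ hne A hA τ hτ
    rw [hc, LinearMap.det_smul, (tateRepInt W hΔ lam).finrank_eq, map_one, mul_one] at hdet
    -- `c² = ℓ`, `c² − a c + ℓ = 0` ⇒ `a² = 4 ℓ`
    have h4 : (((W.apOfModel ℓ) ^ 2 : ℤ) : ℤ_[lam]) = ((4 * (ℓ : ℤ) : ℤ) : ℤ_[lam]) := by
      have hac : ((W.apOfModel ℓ : ℤ) : ℤ_[lam]) * c = 2 * (ℓ : ℤ_[lam]) := by
        linear_combination -hc2 + hdet
      have hℓ0 : (ℓ : ℤ_[lam]) ≠ 0 := Nat.cast_ne_zero.2 hℓ.ne_zero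
      have h5 : (ℓ : ℤ_[lam]) * ((W.apOfModel ℓ : ℤ) : ℤ_[lam]) ^ 2
          = (ℓ : ℤ_[lam]) * (4 * (ℓ : ℤ_[lam])) := by
        linear_combination (((W.apOfModel ℓ : ℤ) : ℤ_[lam]) * c + 2 * (ℓ : ℤ_[lam])) * hac
          - ((W.apOfModel ℓ : ℤ) : ℤ_[lam]) ^ 2 * hdet
      have h6 := mul_left_cancel₀ hℓ0 h5
      push_cast
      exact h6
    exact tfa_sq_ne_four_mul_prime hℓ (W.apOfModel ℓ) (Int.cast_injective h4)

/-- Trace of a Frobenius at a good prime `ℓ ≠ lam` (`ℓ = 2` included) on the Tate module. -/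
theorem tateRepInt_trace_frob_all {ℓ : ℕ} (hℓ : ℓ.Prime)
    (hgood : W.IsGoodPrimeFor ℓ) (hne : ℓ ≠ lam) (A : ValuationSubring Qbar)
    (hA : A.LiesOverPrime ℓ) (τ : GQ) (hτ : A.IsFrobeniusAt τ ℓ) :
    LinearMap.trace ℤ_[lam] (Fin 2 → ℤ_[lam]) ((tateRepInt W hΔ lam).ρ τ)
      = ((W.apOfModel ℓ : ℤ) : ℤ_[lam]) :=
  (trace_det_of_charpoly_eq _ _ _
    (tateRepInt_charpoly_frob_all W hΔ lam hℓ hgood hne A hA τ hτ)).1

end Main

end Fermat.Agent.EC
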