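import Mathlib
import Fermat.Prelude.Def_FLTPrelim_GaloisRep

/-!
# EC library: an admissible change of variables is an isomorphism of point groups (helper6)

`K` a field, `W` a Weierstrass curve over `K`, `C : VariableChange K`.  The substitution
`(x, y) ↦ (u² x + r, u³ y + u² s x + t)` is an additive equivalence
`vcEquiv W C : (C • W).toAffine.Point ≃+ W.toAffine.Point`.
It commutes with field homomorphisms (`vcMap_map`), in particular with the Galois action when
`C` is defined over the base field.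
-/

set_option autoImplicit false
set_option linter.unusedSectionVars false

namespace Fermat.Agent.EC

open WeierstrassCurve WeierstrassCurve.Affine

section Coord

variable {K : Type*} [Field K] (W : WeierstrassCurve K) (C : VariableChange K)

/-- the `x`-coordinate of the image point -/
def vcX (x : K) : K := (C.u : K) ^ 2 * x + C.r

/-- the `y`-coordinate of the image point -/
def vcY (x y : K) : K := (C.u : K) ^ 3 * y + (C.u : K) ^ 2 * C.s * x + C.t

lemma vc_u_ne_zero : (C.u : K) ≠ 0 := C.u.ne_zero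

lemma vc_inv_u : ((C.u⁻¹ : Kˣ) : K) = (C.u : K)⁻¹ := by simp

lemma vcX_injective : Function.Injective (vcX C) := by
  intro x x' h
  have hu := vc_u_ne_zero C
  simp only [vcX] at h
  have : (C.u : K) ^ 2 * x = (C.u : K) ^ 2 * x' := by linear_combination h
  exact mul_left_cancel₀ (pow_ne_zero 2 hu) this

lemma vcY_injective (x : K) : Function.Injective (vcY C x) := by
  intro y y' h
  have hu := vc_u_ne_zero C
  simp only [vcY] at h
  have : (C.u : K) ^ 3 * y = (C.u : K) ^ 3 * y' := by linear_combination h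
  exact mul_left_cancel₀ (pow_ne_zero 3 hu) this

lemma vc_equation_iff (x y : K) :
    (C • W).toAffine.Equation x y ↔ W.toAffine.Equation (vcX C x) (vcY C x y) := by
  have hu := vc_u_ne_zero C
  rw [Affine.equation_iff, Affine.equation_iff]
  simp only [variableChange_a₁, variableChange_a₂, variableChange_a₃, variableChange_a₄,
    variableChange_a₆, vc_inv_u, vcX, vcY]
  constructor
  · intro h
    field_simp at h
    linear_combination h
  · intro h
    field_simp
    linear_combination h

lemma vc_negY (x y : K) :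
    W.toAffine.negY (vcX C x) (vcY C x y) = vcY C x ((C • W).toAffine.negY x y) := by
  have hu := vc_u_ne_zero C
  simp only [Affine.negY, variableChange_a₁, variableChange_a₃, vc_inv_u, vcX, vcY]
  field_simp
  ring

lemma vc_nonsingular_iff (x y : K) :
    (C • W).toAffine.Nonsingular x y ↔ W.toAffine.Nonsingular (vcX C x) (vcY C x y) := by
  have hu := vc_u_ne_zero C
  rw [Affine.nonsingular_iff, Affine.nonsingular_iff, vc_equation_iff]
  refine and_congr Iff.rfl ?_
  have e2 : vcY C x y - (-(vcY C x y) - W.a₁ * vcX C x - W.a₃) =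
      (C.u : K) ^ 3 * (y - (-y - (C • W).a₁ * x - (C • W).a₃)) := by
    simp only [variableChange_a₁, variableChange_a₃, vc_inv_u, vcX, vcY]
    field_simp
    ring
  have e1 : W.a₁ * vcY C x y - (3 * vcX C x ^ 2 + 2 * W.a₂ * vcX C x + W.a₄) =
      (C.u : K) ^ 4 * ((C • W).a₁ * y - (3 * x ^ 2 + 2 * (C • W).a₂ * x + (C • W).a₄))
        - C.s * ((C.u : K) ^ 3 * (y - (-y - (C • W).a₁ * x - (C • W).a₃))) := by
    simp only [variableChange_a₁, variableChange_a₂, variableChange_a₃, variableChange_a₄,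
      vc_inv_u, vcX, vcY]
    field_simp
    ring
  constructor
  · rintro (h | h)
    · by_cases h' : y = -y - (C • W).a₁ * x - (C • W).a₃
      · left
        intro h0
        apply h
        have h3 : y - (-y - (C • W).a₁ * x - (C • W).a₃) = 0 := sub_eq_zero.2 h'
        have h4 : W.a₁ * vcY C x y - (3 * vcX C x ^ 2 + 2 * W.a₂ * vcX C x + W.a₄) = 0 :=
          sub_eq_zero.2 h0
        rw [e1, h3, mul_zero, mul_zero, sub_zero] at h4
        have := (mul_eq_zero.1 h4).resolve_left (pow_ne_zero 4 hu)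
        exact sub_eq_zero.1 this
      · right
        intro h0
        apply h'
        have h4 : vcY C x y - (-(vcY C x y) - W.a₁ * vcX C x - W.a₃) = 0 := sub_eq_zero.2 h0
        rw [e2] at h4
        have := (mul_eq_zero.1 h4).resolve_left (pow_ne_zero 3 hu)
        exact sub_eq_zero.1 this
    · right
      intro h0
      apply h
      have h4 : vcY C x y - (-(vcY C x y) - W.a₁ * vcX C x - W.a₃) = 0 := sub_eq_zero.2 h0
      rw [e2] at h4
      have := (mul_eq_zero.1 h4).resolve_left (pow_ne_zero 3 hu)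
      exact sub_eq_zero.1 this
  · rintro (h | h)
    · by_cases h' : y = -y - (C • W).a₁ * x - (C • W).a₃
      · left
        intro h0
        apply h
        have h3 : y - (-y - (C • W).a₁ * x - (C • W).a₃) = 0 := sub_eq_zero.2 h'
        have h4 : (C • W).a₁ * y - (3 * x ^ 2 + 2 * (C • W).a₂ * x + (C • W).a₄) = 0 :=
          sub_eq_zero.2 h0
        have : W.a₁ * vcY C x y - (3 * vcX C x ^ 2 + 2 * W.a₂ * vcX C x + W.a₄) = 0 := by
          rw [e1, h3, h4]; ring
        exact sub_eq_zero.1 this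
      · right; exact h'
    · right
      intro h0
      apply h
      have h3 : y - (-y - (C • W).a₁ * x - (C • W).a₃) = 0 := sub_eq_zero.2 h0
      have : vcY C x y - (-(vcY C x y) - W.a₁ * vcX C x - W.a₃) = 0 := by
        rw [e2, h3]; ring
      exact sub_eq_zero.1 this

lemma vc_addX (x₁ x₂ L : K) :
    W.toAffine.addX (vcX C x₁) (vcX C x₂) ((C.u : K) * L + C.s) =
      vcX C ((C • W).toAffine.addX x₁ x₂ L) := by
  have hu := vc_u_ne_zero C
  simp only [Affine.addX, variableChange_a₁, variableChange_a₂, vc_inv_u, vcX]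
  field_simp
  ring

lemma vc_negAddY (x₁ x₂ y₁ L : K) :
    W.toAffine.negAddY (vcX C x₁) (vcX C x₂) (vcY C x₁ y₁) ((C.u : K) * L + C.s) =
      vcY C ((C • W).toAffine.addX x₁ x₂ L) ((C • W).toAffine.negAddY x₁ x₂ y₁ L) := by
  have hu := vc_u_ne_zero C
  rw [Affine.negAddY, vc_addX, Affine.negAddY]
  simp only [vcX, vcY]
  ring

lemma vc_addY (x₁ x₂ y₁ L : K) :
    W.toAffine.addY (vcX C x₁) (vcX C x₂) (vcY C x₁ y₁) ((C.u : K) * L + C.s) =
      vcY C ((C • W).toAffine.addX x₁ x₂ L) ((C • W).toAffine.addY x₁ x₂ y₁ L) := by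
  rw [Affine.addY, vc_negAddY, vc_addX, vc_negY, Affine.addY]

end Coord

section Slope

variable {K : Type*} [Field K] [DecidableEq K] (W : WeierstrassCurve K) (C : VariableChange K)

lemma vc_slope {x₁ x₂ y₁ y₂ : K} (h₁ : (C • W).toAffine.Equation x₁ y₁)
    (h₂ : (C • W).toAffine.Equation x₂ y₂)
    (hxy : ¬(x₁ = x₂ ∧ y₁ = (C • W).toAffine.negY x₂ y₂)) :
    W.toAffine.slope (vcX C x₁) (vcX C x₂) (vcY C x₁ y₁) (vcY C x₂ y₂) =
      (C.u : K) * (C • W).toAffine.slope x₁ x₂ y₁ y₂ + C.s := by
  have hu := vc_u_ne_zero C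
  by_cases hx : x₁ = x₂
  · have hy : y₁ ≠ (C • W).toAffine.negY x₂ y₂ := fun h => hxy ⟨hx, h⟩
    have hyy : y₁ = y₂ := Affine.Y_eq_of_Y_ne h₁ h₂ hx hy
    subst hx
    subst hyy
    have hy' : vcY C x₁ y₁ ≠ W.toAffine.negY (vcX C x₁) (vcY C x₁ y₁) := by
      rw [vc_negY]
      exact fun h => hy (vcY_injective C x₁ h)
    rw [Affine.slope_of_Y_ne rfl hy', Affine.slope_of_Y_ne rfl hy]
    have hd : y₁ - (C • W).toAffine.negY x₁ y₁ ≠ 0 := sub_ne_zero.2 hy
    have hd' : vcY C x₁ y₁ - W.toAffine.negY (vcX C x₁) (vcY C x₁ y₁) ≠ 0 := sub_ne_zero.2 hy'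
    have e2 : vcY C x₁ y₁ - W.toAffine.negY (vcX C x₁) (vcY C x₁ y₁) =
        (C.u : K) ^ 3 * (y₁ - (C • W).toAffine.negY x₁ y₁) := by
      rw [vc_negY]; simp only [vcY]; ring
    have e1 : 3 * vcX C x₁ ^ 2 + 2 * W.a₂ * vcX C x₁ + W.a₄ - W.a₁ * vcY C x₁ y₁ =
        (C.u : K) ^ 4 * (3 * x₁ ^ 2 + 2 * (C • W).a₂ * x₁ + (C • W).a₄ - (C • W).a₁ * y₁)
          + C.s * ((C.u : K) ^ 3 * (y₁ - (C • W).toAffine.negY x₁ y₁)) := by
      simp only [Affine.negY, variableChange_a₁, variableChange_a₂, variableChange_a₃,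
        variableChange_a₄, vc_inv_u, vcX, vcY]
      field_simp
      ring
    rw [e1, e2]
    field_simp
  · have hx' : vcX C x₁ ≠ vcX C x₂ := fun h => hx (vcX_injective C h)
    rw [Affine.slope_of_X_ne hx', Affine.slope_of_X_ne hx]
    have hd : x₁ - x₂ ≠ 0 := sub_ne_zero.2 hx
    have hd' : vcX C x₁ - vcX C x₂ ≠ 0 := sub_ne_zero.2 hx'
    have e2 : vcX C x₁ - vcX C x₂ = (C.u : K) ^ 2 * (x₁ - x₂) := by
      simp only [vcX]; ring
    have e1 : vcY C x₁ y₁ - vcY C x₂ y₂ =
        (C.u : K) ^ 3 * (y₁ - y₂) + C.s * ((C.u : K) ^ 2 * (x₁ - x₂)) := by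
      simp only [vcY]; ring
    rw [e1, e2]
    field_simp

end Slope

section Map

variable {K : Type*} [Field K] [DecidableEq K] (W : WeierstrassCurve K) (C : VariableChange K)

/-- the map on points induced by the change of variables -/
noncomputable def vcFun : (C • W).toAffine.Point → W.toAffine.Point
  | .zero => 0
  | .some x y h => .some (vcX C x) (vcY C x y) ((vc_nonsingular_iff W C x y).1 h)

@[simp] lemma vcFun_zero : vcFun W C 0 = 0 := rfl

lemma vcFun_some {x y : K} (h : (C • W).toAffine.Nonsingular x y) :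
    vcFun W C (.some x y h) = .some (vcX C x) (vcY C x y) ((vc_nonsingular_iff W C x y).1 h) :=
  rfl

lemma vcFun_add (P Q : (C • W).toAffine.Point) :
    vcFun W C (P + Q) = vcFun W C P + vcFun W C Q := by
  rcases P with _ | ⟨x₁, y₁, h₁⟩
  · change vcFun W C (0 + Q) = 0 + vcFun W C Q
    rw [zero_add, zero_add]
  rcases Q with _ | ⟨x₂, y₂, h₂⟩
  · change vcFun W C (Point.some x₁ y₁ h₁ + 0) = vcFun W C (Point.some x₁ y₁ h₁) + 0
    rw [add_zero, add_zero]
  by_cases hxy : x₁ = x₂ ∧ y₁ = (C • W).toAffine.negY x₂ y₂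
  · rw [Point.add_of_Y_eq hxy.1 hxy.2, vcFun_some, vcFun_some,
      Point.add_of_Y_eq (congr_arg _ hxy.1) (by rw [hxy.2, hxy.1, vc_negY])]
    rfl
  · have hxy' : ¬(vcX C x₁ = vcX C x₂ ∧
        vcY C x₁ y₁ = W.toAffine.negY (vcX C x₂) (vcY C x₂ y₂)) := by
      rintro ⟨hx, hy⟩
      have hx0 : x₁ = x₂ := vcX_injective C hx
      subst hx0
      rw [vc_negY] at hy
      exact hxy ⟨rfl, vcY_injective C x₁ hy⟩
    rw [Point.add_some hxy, vcFun_some, vcFun_some, vcFun_some, Point.add_some hxy']
    have hs := vc_slope W C h₁.1 h₂.1 hxy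
    congr 1
    · rw [hs, vc_addX]
    · rw [hs, vc_addY]

lemma vcFun_injective : Function.Injective (vcFun W C) := by
  rintro (_ | ⟨x₁, y₁, h₁⟩) (_ | ⟨x₂, y₂, h₂⟩) h
  · rfl
  · exact absurd h.symm (Point.some_ne_zero _)
  · exact absurd h (Point.some_ne_zero _)
  · rw [vcFun_some, vcFun_some, Point.some.injEq] at h
    have hx : x₁ = x₂ := vcX_injective C h.1
    subst hx
    have hy : y₁ = y₂ := vcY_injective C x₁ h.2
    subst hy
    rfl

lemma vcFun_surjective : Function.Surjective (vcFun W C) := by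
  have hu := vc_u_ne_zero C
  rintro (_ | ⟨X, Y, h⟩)
  · exact ⟨0, rfl⟩
  · set x : K := (X - C.r) / (C.u : K) ^ 2 with hx
    set y : K := (Y - (C.u : K) ^ 2 * C.s * x - C.t) / (C.u : K) ^ 3 with hy
    have ex : vcX C x = X := by
      simp only [vcX, hx]; field_simp; ring
    have ey : vcY C x y = Y := by
      simp only [vcY, hy]; field_simp; ring
    have h' : (C • W).toAffine.Nonsingular x y := by
      rw [vc_nonsingular_iff, ex, ey]; exact h
    refine ⟨.some x y h', ?_⟩
    rw [vcFun_some]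
    simp only [ex, ey]

/-- the change of variables as an additive homomorphism -/
noncomputable def vcHom : (C • W).toAffine.Point →+ W.toAffine.Point where
  toFun := vcFun W C
  map_zero' := rfl
  map_add' := vcFun_add W C

/-- **The change of variables as an isomorphism of point groups.** -/
noncomputable def vcEquiv : (C • W).toAffine.Point ≃+ W.toAffine.Point :=
  AddEquiv.ofBijective (vcHom W C) ⟨vcFun_injective W C, vcFun_surjective W C⟩

lemma vcEquiv_apply (P : (C • W).toAffine.Point) : vcEquiv W C P = vcFun W C P := rfl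

end Map

section Cast

variable {K : Type*} [Field K] [DecidableEq K]

/-- transport of points along an equality of curves -/
noncomputable def vcCast {W₁ W₂ : WeierstrassCurve K} (h : W₁ = W₂) :
    W₁.toAffine.Point ≃+ W₂.toAffine.Point :=
  h ▸ AddEquiv.refl _

lemma vcCast_zero {W₁ W₂ : WeierstrassCurve K} (h : W₁ = W₂) : vcCast h 0 = 0 := by
  subst h; rfl

lemma vcCast_some {W₁ W₂ : WeierstrassCurve K} (h : W₁ = W₂) {x y : K}
    (hxy : W₁.toAffine.Nonsingular x y) :
    vcCast h (.some x y hxy) = .some x y (h ▸ hxy) := by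
  subst h; rfl

end Cast

section Galois

open WeierstrassCurve.Affine.Point

variable {F K : Type*} [Field F] [Field K] [Algebra F K] [DecidableEq K]

/-- the change of variables between the base changes of `C • E` and of `E` -/
noncomputable def vcBase (E : WeierstrassCurve F) (C : VariableChange F) :
    ((C • E)⁄K).toAffine.Point ≃+ (E⁄K).toAffine.Point :=
  (vcCast (show (C • E)⁄K = (C.map (algebraMap F K)) • (E⁄K) from
      (WeierstrassCurve.map_variableChange E C (algebraMap F K)).symm)).trans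
    (vcEquiv (E⁄K) (C.map (algebraMap F K)))

lemma vcBase_zero (E : WeierstrassCurve F) (C : VariableChange F) :
    vcBase (K := K) E C 0 = 0 := map_zero _

lemma vcBase_some (E : WeierstrassCurve F) (C : VariableChange F) {x y : K}
    (h : ((C • E)⁄K).toAffine.Nonsingular x y) :
    ∃ h', vcBase (K := K) E C (.some x y h) =
      .some (vcX (C.map (algebraMap F K)) x) (vcY (C.map (algebraMap F K)) x y) h' := by
  refine ⟨(vc_nonsingular_iff (E⁄K) (C.map (algebraMap F K)) x y).1
      ((WeierstrassCurve.map_variableChange E C (algebraMap F K)).symm ▸ h), ?_⟩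
  simp only [vcBase, AddEquiv.trans_apply, vcCast_some, vcEquiv_apply, vcFun_some]

lemma vcX_algEquiv (C : VariableChange F) (σ : K ≃ₐ[F] K) (x : K) :
    σ (vcX (C.map (algebraMap F K)) x) = vcX (C.map (algebraMap F K)) (σ x) := by
  simp only [vcX, VariableChange.map, Units.coe_map, MonoidHom.coe_coe, map_add, map_mul,
    map_pow, AlgEquiv.commutes]

lemma vcY_algEquiv (C : VariableChange F) (σ : K ≃ₐ[F] K) (x y : K) :
    σ (vcY (C.map (algebraMap F K)) x y) = vcY (C.map (algebraMap F K)) (σ x) (σ y) := by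
  simp only [vcY, VariableChange.map, Units.coe_map, MonoidHom.coe_coe, map_add, map_mul,
    map_pow, AlgEquiv.commutes]

/-- **Galois equivariance** of the change of variables defined over the base field. -/
theorem vcBase_smul (E : WeierstrassCurve F) (C : VariableChange F) (σ : K ≃ₐ[F] K)
    (P : ((C • E)⁄K).toAffine.Point) :
    vcBase (K := K) E C (σ • P) = σ • vcBase (K := K) E C P := by
  rcases P with _ | ⟨x, y, h⟩
  · change vcBase (K := K) E C (σ • (0 : ((C • E)⁄K).toAffine.Point)) =
      σ • vcBase (K := K) E C (0 : ((C • E)⁄K).toAffine.Point)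
    rw [smul_zero, vcBase_zero, smul_zero]
  · rw [algEquiv_smul_def, Point.map_some]
    obtain ⟨h1, e1⟩ := vcBase_some (K := K) E C h
    obtain ⟨h2, e2⟩ := vcBase_some (K := K) E C
      ((((C • E).toAffine).baseChange_nonsingular σ.toAlgHom.injective x y).mpr h)
    rw [e1, algEquiv_smul_def, Point.map_some]
    rw [e2]
    congr 1
    · exact (vcX_algEquiv C σ x).symm
    · exact (vcY_algEquiv C σ x y).symm

/-- **Transport.**  If `C • E₂ = E₁` over `F`, the point groups of `E₁` and `E₂` over an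
extension `K` are isomorphic, compatibly with the action of `Aut(K/F)`. -/
theorem vc_transport (E₁ E₂ : WeierstrassCurve F) (C : VariableChange F) (h : C • E₂ = E₁) :
    ∃ e : (E₁⁄K).toAffine.Point ≃+ (E₂⁄K).toAffine.Point,
      ∀ (σ : K ≃ₐ[F] K) (P : (E₁⁄K).toAffine.Point), e (σ • P) = σ • e P := by
  subst h
  exact ⟨vcBase E₂ C, fun σ P => vcBase_smul E₂ C σ P⟩

end Galois

end Fermat.Agent.EC
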